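import Fermat.Agent.P2.RT.Dih

/-!
# P2, block 5b-i: the abstract dihedral argument
-/

set_option autoImplicit false

namespace Fermat.Agent.P2.RT.Dih

local notation "M₂" => Matrix (Fin 2) (Fin 2)

section Aug

open MonoidAlgebra

variable {F : Type*} [Field F] {C : Type*} [CommGroup C]

/-- augmentation -/
noncomputable def aug : MonoidAlgebra F C →+* F := (MonoidAlgebra.lift F F C 1).toRingHom

@[simp] theorem aug_single (c : C) (a : F) : aug (single c a) = a := by
  simp [aug]

variable [CharP F 2]

theorem charP_monoidAlgebra' : CharP (MonoidAlgebra F C) 2 := charP_of_injective_algebraMap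
    (show Function.Injective (algebraMap F (MonoidAlgebra F C)) from
      MonoidAlgebra.single_right_injective) 2

theorem pow_eq_single {m : ℕ} (hm : ∀ c : C, c ^ 2 ^ m = 1) (x : MonoidAlgebra F C) :
    x ^ 2 ^ m = single 1 (aug x ^ 2 ^ m) := by
  have : CharP (MonoidAlgebra F C) 2 := charP_monoidAlgebra'
  induction x using MonoidAlgebra.induction_linear with
  | zero => rw [map_zero, zero_pow (by positivity), zero_pow (by positivity), single_zero]
  | add f g hf hg => rw [add_pow_char_pow, hf, hg, map_add, add_pow_char_pow, single_add]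
  | single c a => rw [single_pow, hm, aug_single]

theorem isUnit_of_aug {m : ℕ} (hm : ∀ c : C, c ^ 2 ^ m = 1) {x : MonoidAlgebra F C}
    (hx : aug x ≠ 0) : IsUnit x := by
  have h1 := pow_eq_single hm x
  have h2 : IsUnit (x ^ 2 ^ m) := by
    rw [h1]
    exact (isUnit_iff_ne_zero.mpr (pow_ne_zero _ hx)).map (algebraMap F (MonoidAlgebra F C))
  exact (isUnit_pow_iff (by positivity)).mp h2

end Aug

section LocalRing

variable {B : Type*} [CommRing B] [Finite B] (r : B →+* ZMod 2) (hr : ∀ x, IsUnit x ↔ r x = 1)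

include hr in
theorem nilp_of_r {b : B} (hb : r b = 0) : IsNilpotent b := by
  obtain ⟨i, j, hij, h⟩ := Finite.exists_ne_map_eq_of_infinite fun n : ℕ => b ^ n
  wlog hlt : i < j generalizing i j
  · exact this j i (Ne.symm hij) h.symm (lt_of_le_of_ne (not_lt.mp hlt) (Ne.symm hij))
  have h : b ^ i = b ^ j := h
  have hu : IsUnit (1 - b ^ (j - i)) := by
    rw [hr, map_sub, map_one, map_pow, hb, zero_pow (by omega), sub_zero]
  refine ⟨i, ?_⟩
  have h1 : b ^ i * (1 - b ^ (j - i)) = 0 := by
    rw [mul_sub, mul_one, ← pow_add, Nat.add_sub_cancel' hlt.le, ← h, sub_self]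
  exact (hu.mul_left_eq_zero).mp h1

include hr in
/-- a ring homomorphism to a field is the reduction -/
theorem map_eq_one_of_r {F : Type*} [Field F] [CharP F 2] (ψ : B →+* F) {b : B} (hb : r b = 1) :
    ψ b = 1 := by
  have h1 : IsNilpotent (b - 1) := nilp_of_r r hr (by rw [map_sub, hb, map_one, sub_self])
  have h2 : ψ (b - 1) = 0 := (h1.map ψ).eq_zero
  rw [map_sub, map_one, sub_eq_zero] at h2
  exact h2

include hr in
theorem map_eq_zero_of_r {F : Type*} [Field F] (ψ : B →+* F) {b : B} (hb : r b = 0) :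
    ψ b = 0 := ((nilp_of_r r hr hb).map ψ).eq_zero

end LocalRing

section Psi

open MonoidAlgebra

variable {B : Type*} [CommRing B] [CharP B 2] {F : Type*} [Field F] [CharP F 2] {C : Type*}
  [CommGroup C] (φ : B →+* MonoidAlgebra F C) (ω : M₂ B) (w : F)

/-- extension of `φ` to the commutant of `ω` -/
noncomputable def psi (X : M₂ B) : MonoidAlgebra F C :=
  φ (X 0 0 + X.trace * ω 0 0) + φ X.trace * single 1 w

theorem psi_one : psi φ ω w 1 = 1 := by
  have h2 : (2 : B) = 0 := CharTwo.two_eq_zero
  simp [psi, Matrix.trace_one, h2]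

variable (hω : ω.trace = 1)

include hω in
theorem psi_omega : psi φ ω w ω = single 1 w := by
  rw [psi, hω, one_mul, CharTwo.add_self_eq_zero, map_zero, map_one, one_mul, zero_add]

variable (hdet : ω.det = 1) (hw : w ^ 2 = w + 1)

include hω hdet hw in
theorem psi_mul {X Y : M₂ B} (hX : ω * X = X * ω) (hY : ω * Y = Y * ω) :
    psi φ ω w (X * Y) = psi φ ω w X * psi φ ω w Y := by
  have h2 : (2 : B) = 0 := CharTwo.two_eq_zero
  have hωω : ω * ω = ω + 1 := by rw [sq_eq ω hdet, hω, one_smul]
  set β := X.trace with hβ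
  set β' := Y.trace with hβ'
  set α := X 0 0 + X.trace * ω 0 0 with hα
  set α' := Y 0 0 + Y.trace * ω 0 0 with hα'
  have eX : X = β • ω + α • 1 := eq_of_commute ω X hω hX
  have eY : Y = β' • ω + α' • 1 := eq_of_commute ω Y hω hY
  have eXY : X * Y = (β * β' + β * α' + α * β') • ω + (α * α' + β * β') • 1 := by
    rw [eX, eY, add_mul, mul_add, mul_add, smul_mul_smul_comm, smul_mul_smul_comm,
      smul_mul_smul_comm, smul_mul_smul_comm, hωω, mul_one, one_mul, mul_one]
    module
  have t : (X * Y).trace = β * β' + β * α' + α * β' := by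
    rw [eXY, Matrix.trace_add, Matrix.trace_smul, Matrix.trace_smul, hω, Matrix.trace_one,
      Fintype.card_fin, smul_eq_mul, smul_eq_mul, mul_one]
    push_cast
    linear_combination (α * α' + β * β') * h2
  have a : (X * Y) 0 0 + (X * Y).trace * ω 0 0 = α * α' + β * β' := by
    rw [t, eXY]
    simp only [Matrix.add_apply, Matrix.smul_apply, Matrix.one_apply_eq, smul_eq_mul, mul_one]
    linear_combination ((β * β' + β * α' + α * β') * ω 0 0) * h2
  have hw' : (single 1 w : MonoidAlgebra F C) * single 1 w = single 1 w + 1 := by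
    rw [single_mul_single, one_mul, ← pow_two, hw, single_add]; rfl
  rw [psi, a, t, psi, psi]
  rw [← hα, ← hβ, ← hα', ← hβ']
  simp only [map_add, map_mul]
  linear_combination (-(φ β * φ β')) * hw'

include hω hdet hw in
theorem psi_sq {X : M₂ B} (hX : ω * X = X * ω) (hXd : X.det = 1) :
    psi φ ω w X * psi φ ω w X = φ X.trace * psi φ ω w X + 1 := by
  have h2 : (2 : B) = 0 := CharTwo.two_eq_zero
  rw [← psi_mul φ ω w hω hdet hw hX hX, sq_eq X hXd]
  have t : (X.trace • X + 1 : M₂ B).trace = X.trace * X.trace := by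
    rw [Matrix.trace_add, Matrix.trace_smul, Matrix.trace_one, Fintype.card_fin, smul_eq_mul]
    push_cast
    linear_combination h2
  rw [psi, t, psi]
  simp only [Matrix.add_apply, Matrix.smul_apply, Matrix.one_apply_eq, smul_eq_mul]
  simp only [map_add, map_mul, map_one]
  ring

end Psi

end Fermat.Agent.P2.RT.Dih

namespace Fermat.Agent.P2.RT.Dih

local notation "M₂" => Matrix (Fin 2) (Fin 2)

section Indep

open MonoidAlgebra

variable {F : Type*} [Field F] [CharP F 2] {C : Type*} [CommGroup C] [Fintype C]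

theorem zmod_two_cases (x : ZMod 2) : x = 0 ∨ x = 1 := by
  fin_cases x
  · left; rfl
  · right; rfl

theorem w_inv {w : F} (hw : w ^ 2 = w + 1) : w⁻¹ = w + 1 := by
  have h2 : (2 : F) = 0 := CharTwo.two_eq_zero
  exact inv_eq_of_mul_eq_one_right (by linear_combination hw + w * h2)

/-- independence of the elements `w [c] + w⁻¹ [c⁻¹]` over `𝔽₂` -/
theorem indep {w w' : F} (hw' : w' = w + 1) (hw : w ^ 2 = w + 1) (a : C → ZMod 2)
    (h : ∑ c, (single 1 (ZMod.castHom (dvd_refl 2) F (a c)) : MonoidAlgebra F C) *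
      (single c w + single c⁻¹ w') = 0) (d : C) : a d = 0 := by
  classical
  have h2 : (2 : F) = 0 := CharTwo.two_eq_zero
  have h1 := congrArg (fun x : MonoidAlgebra F C => x.coeff d) h
  simp only [coeff_sum, mul_add, single_mul_single, one_mul, coeff_add, Finsupp.add_apply,
    Finsupp.finsetSum_apply, coeff_single, Finsupp.single_apply, coeff_zero, Finsupp.zero_apply,
    Finset.sum_add_distrib, Finset.sum_ite_eq', Finset.mem_univ, if_true] at h1
  have h3 : ∑ x, (if x⁻¹ = d then (ZMod.castHom (dvd_refl 2) F) (a x) * w' else 0) =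
      (ZMod.castHom (dvd_refl 2) F) (a d⁻¹) * w' := by
    rw [Finset.sum_eq_single d⁻¹]
    · simp
    · intro b _ hb
      rw [if_neg]
      rintro rfl
      exact hb (inv_inv b).symm
    · simp
  rw [h3] at h1
  rcases zmod_two_cases (a d) with hd | hd
  · exact hd
  · exfalso
    subst hw'
    rcases zmod_two_cases (a d⁻¹) with hd' | hd' <;> rw [hd, hd'] at h1 <;> simp at h1
    · subst h1
      simp at hw
    · have : (1 : F) = 0 := by linear_combination h1 - w * h2
      exact one_ne_zero this

end Indep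

end Fermat.Agent.P2.RT.Dih
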