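import Fermat.Agent.P2.AR.Final
import Fermat.Agent.P2.AR.ClT
import Fermat.Agent.P2.RT.DihAbs
import Fermat.Agent.TWP.FlatLoc.Val

/-!
# P2, block 5: the hypotheses of `Block34Out`

`K = ℚ(√-N) ⊂ ℚ̄`, `χ` a non trivial unramified character of `G_K` of odd order, `ψ` a character of
`Cl(K)` with kernel `Vsub K χ`, `κ : Cl(K) → C` with `C` a `2`-group, `β [c] = [κ c] ψ(c)`.
For every `1 ≠ d ∣ ∏ Q` there is a prime `ℓ ∤ M` with `-d` not a square modulo `ℓ` and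
`β (clT K ℓ)` a unit.
-/

set_option autoImplicit false
set_option linter.unusedSectionVars false
set_option linter.style.haveILetI false

open NumberField
open Fermat.Agent.FrobExists Fermat.Agent.FrobPlaceLift

noncomputable section

namespace Fermat.Agent.P2.RT

open Sel AR

local notation "Ω" => AlgebraicClosure ℚ

namespace H34

/-! ### Square roots and Frobenius elements -/

theorem val_natCast_lt_one_iff {P : ValuationSubring Ω} {ℓ : ℕ} (hℓ : ℓ.Prime)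
    (hP : P.LiesOverPrime ℓ) {n : ℕ} (hn : P.valuation (n : Ω) < 1) : ℓ ∣ n := by
  by_contra hcon
  have hcop : Nat.Coprime n ℓ := ((Nat.Prime.coprime_iff_not_dvd hℓ).mpr hcon).symm
  have hℓ1 : P.valuation (ℓ : Ω) < 1 := P.mem_nonunits_iff.mp hP
  have hle : ∀ z : ℤ, P.valuation (z : Ω) ≤ 1 := fun z =>
    (P.valuation_le_one_iff _).mpr (intCast_mem P z)
  have h1 : (1 : Ω) = (n : Ω) * (Nat.gcdA n ℓ : ℤ) + (ℓ : Ω) * (Nat.gcdB n ℓ : ℤ) := by
    have h2 := Nat.gcd_eq_gcd_ab n ℓ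
    rw [hcop.gcd_eq_one] at h2
    exact_mod_cast h2
  have h2 : P.valuation (1 : Ω) < 1 := by
    rw [h1]
    refine P.valuation.map_add_lt ?_ ?_
    · rw [map_mul]
      exact mul_lt_one_of_lt_of_le hn (hle _)
    · rw [map_mul]
      exact mul_lt_one_of_lt_of_le hℓ1 (hle _)
  rw [map_one] at h2
  exact lt_irrefl _ h2

/-- If an element of the decomposition group at `P ∣ ℓ` moves `√-d` then `-d` is not a square
modulo `ℓ`. -/
theorem not_isSquare_of_neg {P : ValuationSubring Ω} {ℓ d : ℕ} (hℓ : ℓ.Prime)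
    (hP : P.LiesOverPrime ℓ) (h2 : ℓ ≠ 2) (hd : ¬ ℓ ∣ d) {δ : Ω} (hδ : δ ^ 2 = -(d : Ω)) {φ : GQ}
    (hφ : φ ∈ P.decompositionSubgroup ℚ) (hφδ : φ δ = -δ) : ¬ IsSquare (-(d : ZMod ℓ)) := by
  haveI : NeZero ℓ := ⟨hℓ.ne_zero⟩
  rintro ⟨z, hz⟩
  have hdvd : ℓ ∣ d + z.val ^ 2 := by
    rw [← ZMod.natCast_eq_zero_iff]
    push_cast
    rw [ZMod.natCast_zmod_val]
    linear_combination -hz
  have hint : ∀ n : ℕ, P.valuation (n : Ω) ≤ 1 := fun n =>
    (P.valuation_le_one_iff _).mpr (natCast_mem P n)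
  have h1 : P.valuation ((δ - z.val) * (δ + z.val)) < 1 := by
    obtain ⟨k, hk⟩ := hdvd
    have e : (δ - z.val) * (δ + z.val) = -((ℓ : Ω) * (k : Ω)) := by
      have h3 : ((d + z.val ^ 2 : ℕ) : Ω) = ((ℓ * k : ℕ) : Ω) := by rw [hk]
      push_cast at h3
      linear_combination hδ - h3
    rw [e, Valuation.map_neg, map_mul]
    exact mul_lt_one_of_lt_of_le (P.mem_nonunits_iff.mp hP) (hint k)
  -- `δ ≡ s` for an integer `s`
  obtain ⟨s, hs⟩ : ∃ s : ℤ, P.valuation (δ - s) < 1 := by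
    by_cases h3 : P.valuation (δ - z.val) < 1
    · exact ⟨z.val, by exact_mod_cast h3⟩
    · refine ⟨-(z.val : ℤ), ?_⟩
      push_cast
      rw [sub_neg_eq_add]
      by_contra h4
      rw [map_mul] at h1
      exact absurd h1 (not_lt.mpr (one_le_mul (not_lt.mp h3) (not_lt.mp h4)))
  have h3 : P.valuation (-δ - s) < 1 := by
    have h4 := TWFlat.val_dec hφ (δ - s)
    rw [map_sub, map_intCast, hφδ] at h4
    rw [h4]
    exact hs
  have h4 : P.valuation (2 * δ) < 1 := by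
    have e : 2 * δ = (δ - s) - (-δ - s) := by ring
    rw [e]
    exact P.valuation.map_sub_lt hs h3
  have h5 : P.valuation ((4 * d : ℕ) : Ω) < 1 := by
    have e : ((4 * d : ℕ) : Ω) = -((2 * δ) ^ 2) := by
      push_cast
      linear_combination (4 : Ω) * hδ
    rw [e, Valuation.map_neg, map_pow]
    exact pow_lt_one₀ zero_le h4 two_ne_zero
  have h6 := val_natCast_lt_one_iff hℓ hP h5
  rcases hℓ.dvd_mul.mp h6 with h7 | h7
  · have h8 : (4 : ℕ) = 2 ^ 2 := rfl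
    rw [h8] at h7
    exact h2 ((Nat.prime_dvd_prime_iff_eq hℓ Nat.prime_two).mp (hℓ.dvd_of_dvd_pow h7))
  · exact hd h7

/-- complex conjugation on `√-d` -/
theorem conj_sqrt {d : ℕ} (hd : 0 < d) {δ : Ω} (hδ : δ ^ 2 = -(d : Ω)) :
    complexConjugation δ = -δ := by
  suffices h : complexEmbedding (complexConjugation δ) = complexEmbedding (-δ) from
    complexEmbedding.injective h
  rw [complexEmbedding_complexConjugation, map_neg]
  set z : ℂ := complexEmbedding δ with hz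
  have hz2 : z ^ 2 = -(d : ℂ) := by
    rw [hz, ← map_pow, hδ, map_neg, map_natCast]
  have h1 : (starRingEnd ℂ z) ^ 2 = z ^ 2 := by
    rw [← map_pow, hz2, map_neg, map_natCast]
  rcases sq_eq_sq_iff_eq_or_eq_neg.mp h1 with h2 | h2
  · exfalso
    obtain ⟨x, hx⟩ := Complex.conj_eq_iff_real.mp h2
    rw [hx] at hz2
    have h3 : x ^ 2 = -(d : ℝ) := by exact_mod_cast hz2
    have h4 : (0 : ℝ) < d := by exact_mod_cast hd
    nlinarith [sq_nonneg x]
  · exact h2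

/-- `√-d` and `√-N` are independent if `d` is odd and `2 ∥ N`. -/
theorem exists_moves {K : IntermediateField ℚ Ω} {N d : ℕ} (hN : padicValNat 2 N = 1)
    (hd : ¬ 2 ∣ d) {r δ : Ω} (hr : r ^ 2 = -(N : Ω)) (hδ : δ ^ 2 = -(d : Ω))
    (hK : ∀ g : GQ, g r = r → g ∈ K.fixingSubgroup) :
    ∃ g ∈ K.fixingSubgroup, g δ = -δ := by
  have hN0 : 0 < N := by
    rcases Nat.eq_zero_or_pos N with h | h
    · rw [h, padicValNat_zero_right] at hN
      exact absurd hN (by norm_num)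
    · exact h
  have hd0 : 0 < d := by
    rcases Nat.eq_zero_or_pos d with h | h
    · exact absurd (h ▸ dvd_zero 2) hd
    · exact h
  by_contra hcon
  push Not at hcon
  -- every element of `G_K` fixes `δ`
  have hsq : ∀ (x : Ω) (n : ℕ), x ^ 2 = -(n : Ω) → ∀ g : GQ, g x = x ∨ g x = -x := by
    intro x n hx g
    have h1 : (g x) ^ 2 = x ^ 2 := by
      rw [← map_pow, hx, map_neg, map_natCast]
    exact sq_eq_sq_iff_eq_or_eq_neg.mp h1
  have hfix : ∀ g ∈ K.fixingSubgroup, g δ = δ := by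
    intro g hg
    rcases hsq δ d hδ g with h | h
    · exact h
    · exact absurd h (hcon g hg)
  have hc1 := conj_sqrt hN0 hr
  have hc2 := conj_sqrt hd0 hδ
  -- `δ r` is fixed by everything
  have hall : ∀ g : GQ, g (δ * r) = δ * r := by
    intro g
    rcases hsq r N hr g with h | h
    · rw [map_mul, h, hfix g (hK g h)]
    · have h1 : (complexConjugation⁻¹ * g) r = r := by
        change complexConjugation⁻¹ (g r) = r
        rw [h, complexConjugation_inv, map_neg, hc1, neg_neg]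
      have h2 : (complexConjugation⁻¹ * g) δ = δ := hfix _ (hK _ h1)
      have h3 : g δ = -δ := by
        have h4 : complexConjugation ((complexConjugation⁻¹ * g) δ) = g δ := by
          change (complexConjugation * (complexConjugation⁻¹ * g)) δ = g δ
          rw [mul_inv_cancel_left]
        rw [← h4, h2, hc2]
      rw [map_mul, h, h3, neg_mul_neg]
  have hbot : δ * r ∈ (⊥ : IntermediateField ℚ Ω) := by
    rw [← InfiniteGalois.fixedField_bot, IntermediateField.mem_fixedField_iff]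
    exact fun g _ => hall g
  obtain ⟨t, ht⟩ := IntermediateField.mem_bot.mp hbot
  have ht2 : t ^ 2 = ((d * N : ℕ) : ℚ) := by
    have h1 : (algebraMap ℚ Ω t) ^ 2 = algebraMap ℚ Ω ((d * N : ℕ) : ℚ) := by
      rw [ht, mul_pow, hr, hδ]
      push_cast
      rw [neg_mul_neg]
    rw [← map_pow] at h1
    exact (algebraMap ℚ Ω).injective h1
  have ht0 : t ≠ 0 := by
    rintro rfl
    rw [zero_pow two_ne_zero, eq_comm, Nat.cast_eq_zero, Nat.mul_eq_zero] at ht2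
    omega
  have h1 := congrArg (padicValRat 2) ht2
  rw [padicValRat.pow t, padicValRat.of_nat, padicValNat.mul hd0.ne' hN0.ne', hN,
    padicValNat.eq_zero_of_not_dvd hd] at h1
  omega

/-! ### Units of the group ring -/

theorem isUnit_single_add {F C : Type*} [Field F] [CharP F 2] [CommGroup C]
    (hC : ∃ m : ℕ, ∀ c : C, c ^ 2 ^ m = 1) (c : C) {u : Fˣ} (hu : u ≠ 1) :
    IsUnit (MonoidAlgebra.single c (u : F) + MonoidAlgebra.single c⁻¹ ((u⁻¹ : Fˣ) : F)) := by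
  obtain ⟨m, hm⟩ := hC
  refine Dih.isUnit_of_aug hm ?_
  rw [map_add, Dih.aug_single, Dih.aug_single]
  intro h
  apply hu
  have h1 : (u : F) * u = 1 := by
    have h2 : (u : F) * (u + (u⁻¹ : Fˣ)) = 0 := by rw [h, mul_zero]
    rw [mul_add, Units.mul_inv] at h2
    have h3 := eq_neg_of_add_eq_zero_left h2
    rwa [CharTwo.neg_eq] at h3
  have h2 : ((u : F) - 1) * (u - 1) = 0 := by
    have h3 : (2 : F) = 0 := CharTwo.two_eq_zero
    linear_combination h1 + (1 - (u : F)) * h3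
  exact Units.ext (sub_eq_zero.mp (mul_self_eq_zero.mp h2))

end H34

/-! ### The hypotheses of `Block34Out` -/

section Main

variable {K : IntermediateField ℚ Ω} [NumberField K] [IsTotallyComplex K]
  {X : Type} [Group X] {χ : K.fixingSubgroup →* X} {S : Finset ℕ}
  {F C : Type*} [Field F] [CharP F 2] [CommGroup C]

/-- good primes -/
theorem exists_unit_prime (hK : Module.finrank ℚ K = 2) (hχ : Unr K χ)
    (hur : ∀ ℓ : ℕ, ℓ.Prime → ℓ ∉ S → ∀ P : ValuationSubring Ω, P.LiesOverPrime ℓ →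
      ∀ g ∈ P.inertiaSubgroupIn ℚ, g ∈ K.fixingSubgroup)
    (ψ : ClassGroup (𝓞 K) →* Fˣ) (hψ : ∀ c, ψ c = 1 → c ∈ Vsub K χ)
    (κ : ClassGroup (𝓞 K) →* C) (hC : ∃ m : ℕ, ∀ c : C, c ^ 2 ^ m = 1)
    (β : MonoidAlgebra (ZMod 2) (ClassGroup (𝓞 K)) →+* MonoidAlgebra F C)
    (hβ : ∀ c, β (MonoidAlgebra.single c 1) = MonoidAlgebra.single (κ c) (ψ c : F))
    (F₀ : IntermediateField ℚ Ω) [FiniteDimensional ℚ F₀] (B : Finset ℕ) {g : K.fixingSubgroup}
    (hg : χ g ≠ 1) :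
    ∃ ℓ : ℕ, ℓ.Prime ∧ ℓ ∉ B ∧ IsUnit (β (clT K ℓ)) ∧ ∃ P : ValuationSubring Ω,
      P.LiesOverPrime ℓ ∧ ∃ φ : K.fixingSubgroup, P.IsFrobeniusAt (φ : GQ) ℓ ∧
        ∀ x ∈ F₀, (φ : GQ) x = (g : GQ) x := by
  obtain ⟨ℓ, hℓ, hB, P, hP, φ, hφ, hx, hcl⟩ :=
    exists_frobenius_notMem hK (ι := Unit) (fun _ => χ) (fun _ => hχ) F₀ (B ∪ S) g
  rw [Finset.notMem_union] at hB
  refine ⟨ℓ, hℓ, hB.1, ?_, P, hP, φ, hφ, hx⟩
  rw [clT_of_mem hK hℓ hP (hur ℓ hℓ hB.2 P hP) hφ φ.2, map_add, hβ, hβ, map_inv, map_inv]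
  exact H34.isUnit_single_add hC _ fun h => hcl () hg (hψ _ h)

/-- **The second hypothesis of `Block34Out`.** -/
theorem exists_unit_clT (hK : Module.finrank ℚ K = 2) (hχ : Unr K χ)
    (hχ1 : ∃ g, χ g ≠ 1)
    (hur : ∀ ℓ : ℕ, ℓ.Prime → ℓ ∉ S → ∀ P : ValuationSubring Ω, P.LiesOverPrime ℓ →
      ∀ g ∈ P.inertiaSubgroupIn ℚ, g ∈ K.fixingSubgroup)
    (ψ : ClassGroup (𝓞 K) →* Fˣ) (hψ : ∀ c, ψ c = 1 → c ∈ Vsub K χ)
    (κ : ClassGroup (𝓞 K) →* C) (hC : ∃ m : ℕ, ∀ c : C, c ^ 2 ^ m = 1)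
    (β : MonoidAlgebra (ZMod 2) (ClassGroup (𝓞 K)) →+* MonoidAlgebra F C)
    (hβ : ∀ c, β (MonoidAlgebra.single c 1) = MonoidAlgebra.single (κ c) (ψ c : F))
    {M : ℕ} (hM : M ≠ 0) :
    ∃ ℓ : ℕ, ℓ.Prime ∧ ¬ ℓ ∣ M ∧ IsUnit (β (clT K ℓ)) := by
  obtain ⟨g, hg⟩ := hχ1
  obtain ⟨ℓ, hℓ, hB, h, -⟩ := exists_unit_prime hK hχ hur ψ hψ κ hC β hβ ⊥ M.primeFactors hg
  exact ⟨ℓ, hℓ, fun hd => hB (Nat.mem_primeFactors.mpr ⟨hℓ, hd, hM⟩), h⟩

/-- **The first hypothesis of `Block34Out`.** -/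
theorem exists_unit_clT_nonsquare (hK : Module.finrank ℚ K = 2) (hχ : Unr K χ)
    (hχ1 : ∃ g, χ g ≠ 1) {k : ℕ} (hk : Odd k) (hχk : ∀ g, χ g ^ k = 1)
    (hur : ∀ ℓ : ℕ, ℓ.Prime → ℓ ∉ S → ∀ P : ValuationSubring Ω, P.LiesOverPrime ℓ →
      ∀ g ∈ P.inertiaSubgroupIn ℚ, g ∈ K.fixingSubgroup)
    (ψ : ClassGroup (𝓞 K) →* Fˣ) (hψ : ∀ c, ψ c = 1 → c ∈ Vsub K χ)
    (κ : ClassGroup (𝓞 K) →* C) (hC : ∃ m : ℕ, ∀ c : C, c ^ 2 ^ m = 1)
    (β : MonoidAlgebra (ZMod 2) (ClassGroup (𝓞 K)) →+* MonoidAlgebra F C)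
    (hβ : ∀ c, β (MonoidAlgebra.single c 1) = MonoidAlgebra.single (κ c) (ψ c : F))
    (hS : ∀ q ∈ S, q.Prime) (h2 : 2 ∈ S) {r : Ω} (hr : r ^ 2 = -((∏ q ∈ S, q : ℕ) : Ω))
    (hKr : ∀ g : GQ, g r = r → g ∈ K.fixingSubgroup)
    {Q : Finset ℕ} (hQ : ∀ q ∈ Q, q.Prime ∧ q ∉ S) {M : ℕ} (hM : M ≠ 0) {d : ℕ}
    (hd : d ∣ ∏ q ∈ Q, q) :
    ∃ ℓ : ℕ, ℓ.Prime ∧ ¬ ℓ ∣ M ∧ ¬ IsSquare (-(d : ZMod ℓ)) ∧ IsUnit (β (clT K ℓ)) := by
  -- `d` is odd
  have hd2 : ¬ 2 ∣ d := by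
    intro h
    obtain ⟨q, hq, hq2⟩ := (Prime.dvd_finsetProd_iff Nat.prime_two.prime _).mp (h.trans hd)
    have h3 : q = 2 := ((Nat.prime_dvd_prime_iff_eq Nat.prime_two (hQ q hq).1).mp hq2).symm
    exact (hQ q hq).2 (h3 ▸ h2)
  -- `2 ∥ N`
  have hN : padicValNat 2 (∏ q ∈ S, q) = 1 := by
    rw [← Finset.mul_prod_erase S (fun q => q) h2]
    have h0 : ∏ q ∈ S.erase 2, q ≠ 0 :=
      Finset.prod_ne_zero_iff.mpr fun q hq => (hS q (Finset.mem_of_mem_erase hq)).ne_zero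
    rw [padicValNat.mul two_ne_zero h0, padicValNat_self,
      padicValNat.eq_zero_of_not_dvd (fun h => ?_)]
    obtain ⟨q, hq, hq2⟩ := (Prime.dvd_finsetProd_iff Nat.prime_two.prime _).mp h
    exact Finset.ne_of_mem_erase hq
      ((Nat.prime_dvd_prime_iff_eq Nat.prime_two (hS q (Finset.mem_of_mem_erase hq))).mp hq2).symm
  obtain ⟨δ, hδ⟩ : ∃ δ : Ω, δ ^ 2 = -(d : Ω) := IsAlgClosed.exists_pow_nat_eq _ two_pos
  obtain ⟨h, hhK, hhδ⟩ := H34.exists_moves (K := K) hN hd2 hr hδ hKr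
  have hsq : ∀ g : GQ, g δ = δ ∨ g δ = -δ := by
    intro g
    have h1 : (g δ) ^ 2 = δ ^ 2 := by rw [← map_pow, hδ, map_neg, map_natCast]
    exact sq_eq_sq_iff_eq_or_eq_neg.mp h1
  -- an element of `G_K` with `χ g ≠ 1` and `g δ = -δ`
  obtain ⟨g, hg, hgδ⟩ : ∃ g : K.fixingSubgroup, χ g ≠ 1 ∧ (g : GQ) δ = -δ := by
    by_cases hh : χ ⟨h, hhK⟩ ≠ 1
    · exact ⟨⟨h, hhK⟩, hh, hhδ⟩
    · rw [not_not] at hh
      obtain ⟨s, hs⟩ := hχ1
      -- `s ^ (k + 1)` fixes `δ` and `χ (s ^ (k + 1)) = χ s`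
      have h1 : (((s ^ (k + 1) : K.fixingSubgroup)) : GQ) δ = δ := by
        obtain ⟨m, hm⟩ : ∃ m, k + 1 = 2 * m := by
          obtain ⟨m, rfl⟩ := hk
          exact ⟨m + 1, by ring⟩
        rw [hm, pow_mul]
        have h3 : ((s ^ 2 : K.fixingSubgroup) : GQ) δ = δ := by
          rw [pow_two]
          change (s : GQ) ((s : GQ) δ) = δ
          rcases hsq s with h4 | h4
          · rw [h4, h4]
          · rw [h4, map_neg, h4, neg_neg]
        induction m with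
        | zero => omega
        | succ m ih =>
          clear ih
          have h5 : ∀ j : ℕ, (((s ^ 2) ^ j : K.fixingSubgroup) : GQ) δ = δ := by
            intro j
            induction j with
            | zero => rfl
            | succ j ih =>
              rw [pow_succ]
              change (((s ^ 2) ^ j : K.fixingSubgroup) : GQ) (((s ^ 2 : K.fixingSubgroup) : GQ) δ)
                = δ
              rw [h3, ih]
          exact h5 _
      refine ⟨⟨h, hhK⟩ * s ^ (k + 1), ?_, ?_⟩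
      · rw [map_mul, hh, one_mul, map_pow, pow_succ, hχk, one_mul]
        exact hs
      · change h ((((s ^ (k + 1) : K.fixingSubgroup)) : GQ) δ) = -δ
        rw [h1, hhδ]
  haveI : FiniteDimensional ℚ (IntermediateField.adjoin ℚ {δ}) :=
    IntermediateField.adjoin.finiteDimensional (Algebra.IsAlgebraic.isAlgebraic δ).isIntegral
  have hd0 : d ≠ 0 := fun h => hd2 (h ▸ dvd_zero 2)
  obtain ⟨ℓ, hℓ, hB, hu, P, hP, φ, hφ, hx⟩ := exists_unit_prime hK hχ hur ψ hψ κ hC β hβ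
    (IntermediateField.adjoin ℚ {δ}) (M.primeFactors ∪ (insert 2 d.primeFactors)) hg
  rw [Finset.notMem_union, Finset.mem_insert, not_or] at hB
  refine ⟨ℓ, hℓ, fun h => hB.1 (Nat.mem_primeFactors.mpr ⟨hℓ, h, hM⟩), ?_, hu⟩
  refine H34.not_isSquare_of_neg hℓ hP hB.2.1
    (fun h => hB.2.2 (Nat.mem_primeFactors.mpr ⟨hℓ, h, hd0⟩)) hδ
    hφ.mem_decompositionSubgroup ?_
  rw [hx δ (IntermediateField.mem_adjoin_simple_self ℚ δ), hgδ]

end Main

end Fermat.Agent.P2.RT
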