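import Fermat.Agent.P2.RT.DihMain
import Fermat.Agent.P2.Defs

/-!
# P2, block 5b-i: the characteristic two theorem
-/

set_option autoImplicit false
set_option linter.unusedSectionVars false

namespace Fermat.Agent.P2.RT

local notation "M₂" => Matrix (Fin 2) (Fin 2)
local notation "Ω" => AlgebraicClosure ℚ

open MonoidAlgebra Sel

section Ring

variable {B : Type} [CommRing B] [Finite B] [CharP B 2] {r : B →+* ZMod 2}
  (hr : ∀ x, IsUnit x ↔ r x = 1)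

include hr in
theorem Dih.exists_pow_two_eq_one {u : B} (hu : r u = 1) : ∃ m : ℕ, u ^ 2 ^ m = 1 := by
  obtain ⟨k, hk⟩ := Dih.nilp_of_r r hr (b := u - 1) (by rw [map_sub, hu, map_one, sub_self])
  refine ⟨k, ?_⟩
  have h1 : (u - 1) ^ 2 ^ k = 0 := pow_eq_zero_of_le (Nat.lt_two_pow_self).le hk
  have h2 : u ^ 2 ^ k = ((u - 1) + 1) ^ 2 ^ k := by rw [sub_add_cancel]
  rw [h2, add_pow_char_pow, h1, zero_add, one_pow]

/-- matrices which are residually one have `2`-power order -/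
theorem Dih.exists_pow_two_eq_one_matrix {X : M₂ B} (hdet : X.det = 1) (hX : X.map r = 1)
    (hr : ∀ x, IsUnit x ↔ r x = 1) : ∃ m : ℕ, X ^ 2 ^ m = 1 := by
  have hB : CharP (M₂ B) 2 := Matrix.charP 2
  -- `(X - 1)^2 = tr X • X`, and the trace is nilpotent
  have ht : r X.trace = 0 := by
    rw [← Dih.trace_map', hX, Matrix.trace_one, Fintype.card_fin]
    rfl
  obtain ⟨k, hk⟩ := Dih.nilp_of_r r hr ht
  have h1 : (X - 1) ^ 2 = X.trace • X := by
    have h2 : (2 : M₂ B) = 0 := CharTwo.two_eq_zero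
    have h3 : (X - 1) ^ 2 = X * X - 2 * X + 1 := by noncomm_ring
    rw [h3, h2, zero_mul, sub_zero, Dih.sq_eq X hdet, add_assoc]
    have h4 : (1 : M₂ B) + 1 = 0 := by
      have : (1 : M₂ B) + 1 = 2 := by norm_num
      rw [this, h2]
    rw [h4, add_zero]
  have h2 : (X - 1) ^ (2 * k) = 0 := by
    rw [pow_mul, h1, smul_pow, hk, zero_smul]
  refine ⟨2 * k, ?_⟩
  have h3 : (X - 1) ^ 2 ^ (2 * k) = 0 := pow_eq_zero_of_le (Nat.lt_two_pow_self).le h2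
  have h4 : X ^ 2 ^ (2 * k) = ((X - 1) + 1) ^ 2 ^ (2 * k) := by rw [sub_add_cancel]
  rw [h4, add_pow_char_pow_of_commute _ _ (Commute.one_right _), h3, zero_add, one_pow]

end Ring

/-- separation of elements of a finite group of matrices by characters -/
theorem exists_char {H : Type} [Group H] {M : Type} [Monoid M] [Finite M] (f : H →* M)
    (hcomm : ∀ g h, f g * f h = f h * f g) {x : H} (hx : f x ≠ 1) :
    ∃ χ : H →* ℂˣ, χ x ≠ 1 ∧ (∀ y, f y = 1 → χ y = 1) ∧ Finite χ.range := by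
  let fu := f.toHomUnits
  let Θ : Subgroup Mˣ := fu.range
  have hΘfin : Finite Θ := inferInstance
  let _ : CommGroup Θ :=
    { (inferInstance : Group Θ) with
      mul_comm := by
        rintro ⟨_, g, rfl⟩ ⟨_, h, rfl⟩
        refine Subtype.ext (Units.ext ?_)
        exact hcomm g h }
  have hx' : (⟨fu x, x, rfl⟩ : Θ) ≠ 1 := by
    intro h
    exact hx (congrArg (fun z : Mˣ => (z : M)) (congrArg Subtype.val h))
  obtain ⟨χ, hχ⟩ := CommGroup.exists_apply_ne_one_of_hasEnoughRootsOfUnity Θ ℂ hx'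
  refine ⟨χ.comp fu.rangeRestrict, hχ, fun y hy => ?_, ?_⟩
  · have h1 : fu.rangeRestrict y = 1 := Subtype.ext (Units.ext hy)
    rw [MonoidHom.comp_apply, h1, map_one]
  · have h1 : (χ.comp fu.rangeRestrict).range ≤ χ.range := by
      rintro _ ⟨y, rfl⟩
      exact ⟨_, rfl⟩
    have : Finite χ.range := Finite.of_surjective χ.rangeRestrict χ.rangeRestrict_surjective
    exact Finite.of_injective (Subgroup.inclusion h1) (Subgroup.inclusion_injective h1)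

section Main

variable {B : Type} [CommRing B] [Finite B]

/-- inertia groups act trivially on `H` (Steinberg relation in characteristic two) -/
theorem inertia_trivial {r : B →+* ZMod 2} [CharP B 2] (hr : ∀ x, IsUnit x ↔ r x = 1)
    {ρ : GQ →* M₂ B} (hdet : ∀ g, (ρ g).det = 1) {s : GQ} (hs : (ρ s).trace = 1)
    (hcomm : ∀ g h, Dih.InC ((ρ g).map r) → Dih.InC ((ρ h).map r) → ρ g * ρ h = ρ h * ρ g)
    {P : ValuationSubring Ω} {q : ℕ} {e : B} (hst : StRel P q e (fun _ => 1) ρ)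
    {g : GQ} (hg : g ∈ P.decompositionSubgroup ℚ) (hgH : ¬ Dih.InC ((ρ g).map r))
    {h : GQ} (hh : h ∈ P.inertiaSubgroupIn ℚ) (hhH : Dih.InC ((ρ h).map r)) : ρ h = 1 := by
  have hhD : h ∈ P.decompositionSubgroup ℚ := by
    obtain ⟨⟨t', ht'⟩, htt, rfl⟩ := hh
    exact ht'
  have hodd : ¬ IsOddAt P q h := by
    rintro ⟨_, x, _, hne⟩
    apply hne
    obtain ⟨⟨t', ht'⟩, htt, rfl⟩ := hh
    have h1 : (⟨t', ht'⟩ : P.decompositionSubgroup ℚ) ∈ P.inertiaSubgroup ℚ := htt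
    rw [ValuationSubring.inertiaSubgroup, MonoidHom.mem_ker] at h1
    exact congrArg (fun e => e x) h1
  have h1 := hst g hg h hhD
  have e1 : eta P q e h = 1 := if_neg hodd
  rw [e1, map_one, mul_one] at h1
  set a : B := eta P q e g with ha
  set y := ρ h - 1 with hy
  -- `ρ g y = a y`
  have h2 : ρ g * y = a • y := by
    rw [sub_mul, sub_eq_zero, Algebra.algebraMap_eq_smul_one, smul_mul_assoc, one_mul] at h1
    exact h1
  have hcy : ρ s * y = y * ρ s := by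
    rw [hy, mul_sub, sub_mul, mul_one, one_mul, hcomm _ _ (Dih.inC_s hs) hhH]
  have h3 : ρ g * (ρ s * y) = a • (ρ s * y) := by
    rw [hcy, ← mul_assoc, h2, smul_mul_assoc]
  have h4 : ρ g * (ρ s * y) = a • (ρ s * y) + a • y := by
    rw [← mul_assoc, Dih.conj_omega hr hdet hs hcomm hgH, mul_assoc, h2, add_mul, one_mul,
      mul_smul_comm]
  have h5 : a • y = 0 := by
    rw [h3] at h4
    exact (left_eq_add.mp h4)
  rw [h5] at h2
  have h6 : y = 0 := by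
    have h7 : ρ g⁻¹ * ρ g = 1 := by rw [← map_mul, inv_mul_cancel, map_one]
    calc y = (ρ g⁻¹ * ρ g) * y := by rw [h7, one_mul]
      _ = 0 := by rw [mul_assoc, h2, mul_zero]
  rwa [hy, sub_eq_zero] at h6

/-- **The characteristic two theorem.** -/
theorem char2_main (h2 : (2 : B) = 0) (r : B →+* ZMod 2) (hr : ∀ x, IsUnit x ↔ r x = 1)
    (ρ : GQ →* Matrix (Fin 2) (Fin 2) B) (ρbar : GQ →* Matrix (Fin 2) (Fin 2) (ZMod 2))
    (hρ : ∀ g, (ρ g).map r = ρbar g) (hs : ∃ s, ρbar s = !![0, 1; 1, 1])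
    (ht : ∃ t, ρbar t = !![0, 1; 1, 0]) (hdet : ∀ g, (ρ g).det = 1)
    (hgen : Subring.closure (Set.range fun g => (ρ g).trace) = ⊤)
    (hlev : ∃ L : IntermediateField ℚ Ω, FiniteDimensional ℚ L ∧
      ∀ h : GQ, (∀ x ∈ L, h x = x) → ρ h = 1)
    (H : Subgroup GQ) (hH : ∀ g, g ∈ H ↔ ρbar g = 1 ∨ (ρbar g).trace = 1)
    (hcomm : ∀ g ∈ H, ∀ h ∈ H, ρ g * ρ h = ρ h * ρ g) (Mset : Finset ℕ)
    (hunr : ∀ ℓ : ℕ, ℓ.Prime → ℓ ∉ Mset → ∀ P : ValuationSubring Ω, P.LiesOverPrime ℓ →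
      ∀ g ∈ P.inertiaSubgroupIn ℚ, ρ g = 1)
    (hst : ∀ q ∈ Mset, ∀ P : ValuationSubring Ω, P.LiesOverPrime q →
      ∃ e : B, StRel P q e (fun _ => 1) ρ)
    (hns : ∀ q ∈ Mset, ∀ P : ValuationSubring Ω, P.LiesOverPrime q →
      ∃ g ∈ P.decompositionSubgroup ℚ, g ∉ H)
    {Cl C F : Type} [CommGroup Cl] [Finite Cl] [CommGroup C] [Finite C] [Field F] [CharP F 2]
    (hC : ∃ m : ℕ, ∀ c : C, c ^ 2 ^ m = 1)
    (κ : Cl →* C) (hκ : ∀ x, κ x = 1 → Odd (orderOf x)) (ψ : Cl →* Fˣ)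
    (cl : ValuationSubring Ω → Cl) (φ : B →+* MonoidAlgebra F C)
    (hφ : ∀ ℓ : ℕ, ℓ.Prime → ℓ ∉ Mset → ∀ P : ValuationSubring Ω, P.LiesOverPrime ℓ →
      ∀ f ∈ H, P.IsFrobeniusAt f ℓ → ((ρbar f).trace = 1 → ψ (cl P) ≠ 1) →
      φ (ρ f).trace = single (κ (cl P)) (ψ (cl P) : F) +
        single (κ (cl P))⁻¹ (((ψ (cl P))⁻¹ : Fˣ) : F))
    (AR : ∀ (X : Type) [CommGroup X] [Finite X] [IsCyclic X] (χ : H →* X),
      (∃ L : IntermediateField ℚ Ω, FiniteDimensional ℚ L ∧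
        ∀ h : H, (∀ x ∈ L, (h : GQ) x = x) → χ h = 1) →
      (∀ ℓ : ℕ, ℓ.Prime → ∀ P : ValuationSubring Ω, P.LiesOverPrime ℓ →
        ∀ h : H, (h : GQ) ∈ P.inertiaSubgroupIn ℚ → χ h = 1) →
      ∃ U : Subgroup Cl,
        (∀ ℓ : ℕ, ℓ.Prime → ℓ ∉ Mset → ∀ P : ValuationSubring Ω, P.LiesOverPrime ℓ →
          ∀ f : H, P.IsFrobeniusAt (f : GQ) ℓ → cl P ^ orderOf (χ f) ∈ U) ∧
        ∀ (g : H) (L : IntermediateField ℚ Ω), FiniteDimensional ℚ L → ∀ Bd : Finset ℕ,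
          ∃ ℓ : ℕ, ℓ.Prime ∧ ℓ ∉ Bd ∧ ∃ P : ValuationSubring Ω, P.LiesOverPrime ℓ ∧
            ∃ f : H, P.IsFrobeniusAt (f : GQ) ℓ ∧ (∀ x ∈ L, (f : GQ) x = (g : GQ) x) ∧
              ((ρbar g).trace = 1 → ψ (cl P) ≠ 1) ∧ (χ g ≠ 1 → cl P ∉ U)) :
    Function.Injective φ ∧ Nat.card B ≤ 2 ^ Nat.card C := by
  have hnt : Nontrivial B := by
    refine ⟨⟨0, 1, fun h => ?_⟩⟩
    have h1 := congrArg r h
    rw [map_zero, map_one] at h1
    exact zero_ne_one h1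
  have hchar : CharP B 2 := CharTwo.of_one_ne_zero_of_two_eq_zero one_ne_zero h2
  -- `H` in terms of `InC`
  have hHC : ∀ g, Dih.InC ((ρ g).map r) ↔ g ∈ H := by
    intro g
    rw [hρ, hH, Dih.InC, or_comm]
  have hcomm' : ∀ g h, Dih.InC ((ρ g).map r) → Dih.InC ((ρ h).map r) →
      ρ g * ρ h = ρ h * ρ g := fun g h hg hh => hcomm g ((hHC g).mp hg) h ((hHC h).mp hh)
  -- an element with trace one
  obtain ⟨s₀, hs₀⟩ := hs
  have hs₀t : r (ρ s₀).trace = 1 := by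
    rw [← Dih.trace_map', hρ, hs₀]
    rfl
  obtain ⟨m₀, hm₀⟩ := Dih.exists_pow_two_eq_one hr hs₀t
  set s := s₀ ^ 2 ^ m₀ with hsdef
  have hs : (ρ s).trace = 1 := by
    rw [hsdef, map_pow, Dih.trace_pow_two_pow _ (hdet _), hm₀]
  have hsH : s ∈ H := (hHC s).mp (Dih.inC_s hs)
  obtain ⟨t, ht⟩ := ht
  have htC : ¬ Dih.InC ((ρ t).map r) := by
    rw [hρ, ht]
    rintro (h | h)
    · have : (!![0, 1; 1, 0] : M₂ (ZMod 2)).trace = 0 := rfl
      rw [this] at h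
      exact zero_ne_one h
    · have := congrFun (congrFun h 0) 0
      simp at this
  obtain ⟨L, hL, hLρ⟩ := hlev
  obtain ⟨m, hm⟩ := hC
  -- inertia
  have hinert : ∀ ℓ : ℕ, ℓ.Prime → ∀ P : ValuationSubring Ω, P.LiesOverPrime ℓ →
      ∀ h : H, (h : GQ) ∈ P.inertiaSubgroupIn ℚ → ρ h = 1 := by
    intro ℓ hℓ P hP h hh
    by_cases hM : ℓ ∈ Mset
    · obtain ⟨e, he⟩ := hst ℓ hM P hP
      obtain ⟨g, hg, hgH⟩ := hns ℓ hM P hP
      exact inertia_trivial hr hdet hs hcomm' he hg (fun hc => hgH ((hHC g).mp hc)) hh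
        ((hHC _).mpr h.2)
    · exact hunr ℓ hℓ hM P hP h hh
  -- equality of traces
  have hcong : ∀ f g : GQ, (∀ x ∈ L, f x = g x) → ρ f = ρ g := by
    intro f g h
    have h1 : ρ (f⁻¹ * g) = 1 := by
      refine hLρ _ fun x hx => ?_
      rw [AlgEquiv.mul_apply, ← h x hx, ← AlgEquiv.mul_apply, inv_mul_cancel]
      rfl
    have h3 : g = f * (f⁻¹ * g) := by group
    rw [h3, map_mul, h1, mul_one]
  refine Dih.injective_and_card_le hr hdet hs hcomm' hm φ htC hgen ?_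
  intro n hn
  have hnH : n ∈ H := (hHC n).mp (Or.inr hn)
  have hsnt : (ρbar (s * n)).trace = 1 := by
    rw [← hρ, map_mul, Dih.map_mul', hn, mul_one, Dih.trace_map', hs, map_one]
  -- the general step
  have step : ∀ (ℓ : ℕ), ℓ.Prime → ℓ ∉ Mset → ∀ P : ValuationSubring Ω, P.LiesOverPrime ℓ →
      ∀ f : H, P.IsFrobeniusAt (f : GQ) ℓ → (∀ x ∈ L, (f : GQ) x = (s * n) x) →
      ψ (cl P) ≠ 1 → φ (ρ (s * n)).trace = single (κ (cl P)) (ψ (cl P) : F) +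
        single (κ (cl P))⁻¹ (((ψ (cl P))⁻¹ : Fˣ) : F) := by
    intro ℓ hℓ hM P hP f hf hfx hψ
    rw [← hcong _ _ hfx]
    exact hφ ℓ hℓ hM P hP f f.2 hf fun _ => hψ
  by_cases hn1 : ρ n = 1
  · obtain ⟨U, _, hU⟩ := AR (Multiplicative (ZMod 1)) 1 ⟨L, hL, fun _ _ => rfl⟩
      (fun _ _ _ _ _ _ => rfl)
    obtain ⟨ℓ, hℓ, hM, P, hP, f, hf, hfx, hψ, _⟩ := hU ⟨s * n, H.mul_mem hsH hnH⟩ L hL Mset
    exact ⟨_, _, step ℓ hℓ hM P hP f hf hfx (hψ hsnt), fun h => absurd hn1 h⟩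
  · have hMfin : Finite (M₂ B) := inferInstanceAs (Finite (Fin 2 → Fin 2 → B))
    obtain ⟨χ₀, hχ₀n, hχ₀, hfin⟩ := exists_char (ρ.comp H.subtype)
      (fun g h => hcomm g g.2 h h.2) (x := ⟨n, hnH⟩) hn1
    -- all values of `χ₀ ^ 3` have `2`-power order
    have hpow : ∀ f : H, ∃ k : ℕ, (χ₀ f ^ 3) ^ 2 ^ k = 1 := by
      intro f
      have h1 : ((ρ ((f : GQ) ^ 3)).map r) = 1 := by
        have h3 : (ρ ((f : GQ) ^ 3)).map r = ((ρ f).map r) ^ 3 := by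
          rw [map_pow, pow_succ, pow_two, pow_succ, pow_two, Dih.map_mul', Dih.map_mul']
        have hd : ((ρ f).map r).det = 1 := Dih.det_map' r (hdet f)
        rw [h3]
        rcases (hHC f).mpr f.2 with h | h
        · have h4 := Dih.sq_eq _ hd
          rw [h, one_smul] at h4
          rw [pow_succ, pow_two, h4, add_mul, one_mul, h4]
          have h5 : (2 : M₂ (ZMod 2)) = 0 := by
            have : CharP (M₂ (ZMod 2)) 2 := Matrix.charP 2
            exact CharTwo.two_eq_zero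
          have h6 : (ρ f).map r + 1 + (ρ f).map r = 2 * (ρ f).map r + 1 := by noncomm_ring
          rw [h6, h5, zero_mul, zero_add]
        · rw [h, one_pow]
      obtain ⟨k, hk⟩ := Dih.exists_pow_two_eq_one_matrix (hdet _) h1 hr
      refine ⟨k, ?_⟩
      rw [← map_pow, ← map_pow]
      refine hχ₀ _ ?_
      show ρ (((f ^ 3) ^ 2 ^ k : H) : GQ) = 1
      rw [Subgroup.coe_pow, Subgroup.coe_pow, map_pow, hk]
    have hχn : χ₀ ⟨n, hnH⟩ ^ 3 ≠ 1 := by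
      intro h
      obtain ⟨k, hk⟩ := Dih.exists_pow_two_eq_one_matrix (hdet _) hn hr
      have h1 : χ₀ ⟨n, hnH⟩ ^ 2 ^ k = 1 := by
        rw [← map_pow]
        refine hχ₀ _ ?_
        show ρ (((⟨n, hnH⟩ : H) ^ 2 ^ k : H) : GQ) = 1
        rw [Subgroup.coe_pow, map_pow, hk]
      have h3 : orderOf (χ₀ ⟨n, hnH⟩) ∣ Nat.gcd 3 (2 ^ k) :=
        Nat.dvd_gcd (orderOf_dvd_of_pow_eq_one h) (orderOf_dvd_of_pow_eq_one h1)
      have h4 : Nat.gcd 3 (2 ^ k) = 1 := Nat.Coprime.pow_right k (by norm_num)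
      rw [h4, Nat.dvd_one, orderOf_eq_one_iff] at h3
      exact hχ₀n h3
    have hχs : χ₀ ⟨s, hsH⟩ ^ 3 = 1 := by
      rw [← map_pow]
      refine hχ₀ _ ?_
      show ρ (((⟨s, hsH⟩ : H) ^ 3 : H) : GQ) = 1
      rw [Subgroup.coe_pow, map_pow]
      have h4 := Dih.omega_sq hdet hs
      have h5 : (2 : M₂ B) = 0 := by
        have : CharP (M₂ B) 2 := Matrix.charP 2
        exact CharTwo.two_eq_zero
      show ρ s ^ 3 = 1
      rw [pow_succ, pow_two, h4, add_mul, one_mul, h4]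
      have h6 : ρ s + 1 + ρ s = 2 * ρ s + 1 := by noncomm_ring
      rw [h6, h5, zero_mul, zero_add]
    -- the character
    let χ₁ : H →* χ₀.range := χ₀.rangeRestrict
    let χ : H →* χ₀.range := (powMonoidHom 3).comp χ₁
    have hχ1 : ∀ f : H, ρ f = 1 → χ f = 1 := by
      intro f hf
      refine Subtype.ext ?_
      show χ₀ f ^ 3 = 1
      rw [hχ₀ f hf, one_pow]
    obtain ⟨U, hU1, hU⟩ := AR χ₀.range χ ⟨L, hL, fun h hh => hχ1 h (hLρ _ hh)⟩
      (fun ℓ hℓ P hP h hh => hχ1 h (hinert ℓ hℓ P hP h hh))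
    obtain ⟨ℓ, hℓ, hM, P, hP, f, hf, hfx, hψ, hPU⟩ :=
      hU ⟨s * n, H.mul_mem hsH hnH⟩ L hL Mset
    refine ⟨_, _, step ℓ hℓ hM P hP f hf hfx (hψ hsnt), fun _ hc => ?_⟩
    have hne : χ ⟨s * n, H.mul_mem hsH hnH⟩ ≠ 1 := by
      intro h
      have h1 : χ₀ ⟨s * n, H.mul_mem hsH hnH⟩ ^ 3 = 1 := congrArg Subtype.val h
      have h3 : (⟨s * n, H.mul_mem hsH hnH⟩ : H) = ⟨s, hsH⟩ * ⟨n, hnH⟩ := rfl
      rw [h3, map_mul, mul_pow, hχs, one_mul] at h1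
      exact hχn h1
    refine hPU hne ?_
    have hodd := hκ _ hc
    obtain ⟨k, hk⟩ := hpow f
    have hk' : χ f ^ 2 ^ k = 1 := Subtype.ext hk
    obtain ⟨j, _, hj⟩ := (Nat.dvd_prime_pow Nat.prime_two).mp (orderOf_dvd_of_pow_eq_one hk')
    have hcop : Nat.Coprime (orderOf (χ f)) (orderOf (cl P)) := by
      rw [hj]
      exact Nat.Coprime.pow_left j (Nat.coprime_two_left.mpr hodd)
    obtain ⟨i, hi⟩ := exists_pow_eq_self_of_coprime hcop
    rw [← hi]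
    exact U.pow_mem (hU1 ℓ hℓ hM P hP f hf) i

end Main

end Fermat.Agent.P2.RT
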