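import Fermat.Agent.P2.Sel.Out
import Fermat.Agent.TWP.FlatLoc.FrobDec

/-!
# P2, block 5b-i: decomposition groups and the parity `IsOddAt`

`exists_frob_pow`: an element of the decomposition group at `P | q` is, at a given finite level, the
product of a power `φ ^ k` of a Frobenius element and an element of inertia, and it is odd if and
only if `k` is odd.
-/

set_option autoImplicit false
set_option linter.unusedSectionVars false
set_option linter.style.haveILetI false

open IsLocalRing

noncomputable section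

namespace Fermat.Agent.P2.RT

open Sel

local notation "Ω" => AlgebraicClosure ℚ

variable {P : ValuationSubring Ω} {q : ℕ}

theorem exists_residue_sq (hq : q.Prime) (hP : P.LiesOverPrime q) :
    ∃ x : ResidueField P, x ^ q ^ 2 = x ∧ x ^ q ≠ x := by
  haveI : Fact q.Prime := ⟨hq⟩
  haveI := ResField.charP_residueField (A := P) hq hP
  haveI := ResField.isAlgClosed_residueField P
  have hq2 := hq.two_le
  have hsq : q ^ 2 = q * q := sq q
  have hlt : q - 1 < q ^ 2 - 1 := by
    have : q < q ^ 2 := by nlinarith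
    omega
  haveI : NeZero ((q ^ 2 - 1 : ℕ) : ResidueField P) := ⟨by
    rw [Ne, CharP.cast_eq_zero_iff (ResidueField P) q]
    intro h
    have h1 : q ∣ q ^ 2 := dvd_pow_self q two_ne_zero
    have h2 : q ∣ 1 := by
      have h3 := Nat.dvd_sub h1 h
      have h4 : q ^ 2 - (q ^ 2 - 1) = 1 := by
        have : 1 ≤ q ^ 2 := Nat.one_le_pow _ _ hq.pos
        omega
      rwa [h4] at h3
    exact hq.one_lt.ne' (Nat.dvd_one.mp h2)⟩
  obtain ⟨ζ, hζ⟩ := HasEnoughRootsOfUnity.exists_primitiveRoot (ResidueField P) (q ^ 2 - 1)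
  refine ⟨ζ, ?_, ?_⟩
  · have h1 : q ^ 2 = (q ^ 2 - 1) + 1 := by
      have : 1 ≤ q ^ 2 := Nat.one_le_pow _ _ hq.pos
      omega
    rw [h1, pow_succ, hζ.pow_eq_one, one_mul]
  · intro h
    have h0 : ζ ≠ 0 := hζ.ne_zero (by omega)
    have h1 : ζ ^ (q - 1) = 1 := by
      have h2 : ζ ^ (q - 1) * ζ = 1 * ζ := by
        rw [← pow_succ, Nat.sub_add_cancel hq.one_le, h, one_mul]
      exact mul_right_cancel₀ h0 h2
    have h2 := hζ.dvd_of_pow_eq_one _ h1
    exact absurd (Nat.le_of_dvd (by omega) h2) (by omega)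

theorem pow_pow_iter {κ : Type*} [Monoid κ] {x : κ} {q : ℕ} (hx : x ^ q ^ 2 = x) (k : ℕ) :
    x ^ q ^ (2 * k) = x := by
  induction k with
  | zero => simp
  | succ k ih =>
    rw [mul_add, mul_one, pow_add, pow_mul, ih, hx]

theorem pow_of_even {κ : Type*} [Monoid κ] {x : κ} {q : ℕ} (hx : x ^ q ^ 2 = x) {k : ℕ}
    (hk : Even k) : x ^ q ^ k = x := by
  obtain ⟨m, rfl⟩ := hk
  rw [← two_mul]
  exact pow_pow_iter hx m

theorem pow_of_odd {κ : Type*} [Monoid κ] {x : κ} {q : ℕ} (hx : x ^ q ^ 2 = x) {k : ℕ}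
    (hk : Odd k) : x ^ q ^ k = x ^ q := by
  obtain ⟨m, rfl⟩ := hk
  rw [pow_succ, pow_mul, pow_pow_iter hx m]

/-- the powers of a Frobenius element on the residue field -/
theorem frob_pow_smul {φ : GQ} (hφ : P.IsFrobeniusAt φ q) (k : ℕ)
    (h : φ ^ k ∈ P.decompositionSubgroup ℚ) (x : ResidueField P) :
    (⟨φ ^ k, h⟩ : P.decompositionSubgroup ℚ) • x = x ^ q ^ k := by
  have hD : φ ∈ P.decompositionSubgroup ℚ := hφ.mem_decompositionSubgroup
  have e : (⟨φ ^ k, h⟩ : P.decompositionSubgroup ℚ) =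
      (⟨φ, hD⟩ : P.decompositionSubgroup ℚ) ^ k := Subtype.ext rfl
  rw [e]
  clear e h
  induction k generalizing x with
  | zero => rw [pow_zero, one_smul, pow_zero, pow_one]
  | succ k ih =>
    rw [pow_succ, mul_smul, hφ.smul_residue_eq, ih, ← pow_mul, ← pow_succ']

/-- **Frobenius powers and parity.** -/
theorem exists_frob_pow (hq : q.Prime) (hP : P.LiesOverPrime q) {φ : GQ}
    (hφ : P.IsFrobeniusAt φ q) {g : GQ} (hg : g ∈ P.decompositionSubgroup ℚ)
    (L : IntermediateField ℚ Ω) [FiniteDimensional ℚ L] :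
    ∃ k : ℕ, ∃ σ ∈ P.inertiaSubgroupIn ℚ, (∀ x ∈ L, g x = (φ ^ k * σ) x) ∧
      (IsOddAt P q g ↔ Odd k) := by
  classical
  haveI : Fact q.Prime := ⟨hq⟩
  haveI := ResField.charP_residueField (A := P) hq hP
  -- the finite set of the elements of `𝔽_{q²}`
  have hfin : {x : ResidueField P | x ^ q ^ 2 = x}.Finite := by
    have hne : (Polynomial.X ^ q ^ 2 - Polynomial.X : Polynomial (ResidueField P)) ≠ 0 :=
      FiniteField.X_pow_card_sub_X_ne_zero _ (Nat.one_lt_pow two_ne_zero hq.one_lt)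
    refine (Multiset.finite_toSet (Polynomial.roots
      (Polynomial.X ^ q ^ 2 - Polynomial.X : Polynomial (ResidueField P)))).subset ?_
    intro x hx
    have hx' : x ^ q ^ 2 = x := hx
    simp only [Set.mem_ofPred_eq, Polynomial.mem_roots hne, Polynomial.IsRoot.def,
      Polynomial.eval_sub, Polynomial.eval_pow, Polynomial.eval_X]
    rw [hx', sub_self]
  choose y hy using fun x : ResidueField P => residue_surjective (R := P) x
  let L' : IntermediateField ℚ Ω := L ⊔ IntermediateField.adjoin ℚ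
    ((fun x => ((y x : P) : Ω)) '' {x : ResidueField P | x ^ q ^ 2 = x})
  haveI : FiniteDimensional ℚ (IntermediateField.adjoin ℚ
      ((fun x => ((y x : P) : Ω)) '' {x : ResidueField P | x ^ q ^ 2 = x})) := by
    haveI : Finite ((fun x => ((y x : P) : Ω)) '' {x : ResidueField P | x ^ q ^ 2 = x}) :=
      (hfin.image _).to_subtype
    exact IntermediateField.finiteDimensional_adjoin
      fun x _ => (Algebra.IsAlgebraic.isAlgebraic x).isIntegral
  haveI : FiniteDimensional ℚ L' := IntermediateField.finiteDimensional_sup _ _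
  obtain ⟨k, σ, hσ, hk⟩ := TWFlat.exists_frob_mul_inertia hq hP hφ hg L'
  have hφD : φ ^ k ∈ P.decompositionSubgroup ℚ :=
    Subgroup.pow_mem _ hφ.mem_decompositionSubgroup k
  have key : ∀ x : ResidueField P, x ^ q ^ 2 = x →
      (⟨g, hg⟩ : P.decompositionSubgroup ℚ) • x = x ^ q ^ k := by
    intro x hx
    have hyL : ((y x : P) : Ω) ∈ L' :=
      (le_sup_right : _ ≤ L') (IntermediateField.subset_adjoin _ _ ⟨x, hx, rfl⟩)
    obtain ⟨τ, hτ, hτσ⟩ := hσ
    have h1 : τ • x = x := by
      have h2 : MulSemiringAction.toRingAut (P.decompositionSubgroup ℚ) (ResidueField P) τ = 1 := hτ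
      exact RingEquiv.congr_fun h2 x
    have h3 : (⟨g, hg⟩ : P.decompositionSubgroup ℚ) • (y x) =
        (⟨φ ^ k, hφD⟩ : P.decompositionSubgroup ℚ) • τ • (y x) := by
      apply Subtype.ext
      have h4 := hk _ hyL
      have h5 : (τ : GQ) = σ := hτσ
      change g ((y x : P) : Ω) = (φ ^ k) ((τ : GQ) ((y x : P) : Ω))
      rw [h4, h5]
      rfl
    have h6 := congrArg (residue P) h3
    rw [ResidueField.residue_smul, ResidueField.residue_smul, ResidueField.residue_smul, hy,
      h1, frob_pow_smul hφ] at h6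
    exact h6
  refine ⟨k, σ, hσ, fun x hx => hk x ((le_sup_left : L ≤ L') hx), ?_⟩
  constructor
  · rintro ⟨hg', x, hx, hne⟩
    by_contra hodd
    rw [Nat.not_odd_iff_even] at hodd
    apply hne
    rw [key x hx]
    exact pow_of_even hx hodd
  · intro hodd
    obtain ⟨x, hx, hne⟩ := exists_residue_sq hq hP
    refine ⟨hg, x, hx, ?_⟩
    rw [key x hx, pow_of_odd hx hodd]
    exact hne

end Fermat.Agent.P2.RT
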