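import Fermat.Agent.P2.RT.Local
import Fermat.Agent.P2.RT.Parity

/-!
# P2, block 5b-i (ε): the component of the auxiliary curve

`RE n = ℤ₂/2ⁿ`, `rhoE ρ n = ρ mod 2ⁿ`.  Main point: at the auxiliary primes `q ∈ Q` the Steinberg
relation holds modulo `2ⁿ` for **both** signs (`stRel_rhoE_aux`).
-/

set_option autoImplicit false
set_option linter.unusedSectionVars false
set_option linter.style.haveILetI false

open IsLocalRing

noncomputable section

namespace Fermat.Agent.P2.RT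

open Sel

local notation "Ω" => AlgebraicClosure ℚ

/-! ### The ring `ℤ₂/2ⁿ` -/

/-- `ℤ₂/2ⁿ` -/
abbrev RE (n : ℕ) : Type := ℤ_[2] ⧸ Ideal.span {(2 : ℤ_[2]) ^ n}

/-- reduction modulo `2ⁿ` -/
def piE (n : ℕ) : ℤ_[2] →+* RE n := Ideal.Quotient.mk _

theorem piE_surjective (n : ℕ) : Function.Surjective (piE n) := Ideal.Quotient.mk_surjective

theorem piE_eq_zero_iff {n : ℕ} {x : ℤ_[2]} : piE n x = 0 ↔ (2 : ℤ_[2]) ^ n ∣ x := by
  rw [piE, Ideal.Quotient.eq_zero_iff_mem, Ideal.mem_span_singleton]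

theorem algebraMap_RE (n : ℕ) (x : ℤ_[2]) : algebraMap ℤ_[2] (RE n) x = piE n x := rfl

theorem nontrivial_RE {n : ℕ} (hn : n ≠ 0) : Nontrivial (RE n) := by
  refine Ideal.Quotient.nontrivial_iff.mpr ?_
  rw [Ne, Ideal.span_singleton_eq_top, isUnit_pow_iff hn]
  exact (PadicInt.prime_p (p := 2)).not_isUnit

theorem isLocalRing_RE {n : ℕ} (hn : n ≠ 0) : IsLocalRing (RE n) :=
  haveI := nontrivial_RE hn
  IsLocalRing.of_surjective' (piE n) (piE_surjective n)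

theorem two_mem_RE {n : ℕ} [IsLocalRing (RE n)] : (2 : RE n) ∈ maximalIdeal (RE n) := by
  rw [mem_maximalIdeal, mem_nonunits_iff]
  intro h
  have h1 : IsUnit ((2 : RE n) ^ n) := h.pow n
  have h2 : (2 : RE n) ^ n = 0 := by
    have : (2 : RE n) ^ n = piE n (2 ^ n) := by rw [map_pow, map_ofNat]
    rw [this, piE_eq_zero_iff]
  rw [h2] at h1
  exact not_isUnit_zero h1

theorem residue_piE {n : ℕ} [IsLocalRing (RE n)] (x : ℤ_[2]) :
    residue (RE n) (piE n x) = ((PadicInt.toZMod x).val : ResidueField (RE n)) := by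
  obtain ⟨d, hd⟩ := padic_mod_two x
  have h2 : residue (RE n) 2 = 0 := (residue_eq_zero_iff _).mpr two_mem_RE
  conv_lhs => rw [hd]
  rw [map_add, map_mul, map_natCast, map_ofNat, map_add, map_mul, map_natCast, h2, zero_mul,
    add_zero]

instance instFiniteRE (n : ℕ) : Module.Finite ℤ_[2] (RE n) :=
  Module.Finite.of_surjective (Algebra.linearMap ℤ_[2] (RE n)) (piE_surjective n)

/-! ### The representations -/

variable (ρ : GQ →* GL (Fin 2) ℤ_[2])

/-- `ρ` as a matrix representation -/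
def matRep : GQ →* Matrix (Fin 2) (Fin 2) ℤ_[2] := (Units.coeHom _).comp ρ

/-- the determinant of `ρ` -/
def detRep : GQ →* ℤ_[2] := Matrix.detMonoidHom.comp (matRep ρ)

/-- `ρ` after the change of coefficients `f` -/
def redRep {A : Type*} [CommRing A] (f : ℤ_[2] →+* A) : GQ →* Matrix (Fin 2) (Fin 2) A :=
  (f.mapMatrix : Matrix (Fin 2) (Fin 2) ℤ_[2] →+* Matrix (Fin 2) (Fin 2) A).toMonoidHom.comp
    (matRep ρ)

/-- `ρ mod 2ⁿ` -/
abbrev rhoE (n : ℕ) : GQ →* Matrix (Fin 2) (Fin 2) (RE n) := redRep ρ (piE n)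

/-- `ρ mod 2` -/
abbrev rhoBar : GQ →* Matrix (Fin 2) (Fin 2) (ZMod 2) := redRep ρ PadicInt.toZMod

theorem matRep_apply (g : GQ) : matRep ρ g = (ρ g : Matrix (Fin 2) (Fin 2) ℤ_[2]) := rfl

theorem detRep_apply (g : GQ) : detRep ρ g = (ρ g : Matrix (Fin 2) (Fin 2) ℤ_[2]).det := rfl

theorem redRep_apply {A : Type*} [CommRing A] (f : ℤ_[2] →+* A) (g : GQ) :
    redRep ρ f g = (ρ g : Matrix (Fin 2) (Fin 2) ℤ_[2]).map f := rfl

theorem det_redRep {A : Type*} [CommRing A] (f : ℤ_[2] →+* A) (g : GQ) :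
    (redRep ρ f g).det = f (detRep ρ g) := by
  rw [detRep_apply, RingHom.map_det]
  rfl

theorem trace_redRep {A : Type*} [CommRing A] (f : ℤ_[2] →+* A) (g : GQ) :
    (redRep ρ f g).trace = f (ρ g : Matrix (Fin 2) (Fin 2) ℤ_[2]).trace := by
  rw [redRep_apply, Matrix.trace_fin_two, Matrix.trace_fin_two, map_add]
  rfl

theorem det_rhoE (n : ℕ) (g : GQ) : (rhoE ρ n g).det = algebraMap ℤ_[2] (RE n) (detRep ρ g) :=
  det_redRep ρ _ g

theorem residue_trace_rhoE {n : ℕ} [IsLocalRing (RE n)] (g : GQ) :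
    residue (RE n) (rhoE ρ n g).trace =
      ((rhoBar ρ g).trace.val : ResidueField (RE n)) := by
  rw [trace_redRep, trace_redRep, residue_piE]

/-! ### Galois data -/

variable {S : Finset ℕ} {a : ℕ → ℤ} (D : GalData S a)

theorem dvd_rhoE_of_dvd {n k : ℕ} {h : GQ}
    (hh : ∀ i j, (2 : ℤ_[2]) ^ k ∣ ((ρ h : Matrix (Fin 2) (Fin 2) ℤ_[2]) - 1) i j) (i j : Fin 2) :
    (2 : RE n) ^ k ∣ (rhoE ρ n h - 1) i j := by
  have e : (rhoE ρ n h - 1) i j = piE n (((ρ h : Matrix (Fin 2) (Fin 2) ℤ_[2]) - 1) i j) := by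
    rw [Matrix.sub_apply, Matrix.sub_apply, map_sub, redRep_apply, Matrix.map_apply,
      Matrix.one_apply, Matrix.one_apply]
    split_ifs <;> simp
  rw [e]
  have h1 := map_dvd (piE n) (hh i j)
  rwa [map_pow, map_ofNat] at h1

theorem rhoE_eq_one_of_dvd {n : ℕ} {h : GQ}
    (hh : ∀ i j, (2 : ℤ_[2]) ^ n ∣ ((ρ h : Matrix (Fin 2) (Fin 2) ℤ_[2]) - 1) i j) :
    rhoE ρ n h = 1 := by
  rw [← sub_eq_zero]
  apply Matrix.ext
  intro i j
  have e : (rhoE ρ n h - 1) i j = piE n (((ρ h : Matrix (Fin 2) (Fin 2) ℤ_[2]) - 1) i j) := by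
    rw [Matrix.sub_apply, Matrix.sub_apply, map_sub, redRep_apply, Matrix.map_apply,
      Matrix.one_apply, Matrix.one_apply]
    split_ifs <;> simp
  rw [e, Matrix.zero_apply]
  exact piE_eq_zero_iff.mpr (hh i j)

theorem rhoE_eq_of_dvd {n : ℕ} {g h : GQ}
    (hh : ∀ i j, (2 : ℤ_[2]) ^ n ∣ ((ρ g : Matrix (Fin 2) (Fin 2) ℤ_[2]) - (ρ h : Matrix (Fin 2)
      (Fin 2) ℤ_[2])) i j) : rhoE ρ n g = rhoE ρ n h := by
  rw [← sub_eq_zero]
  apply Matrix.ext
  intro i j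
  have e : (rhoE ρ n g - rhoE ρ n h) i j = piE n (((ρ g : Matrix (Fin 2) (Fin 2) ℤ_[2]) -
      (ρ h : Matrix (Fin 2) (Fin 2) ℤ_[2])) i j) := by
    rw [Matrix.sub_apply, Matrix.sub_apply, map_sub]
    rfl
  rw [e, Matrix.zero_apply]
  exact piE_eq_zero_iff.mpr (hh i j)

/-- **Continuity.** -/
theorem cont_rhoE (n k : ℕ) : ∃ L : IntermediateField ℚ Ω, FiniteDimensional ℚ L ∧
    ∀ h : GQ, (∀ x ∈ L, h x = x) → ∀ i j, (2 : RE n) ^ k ∣ (rhoE D.ρ n h - 1) i j := by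
  obtain ⟨L, hL, h⟩ := D.cont k
  exact ⟨L, hL, fun g hg => dvd_rhoE_of_dvd D.ρ (h g hg)⟩

/-- **Finite level.** -/
theorem level_rhoE (n : ℕ) : ∃ L : IntermediateField ℚ Ω, FiniteDimensional ℚ L ∧
    ∀ h : GQ, (∀ x ∈ L, h x = x) → rhoE D.ρ n h = 1 := by
  obtain ⟨L, hL, h⟩ := D.cont n
  exact ⟨L, hL, fun g hg => rhoE_eq_one_of_dvd D.ρ (h g hg)⟩

/-- **Unramified outside `S`.** -/
theorem unram_rhoE {A : Type*} [CommRing A] (f : ℤ_[2] →+* A) {ℓ : ℕ} (hℓ : ℓ.Prime) (hS : ℓ ∉ S)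
    {P : ValuationSubring Ω} (hP : P.LiesOverPrime ℓ) {g : GQ} (hg : g ∈ P.inertiaSubgroupIn ℚ) :
    redRep D.ρ f g = 1 := by
  rw [redRep_apply, D.unram ℓ hℓ hS P hP g hg]
  exact Matrix.map_one _ (map_zero f) (map_one f)

/-- **Traces of Frobenius elements.** -/
theorem trace_frob_rhoE {A : Type*} [CommRing A] (f : ℤ_[2] →+* A) {ℓ : ℕ} (hℓ : ℓ.Prime)
    (hS : ℓ ∉ S) {P : ValuationSubring Ω} (hP : P.LiesOverPrime ℓ) {φ : GQ}
    (hφ : P.IsFrobeniusAt φ ℓ) : (redRep D.ρ f φ).trace = a ℓ := by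
  rw [trace_redRep, D.trace_frob ℓ hℓ hS P hP φ hφ, map_intCast]

/-- **The Steinberg relation at `q ∈ S`.** -/
theorem stRel_rhoE {A : Type*} [CommRing A] (f : ℤ_[2] →+* A) {q : ℕ} (hq : q ∈ S)
    {P : ValuationSubring Ω} (hP : P.LiesOverPrime q) :
    StRel P q (D.s q : A) (fun g => (redRep D.ρ f g).det) (fun g => redRep D.ρ f g) := by
  have h1 := StRel.map f (D.st q hq P hP)
  rw [map_intCast] at h1
  have h2 : (fun g => (redRep D.ρ f g).det) = fun g =>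
      f (D.ρ g : Matrix (Fin 2) (Fin 2) ℤ_[2]).det := by
    funext g
    exact det_redRep D.ρ f g
  rw [h2]
  exact h1

/-! ### Complex conjugation -/

theorem complexConjugation_root {m : ℕ} (hm : m ≠ 0) {μ : Ω} (hμ : μ ^ m = 1) :
    complexConjugation μ = μ ^ (m - 1) := by
  have h0 : μ ≠ 0 := by
    rintro rfl
    rw [zero_pow hm] at hμ
    exact zero_ne_one hμ
  have h2 : complexConjugation μ * μ = 1 := by
    have h3 : (complexEmbedding μ) ^ m = 1 := by rw [← map_pow, hμ, map_one]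
    have h4 : ‖complexEmbedding μ‖ = 1 := Complex.norm_eq_one_of_pow_eq_one h3 hm
    have h5 : complexEmbedding (complexConjugation μ * μ) = complexEmbedding 1 := by
      rw [map_mul, map_one, complexEmbedding_complexConjugation, mul_comm, Complex.mul_conj,
        Complex.normSq_eq_norm_sq, h4]
      simp
    exact complexEmbedding.injective h5
  have h3 : μ ^ (m - 1) * μ = 1 := by
    rw [← pow_succ, Nat.sub_add_cancel (Nat.one_le_iff_ne_zero.mpr hm), hμ]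
  exact mul_right_cancel₀ h0 (h2.trans h3.symm)

/-- `χ(c) = -1` for the cyclotomic character -/
theorem IsCyc2.conj {A : Type*} [CommRing A] {d : GQ → A} (h : IsCyc2 d) (n : ℕ) :
    (2 : A) ^ n ∣ d complexConjugation + 1 := by
  have h0 : (2 ^ n : ℕ) ≠ 0 := pow_ne_zero _ two_ne_zero
  have h1 := h n complexConjugation (2 ^ n - 1) fun μ hμ => complexConjugation_root h0 hμ
  have h2 : ((2 ^ n - 1 : ℕ) : A) = 2 ^ n - 1 := by
    rw [Nat.cast_sub (Nat.one_le_iff_ne_zero.mpr h0)]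
    push_cast
    rfl
  rw [h2] at h1
  have h3 : d complexConjugation + 1 = (d complexConjugation - (2 ^ n - 1)) + 2 ^ n := by ring
  rw [h3]
  exact dvd_add h1 dvd_rfl

theorem det_rhoE_conj (n : ℕ) : (rhoE D.ρ n complexConjugation).det = -1 := by
  rw [det_redRep, eq_neg_iff_add_eq_zero, ← map_one (piE n), ← map_add, piE_eq_zero_iff]
  exact IsCyc2.conj D.cyc n

/-- `χ(c) = -1` -/
theorem detRep_conj : detRep D.ρ complexConjugation = -1 := by
  rw [eq_neg_iff_add_eq_zero]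
  by_contra hne
  have h1 : ∀ n : ℕ, (2 : ℤ_[2]) ^ n ∣ detRep D.ρ complexConjugation + 1 := fun n =>
    IsCyc2.conj D.cyc n
  have h2 := h1 ((detRep D.ρ complexConjugation + 1).valuation + 1)
  have h3 : ((2 : ℕ) : ℤ_[2]) ^ ((detRep D.ρ complexConjugation + 1).valuation + 1) ∣
      detRep D.ρ complexConjugation + 1 := by exact_mod_cast h2
  rw [← Ideal.mem_span_singleton, PadicInt.mem_span_pow_iff_le_valuation _ hne] at h3
  omega

/-! ### The auxiliary primes -/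

/-- algebra behind `stRel_rhoE_aux` -/
theorem stRel_of_frob_pow {R : Type*} [CommRing R] {P : ValuationSubring Ω} {q : ℕ} {e : R}
    (he : e * e = 1) {ρ : GQ → Matrix (Fin 2) (Fin 2) R} {F : Matrix (Fin 2) (Fin 2) R}
    (hF : F * F = 1) (hdet : F.det = -1)
    (h : ∀ g ∈ P.decompositionSubgroup ℚ, ∃ k : ℕ, ρ g = F ^ k ∧ (IsOddAt P q g ↔ Odd k)) :
    StRel P q e (fun g => (ρ g).det) ρ := by
  have key : ∀ g ∈ P.decompositionSubgroup ℚ,
      (¬ IsOddAt P q g ∧ ρ g = 1 ∧ (ρ g).det = 1) ∨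
        (IsOddAt P q g ∧ ρ g = F ∧ (ρ g).det = -1) := by
    intro g hg
    obtain ⟨k, hk, hodd⟩ := h g hg
    rcases Nat.even_or_odd k with hk2 | hk2
    · left
      have h1 : ρ g = 1 := by
        obtain ⟨m, rfl⟩ := hk2
        rw [hk, ← two_mul, pow_mul, pow_two, hF, one_pow]
      exact ⟨fun h2 => (Nat.not_odd_iff_even.mpr hk2) (hodd.mp h2), h1, by rw [h1, Matrix.det_one]⟩
    · right
      have h1 : ρ g = F := by
        obtain ⟨m, rfl⟩ := hk2
        rw [hk, pow_succ, pow_mul, pow_two, hF, one_pow, one_mul]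
      exact ⟨hodd.mpr hk2, h1, by rw [h1, hdet]⟩
  intro g hg k hk
  rcases key g hg with ⟨g1, g2, g3⟩ | ⟨g1, g2, g3⟩
  · simp only [eta, if_neg g1, g2, Matrix.det_one, mul_one, map_one, sub_self, zero_mul]
  · rcases key k hk with ⟨k1, k2, k3⟩ | ⟨k1, k2, k3⟩
    · simp only [eta, if_neg k1, k2, map_one, sub_self, mul_zero]
    · simp only [eta, if_pos g1, if_pos k1, g2, k2, hdet]
      rw [mul_neg_one, map_neg, sub_neg_eq_add, add_mul, mul_sub, mul_sub, hF,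
        (Algebra.commutes e F).symm, ← map_mul, he, map_one]
      abel

variable {D}

/-- the image of a Frobenius element at an auxiliary prime -/
theorem rhoE_frob_aux {n q : ℕ} (hq : AuxPrime D.ρ S n q) {P : ValuationSubring Ω}
    (hP : P.LiesOverPrime q) {φ : GQ} (hφ : P.IsFrobeniusAt φ q) :
    rhoE D.ρ n φ * rhoE D.ρ n φ = 1 ∧ (rhoE D.ρ n φ).det = -1 ∧
      ∃ g, rhoE D.ρ n φ = rhoE D.ρ n (g * complexConjugation * g⁻¹) := by
  obtain ⟨g, hg⟩ := hq.2.2 P hP φ hφ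
  have h1 := rhoE_eq_of_dvd D.ρ hg
  refine ⟨?_, ?_, g, h1⟩
  · rw [h1, ← map_mul]
    have h2 : g * complexConjugation * g⁻¹ * (g * complexConjugation * g⁻¹) = 1 := by
      calc g * complexConjugation * g⁻¹ * (g * complexConjugation * g⁻¹) =
          g * (complexConjugation * complexConjugation) * g⁻¹ := by group
        _ = 1 := by rw [complexConjugation_mul_self, mul_one, mul_inv_cancel]
    rw [h2, map_one]
  · rw [h1, map_mul, map_mul, Matrix.det_mul, Matrix.det_mul, det_rhoE_conj]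
    have h2 : (rhoE D.ρ n g).det * (rhoE D.ρ n g⁻¹).det = 1 := by
      rw [← Matrix.det_mul, ← map_mul, mul_inv_cancel, map_one, Matrix.det_one]
    linear_combination -h2

/-- elements of the decomposition group at an auxiliary prime modulo `2ⁿ` -/
theorem rhoE_dec_aux {n q : ℕ} (hq : AuxPrime D.ρ S n q) {P : ValuationSubring Ω}
    (hP : P.LiesOverPrime q) {φ : GQ} (hφ : P.IsFrobeniusAt φ q) {g : GQ}
    (hg : g ∈ P.decompositionSubgroup ℚ) :
    ∃ k : ℕ, rhoE D.ρ n g = rhoE D.ρ n φ ^ k ∧ (IsOddAt P q g ↔ Odd k) := by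
  obtain ⟨L, hL, hL2⟩ := level_rhoE D n
  obtain ⟨k, σ, hσ, hk, hodd⟩ := exists_frob_pow hq.1 hP hφ hg L
  refine ⟨k, ?_, hodd⟩
  have h1 : rhoE D.ρ n ((φ ^ k * σ)⁻¹ * g) = 1 := by
    apply hL2
    intro x hx
    change (φ ^ k * σ)⁻¹ (g x) = x
    rw [hk x hx]
    change ((φ ^ k * σ)⁻¹ * (φ ^ k * σ)) x = x
    rw [inv_mul_cancel]
    rfl
  have h2 : g = (φ ^ k * σ) * ((φ ^ k * σ)⁻¹ * g) := by group
  rw [h2, map_mul, h1, mul_one, map_mul, map_pow,
    unram_rhoE D (piE n) hq.1 hq.2.1 hP hσ, mul_one]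

/-- **The Steinberg relation at the auxiliary primes holds for both signs.** -/
theorem stRel_rhoE_aux {n q : ℕ} (hq : AuxPrime D.ρ S n q) {P : ValuationSubring Ω}
    (hP : P.LiesOverPrime q) {e : RE n} (he : e * e = 1) :
    StRel P q e (fun g => (rhoE D.ρ n g).det) (fun g => rhoE D.ρ n g) := by
  obtain ⟨φ, hφ⟩ := FrobExists.exists_isFrobeniusAt P hq.1 hP
  obtain ⟨h1, h2, -⟩ := rhoE_frob_aux hq hP hφ
  exact stRel_of_frob_pow he h1 h2 fun g hg => rhoE_dec_aux hq hP hφ hg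

theorem stRel_rhoE_aux_int {n q : ℕ} (hq : AuxPrime D.ρ S n q) {P : ValuationSubring Ω}
    (hP : P.LiesOverPrime q) {e : ℤ} (he : e = 1 ∨ e = -1) :
    StRel P q (e : RE n) (fun g => (rhoE D.ρ n g).det) (fun g => rhoE D.ρ n g) := by
  refine stRel_rhoE_aux hq hP ?_
  rcases he with rfl | rfl <;> simp

/-! ### The residual representation -/

variable (D)

theorem exists_rhoBar_eq (B : GL (Fin 2) (ZMod 2)) :
    ∃ g : GQ, rhoBar D.ρ g = (B : Matrix (Fin 2) (Fin 2) (ZMod 2)) := by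
  obtain ⟨g, hg⟩ := D.surj B
  exact ⟨g, Matrix.ext fun i j => hg i j⟩

theorem exists_rhoBar_s : ∃ s : GQ, rhoBar D.ρ s = !![0, 1; 1, 1] := by
  obtain ⟨g, hg⟩ := exists_rhoBar_eq D (Matrix.GeneralLinearGroup.mkOfDetNeZero !![0, 1; 1, 1]
    (by decide))
  exact ⟨g, hg⟩

theorem exists_rhoBar_t : ∃ t : GQ, rhoBar D.ρ t = !![0, 1; 1, 0] := by
  obtain ⟨g, hg⟩ := exists_rhoBar_eq D (Matrix.GeneralLinearGroup.mkOfDetNeZero !![0, 1; 1, 0]
    (by decide))
  exact ⟨g, hg⟩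

theorem rhoBar_eq_one_iff (g : GQ) : rhoBar D.ρ g = 1 ↔
    ∀ i j, (2 : ℤ_[2]) ∣ ((D.ρ g : Matrix (Fin 2) (Fin 2) ℤ_[2]) - 1) i j := by
  rw [← Matrix.ext_iff]
  refine forall_congr' fun i => forall_congr' fun j => ?_
  rw [← toZMod_eq_zero_iff, Matrix.sub_apply, map_sub, sub_eq_zero, redRep_apply,
    Matrix.map_apply, Matrix.one_apply, Matrix.one_apply]
  split_ifs <;> simp

/-- `ρbar` is ramified at the primes of `S`. -/
theorem ram_rhoBar {q : ℕ} (hq : q ∈ S) {P : ValuationSubring Ω} (hP : P.LiesOverPrime q) :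
    ∃ t ∈ P.inertiaSubgroupIn ℚ, rhoBar D.ρ t ≠ 1 := by
  obtain ⟨t, ht, i, j, hij⟩ := D.ram q hq P hP
  exact ⟨t, ht, fun h => hij ((rhoBar_eq_one_iff D t).mp h i j)⟩

theorem rhoBar_conj_ne : rhoBar D.ρ complexConjugation ≠ 1 := by
  obtain ⟨i, j, hij⟩ := D.conj
  exact fun h => hij ((rhoBar_eq_one_iff D _).mp h i j)

end Fermat.Agent.P2.RT
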