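import Fermat.Agent.P2.RT.Grade
import Fermat.Agent.P2.Defs

/-!
# P2, block 5a: residually dihedral representations in characteristic two

`B` is a finite local ring of characteristic two with residue field `𝔽₂`, `ρ : G_ℚ → SL₂(B)`
residually equal to `ρbar` (with image `GL₂(𝔽₂)`), unramified outside `S ∪ Q` and satisfying the
Steinberg relation at the places over `S ∪ Q`. If the Selmer space of `ρbar` consists of
coboundaries then `ρ` maps the index two subgroup `H = {g | ρbar g = 1 or tr ρbar g = 1}` to a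
commutative group.

The proof decomposes `M₂(B)` into even and odd elements with respect to an element `s ∈ ρ(H)` of
order three and shows that `ρ g` has no component of the wrong parity: the ideal generated by these
components would give a cocycle with values in the space of odd elements of `M₂(𝔽₂)`, which is
isomorphic with the space of `ρbar`.
-/

set_option autoImplicit false
set_option linter.unusedSectionVars false
set_option linter.style.haveILetI false

open Matrix

namespace Fermat.Agent.P2.RT.Off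

open Grade Sel

local notation "M2" => Matrix (Fin 2) (Fin 2)
local notation "Ω" => AlgebraicClosure ℚ

/-! ## A functional -/

/-- A nonzero ideal `I` of a noetherian local ring with residue field `𝔽₂` has a nonzero
functional `I → 𝔽₂`. -/
theorem exists_functional {B : Type*} [CommRing B] [IsNoetherianRing B] (r : B →+* ZMod 2)
    (hr : ∀ x, IsUnit x ↔ r x = 1) (I : Ideal B) (hI : I ≠ ⊥) :
    ∃ l : B → ZMod 2, (∀ x ∈ I, ∀ y ∈ I, l (x + y) = l x + l y) ∧
      (∀ b : B, ∀ x ∈ I, l (b * x) = r b * l x) ∧ ∃ x ∈ I, l x ≠ 0 := by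
  classical
  have hnt : Nontrivial B := r.domain_nontrivial
  have h01 : ∀ c : ZMod 2, c = 0 ∨ c = 1 := by decide
  have hloc : IsLocalRing B := by
    refine IsLocalRing.of_isUnit_or_isUnit_one_sub_self fun x => ?_
    rcases h01 (r x) with h | h
    · right; rw [hr, map_sub, map_one, h, sub_zero]
    · left; rwa [hr]
  set m : Ideal B := IsLocalRing.maximalIdeal B with hm
  have hmr : ∀ x, x ∈ m ↔ r x = 0 := by
    intro x
    rw [hm, IsLocalRing.mem_maximalIdeal, mem_nonunits_iff, hr]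
    rcases h01 (r x) with h | h <;> rw [h] <;> decide
  -- `I ≠ m I`
  have hne : (m • (⊤ : Submodule B I)) ≠ ⊤ := by
    intro h
    have h1 : (⊤ : Submodule B I) = ⊥ :=
      Submodule.eq_bot_of_le_smul_of_le_jacobson_bot m ⊤ (IsNoetherian.noetherian _)
        (by rw [h]) (IsLocalRing.maximalIdeal_le_jacobson _)
    refine hI ((Submodule.eq_bot_iff _).mpr fun x hx => ?_)
    have h2 : (⟨x, hx⟩ : I) ∈ (⊤ : Submodule B I) := trivial
    rw [h1, Submodule.mem_bot] at h2
    exact congrArg Subtype.val h2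
  letI : Field (B ⧸ m) := Ideal.Quotient.field m
  have hnt2 : Nontrivial (I ⧸ (m • (⊤ : Submodule B I))) :=
    Submodule.Quotient.nontrivial_iff.mpr hne
  obtain ⟨v, hv⟩ := exists_ne (0 : I ⧸ (m • (⊤ : Submodule B I)))
  obtain ⟨f, hf⟩ : ∃ f : Module.Dual (B ⧸ m) (I ⧸ (m • (⊤ : Submodule B I))), f v ≠ 0 := by
    by_contra hcon
    push Not at hcon
    exact hv ((Module.forall_dual_apply_eq_zero_iff (B ⧸ m) v).mp hcon)
  let r' : B ⧸ m →+* ZMod 2 := Ideal.Quotient.lift m r fun a ha => (hmr a).mp ha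
  have hr'inj : Function.Injective r' := r'.injective
  refine ⟨fun x => if h : x ∈ I then r' (f (Submodule.Quotient.mk ⟨x, h⟩)) else 0, ?_, ?_, ?_⟩
  · intro x hx y hy
    beta_reduce
    rw [dif_pos (I.add_mem hx hy), dif_pos hx, dif_pos hy, ← map_add, ← map_add]
    rfl
  · intro b x hx
    beta_reduce
    rw [dif_pos (I.mul_mem_left b hx), dif_pos hx]
    have h1 : (Submodule.Quotient.mk ⟨b * x, I.mul_mem_left b hx⟩ :
        I ⧸ (m • (⊤ : Submodule B I))) =
        (Ideal.Quotient.mk m b) • (Submodule.Quotient.mk ⟨x, hx⟩ :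
          I ⧸ (m • (⊤ : Submodule B I))) := rfl
    rw [h1, map_smul, smul_eq_mul, map_mul]
    rfl
  · obtain ⟨⟨x, hx⟩, rfl⟩ := Submodule.Quotient.mk_surjective _ v
    refine ⟨x, hx, ?_⟩
    beta_reduce
    rw [dif_pos hx]
    intro h0
    exact hf (hr'inj (h0.trans (map_zero r').symm))

/-! ## Facts about `M₂(𝔽₂)` -/

/-- the standard element of order three -/
def s3 : M2 (ZMod 2) := !![0, 1; 1, 1]

theorem forall_mat {p : M2 (ZMod 2) → Prop} (h : ∀ a b c d : ZMod 2, p !![a, b; c, d]) :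
    ∀ x, p x := fun x => by
  rw [Matrix.eta_fin_two x]; exact h _ _ _ _


/-- membership in the cyclic subgroup of order three -/
def Mem (x : M2 (ZMod 2)) : Prop := x = 1 ∨ x.trace = 1

instance : DecidablePred Mem := fun x => inferInstanceAs (Decidable (x = 1 ∨ x.trace = 1))

theorem ev_of_mem : ∀ x : M2 (ZMod 2), x.det = 1 → Mem x → Ev s3 x :=
  forall_mat (by unfold Ev s3; decide)

theorem od_of_notMem : ∀ x : M2 (ZMod 2), x.det = 1 → ¬ Mem x → Od s3 x :=
  forall_mat (by unfold Od s3; decide)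

theorem s3_mul : s3 * s3 = s3 + 1 := by unfold s3; decide

/-- the vector of an odd element -/
def vec (x : M2 (ZMod 2)) : Fin 2 → ZMod 2 := ![x 0 1, x 1 0]

theorem vec_add (x y : M2 (ZMod 2)) : vec (x + y) = vec x + vec y := by
  funext i; fin_cases i <;> simp [vec]

theorem vec_eq_zero : ∀ x : M2 (ZMod 2), Od s3 x → vec x = 0 → x = 0 :=
  forall_mat (by unfold Od s3 vec; decide)

/-- conjugation of an odd element -/
theorem vec_conj' : ∀ g x : M2 (ZMod 2), g.det = 1 → Od s3 x →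
    vec (g * x * !![g 1 1, g 0 1; g 1 0, g 0 0]) = g *ᵥ vec x :=
  forall_mat fun a b c d => forall_mat (by unfold Od s3 vec; revert a b c d; decide)

theorem inv_eq : ∀ g : M2 (ZMod 2), g.det = 1 → g * !![g 1 1, g 0 1; g 1 0, g 0 0] = 1 :=
  forall_mat (by decide)

theorem vec_conj {g g' x : M2 (ZMod 2)} (hg : g.det = 1) (hgg : g' * g = 1) (hx : Od s3 x) :
    vec (g * x * g') = g *ᵥ vec x := by
  have h : g' = !![g 1 1, g 0 1; g 1 0, g 0 0] := by
    rw [← mul_one g', ← inv_eq g hg, ← mul_assoc, hgg, one_mul]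
  rw [h, vec_conj' g x hg hx]

theorem mem_mul : ∀ x y : M2 (ZMod 2), x.det = 1 → y.det = 1 →
    (Mem (x * y) ↔ (Mem x ↔ Mem y)) :=
  forall_mat fun a b c d => forall_mat (by revert a b c d; decide)

theorem s3_sub_one : ∀ v : Fin 2 → ZMod 2, s3 *ᵥ v - v = 0 → v = 0 := by
  unfold s3; decide

/-- `u ≠ 1` unipotent -/
theorem unip_notMem : ∀ u : M2 (ZMod 2), (u - 1) * (u - 1) = 0 → u ≠ 1 → ¬ Mem u :=
  forall_mat (by decide)

theorem unip_sq : ∀ u : M2 (ZMod 2), (u - 1) * (u - 1) = 0 → u * u = 1 :=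
  forall_mat (by decide)

theorem unip_vec : ∀ u : M2 (ZMod 2), (u - 1) * (u - 1) = 0 → u ≠ 1 → u *ᵥ vec u = vec u :=
  forall_mat (by unfold vec; decide)

theorem unip_off : ∀ u : M2 (ZMod 2), (u - 1) * (u - 1) = 0 → u ≠ 1 →
    (u - 1) 0 1 = 1 ∨ (u - 1) 1 0 = 1 :=
  forall_mat (by decide)

theorem eq_of_unip : ∀ u v : M2 (ZMod 2), (u - 1) * (u - 1) = 0 → u ≠ 1 →
    (v - 1) * (v - 1) = 0 → v ≠ 1 → (v - 1) * (u - 1) = 0 → v = u :=
  forall_mat fun a b c d => forall_mat (by revert a b c d; decide)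

theorem exists_entry' : ∀ u : M2 (ZMod 2), u.det = 1 → u 0 0 = 1 ∨ u 0 1 = 1 :=
  forall_mat (by decide)

theorem exists_entry (u : M2 (ZMod 2)) (h : u.det = 1) : ∃ i j, u i j = 1 := by
  rcases exists_entry' u h with h | h
  · exact ⟨0, 0, h⟩
  · exact ⟨0, 1, h⟩

/-! ## Nilpotent matrices -/

theorem trace_of_sq {B : Type*} [CommRing B] {s : M2 B} (hs : s * s = s + 1)
    (hu : IsUnit (s 0 1)) : s.trace = 1 := by
  obtain ⟨v, hv⟩ := hu.exists_left_inv
  have e := congrFun (congrFun hs 0) 1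
  rw [Matrix.mul_apply, Fin.sum_univ_two, Matrix.add_apply, Matrix.one_apply_ne (by decide)] at e
  rw [Matrix.trace_fin_two]
  linear_combination v * e + (1 - s 0 0 - s 1 1) * hv

/-- If `N² = 0` and an off-diagonal entry is a unit then `tr N = 0`. -/
theorem trace_eq_zero {B : Type*} [CommRing B] {N : M2 B} (h : N * N = 0)
    (hu : IsUnit (N 0 1) ∨ IsUnit (N 1 0)) : N.trace = 0 := by
  have e : ∀ i j, (N * N) i j = 0 := fun i j => by rw [h]; rfl
  have e01 := e 0 1
  have e10 := e 1 0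
  simp only [Matrix.mul_apply, Fin.sum_univ_two] at e01 e10
  rw [Matrix.trace_fin_two]
  rcases hu with hu | hu
  · obtain ⟨v, hv⟩ := hu.exists_left_inv
    linear_combination v * e01 - (N 0 0 + N 1 1) * hv
  · obtain ⟨v, hv⟩ := hu.exists_left_inv
    linear_combination v * e10 - (N 0 0 + N 1 1) * hv

/-- If `X N = N X = 0` then `X` is a multiple of `N`. -/
theorem exists_smul {B : Type*} [CommRing B] {N X : M2 B} (h : N * N = 0)
    (hu : IsUnit (N 0 1) ∨ IsUnit (N 1 0)) (h1 : X * N = 0) (h2 : N * X = 0) :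
    ∃ t : B, X = t • N := by
  have htr := trace_eq_zero h hu
  rw [Matrix.trace_fin_two] at htr
  have e : ∀ i j, (N * N) i j = 0 := fun i j => by rw [h]; rfl
  have e1 : ∀ i j, (X * N) i j = 0 := fun i j => by rw [h1]; rfl
  have e2 : ∀ i j, (N * X) i j = 0 := fun i j => by rw [h2]; rfl
  have e00 := e 0 0
  have a00 := e1 0 0
  have a01 := e1 0 1
  have a10 := e1 1 0
  have a11 := e1 1 1
  have b00 := e2 0 0
  have b01 := e2 0 1
  have b10 := e2 1 0
  have b11 := e2 1 1
  simp only [Matrix.mul_apply, Fin.sum_univ_two] at e00 a00 a01 a10 a11 b00 b01 b10 b11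
  rcases hu with hu | hu
  · obtain ⟨v, hv⟩ := hu.exists_left_inv
    refine ⟨X 0 1 * v, ?_⟩
    have k00 : X 0 0 = X 0 1 * v * N 0 0 := by
      linear_combination (-X 0 0) * hv + v * a01 - v * X 0 1 * htr
    have k11 : X 1 1 = X 0 1 * v * N 1 1 := by
      linear_combination (-X 1 1) * hv + v * b01 - v * X 0 1 * htr
    have k10 : X 1 0 = X 0 1 * v * N 1 0 := by
      have : X 1 0 = v * (- (N 0 0) * X 0 0) := by
        linear_combination (-X 1 0) * hv + v * b00
      rw [this, k00]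
      linear_combination (-X 0 1 * v * v) * e00 + X 0 1 * v * N 1 0 * hv
    ext i j
    fin_cases i <;> fin_cases j <;> simp only [Fin.zero_eta, Fin.mk_one, Matrix.smul_apply,
      smul_eq_mul]
    · exact k00
    · linear_combination (-X 0 1) * hv
    · exact k10
    · exact k11
  · obtain ⟨v, hv⟩ := hu.exists_left_inv
    refine ⟨X 1 0 * v, ?_⟩
    have k00 : X 0 0 = X 1 0 * v * N 0 0 := by
      linear_combination (-X 0 0) * hv + v * b10 - v * X 1 0 * htr
    have k11 : X 1 1 = X 1 0 * v * N 1 1 := by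
      linear_combination (-X 1 1) * hv + v * a10 - v * X 1 0 * htr
    have k01 : X 0 1 = X 1 0 * v * N 0 1 := by
      have : X 0 1 = v * (- (N 0 0) * X 0 0) := by
        linear_combination (-X 0 1) * hv + v * a00
      rw [this, k00]
      linear_combination (-X 1 0 * v * v) * e00 + X 1 0 * v * N 0 1 * hv
    ext i j
    fin_cases i <;> fin_cases j <;> simp only [Fin.zero_eta, Fin.mk_one, Matrix.smul_apply,
      smul_eq_mul]
    · exact k00
    · exact k01
    · linear_combination (-X 1 0) * hv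
    · exact k11

/-! ## The components of the wrong parity -/

section Off

variable {B : Type*} [CommRing B] {G : Type*} [Group G]

open Classical in
/-- the component of `ρ g` of the wrong parity -/
noncomputable def off (ρ : G →* M2 B) (ρbar : G →* M2 (ZMod 2)) (s : M2 B) (g : G) : M2 B :=
  if Mem (ρbar g) then p1 s (ρ g) else p0 s (ρ g)

open Classical in
/-- the component of `ρ g` of the right parity -/
noncomputable def main (ρ : G →* M2 B) (ρbar : G →* M2 (ZMod 2)) (s : M2 B) (g : G) : M2 B :=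
  if Mem (ρbar g) then p0 s (ρ g) else p1 s (ρ g)

variable {ρ : G →* M2 B} {ρbar : G →* M2 (ZMod 2)} {s : M2 B}

theorem off_of_mem {g : G} (h : Mem (ρbar g)) : off ρ ρbar s g = p1 s (ρ g) := if_pos h

theorem off_of_not {g : G} (h : ¬ Mem (ρbar g)) : off ρ ρbar s g = p0 s (ρ g) := if_neg h

theorem main_of_mem {g : G} (h : Mem (ρbar g)) : main ρ ρbar s g = p0 s (ρ g) := if_pos h

theorem main_of_not {g : G} (h : ¬ Mem (ρbar g)) : main ρ ρbar s g = p1 s (ρ g) := if_neg h

theorem off_mul (h2 : (2 : B) = 0) (hs : s * s = s + 1) (hdet : ∀ g, (ρbar g).det = 1) (g h : G) :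
    off ρ ρbar s (g * h) = main ρ ρbar s g * off ρ ρbar s h +
      off ρ ρbar s g * main ρ ρbar s h := by
  have hm := mem_mul (ρbar g) (ρbar h) (hdet g) (hdet h)
  rw [← map_mul] at hm
  by_cases hg : Mem (ρbar g) <;> by_cases hh : Mem (ρbar h)
  · have hgh : Mem (ρbar (g * h)) := hm.mpr (iff_of_true hg hh)
    rw [off_of_mem hgh, off_of_mem hg, off_of_mem hh, main_of_mem hg, main_of_mem hh, map_mul,
      p1_mul h2 hs]
  · have hgh : ¬ Mem (ρbar (g * h)) := fun h' => hh ((hm.mp h').mp hg)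
    rw [off_of_not hgh, off_of_mem hg, off_of_not hh, main_of_mem hg, main_of_not hh, map_mul,
      p0_mul h2 hs]
  · have hgh : ¬ Mem (ρbar (g * h)) := fun h' => hg ((hm.mp h').mpr hh)
    rw [off_of_not hgh, off_of_not hg, off_of_mem hh, main_of_not hg, main_of_mem hh, map_mul,
      p0_mul h2 hs, add_comm]
  · have hgh : Mem (ρbar (g * h)) := hm.mpr (iff_of_false hg hh)
    rw [off_of_mem hgh, off_of_not hg, off_of_not hh, main_of_not hg, main_of_not hh, map_mul,
      p1_mul h2 hs, add_comm]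

theorem two_zmod : (2 : ZMod 2) = 0 := by decide

variable {r : B →+* ZMod 2}

theorem off_map (hρ : ∀ g, (ρ g).map r = ρbar g) (hsr : s.map r = s3)
    (hdet : ∀ g, (ρbar g).det = 1) (g : G) : (off ρ ρbar s g).map r = 0 := by
  by_cases hg : Mem (ρbar g)
  · rw [off_of_mem hg, p1_map, hsr, hρ]
    exact p1_of_ev two_zmod s3_mul (ev_of_mem _ (hdet g) hg)
  · rw [off_of_not hg, p0_map, hsr, hρ]
    exact p0_of_od two_zmod s3_mul (od_of_notMem _ (hdet g) hg)

theorem main_map (hρ : ∀ g, (ρ g).map r = ρbar g) (hsr : s.map r = s3)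
    (hdet : ∀ g, (ρbar g).det = 1) (g : G) : (main ρ ρbar s g).map r = ρbar g := by
  by_cases hg : Mem (ρbar g)
  · rw [main_of_mem hg, p0_map, hsr, hρ]
    exact p0_of_ev two_zmod s3_mul (ev_of_mem _ (hdet g) hg)
  · rw [main_of_not hg, p1_map, hsr, hρ]
    exact p1_of_od two_zmod s3_mul (od_of_notMem _ (hdet g) hg)

/-- the ideal generated by the entries of `off g` -/
def offIdeal (ρ : G →* M2 B) (ρbar : G →* M2 (ZMod 2)) (s : M2 B) : Ideal B :=
  Ideal.span (Set.range fun x : G × Fin 2 × Fin 2 => off ρ ρbar s x.1 x.2.1 x.2.2)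

theorem off_mem (g : G) (i j : Fin 2) : off ρ ρbar s g i j ∈ offIdeal ρ ρbar s :=
  Ideal.subset_span ⟨(g, i, j), rfl⟩

/-- A functional of an ideal applied to matrices with entries in the ideal -/
theorem map_mul_left {I : Ideal B} {l : B → ZMod 2}
    (l1 : ∀ x ∈ I, ∀ y ∈ I, l (x + y) = l x + l y) (l2 : ∀ b : B, ∀ x ∈ I, l (b * x) = r b * l x)
    (M X : M2 B) (hX : ∀ i j, X i j ∈ I) : (M * X).map l = M.map r * X.map l := by
  ext i j
  rw [Matrix.map_apply, Matrix.mul_apply, Fin.sum_univ_two,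
    l1 _ (I.mul_mem_left _ (hX _ _)) _ (I.mul_mem_left _ (hX _ _)), l2 _ _ (hX _ _),
    l2 _ _ (hX _ _), Matrix.mul_apply, Fin.sum_univ_two]
  rfl

theorem map_mul_right {I : Ideal B} {l : B → ZMod 2}
    (l1 : ∀ x ∈ I, ∀ y ∈ I, l (x + y) = l x + l y) (l2 : ∀ b : B, ∀ x ∈ I, l (b * x) = r b * l x)
    (M X : M2 B) (hX : ∀ i j, X i j ∈ I) : (X * M).map l = X.map l * M.map r := by
  ext i j
  rw [Matrix.map_apply, Matrix.mul_apply, Fin.sum_univ_two,
    l1 _ (I.mul_mem_right _ (hX _ _)) _ (I.mul_mem_right _ (hX _ _)), mul_comm (X i 0),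
    mul_comm (X i 1), l2 _ _ (hX _ _), l2 _ _ (hX _ _), Matrix.mul_apply, Fin.sum_univ_two,
    mul_comm (r _), mul_comm (r _)]
  rfl

theorem map_add' {I : Ideal B} {l : B → ZMod 2}
    (l1 : ∀ x ∈ I, ∀ y ∈ I, l (x + y) = l x + l y) (X Y : M2 B) (hX : ∀ i j, X i j ∈ I)
    (hY : ∀ i j, Y i j ∈ I) : (X + Y).map l = X.map l + Y.map l := by
  ext i j
  exact l1 _ (hX i j) _ (hY i j)

/-- the cocycle -/
noncomputable def xi (ρ : G →* M2 B) (ρbar : G →* M2 (ZMod 2)) (s : M2 B) (l : B → ZMod 2)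
    (g : G) : M2 (ZMod 2) := (off ρ ρbar s g).map l * ρbar g⁻¹

variable {l : B → ZMod 2}

theorem xi_mul (h2 : (2 : B) = 0) (hs : s * s = s + 1) (hdet : ∀ g, (ρbar g).det = 1)
    (hρ : ∀ g, (ρ g).map r = ρbar g) (hsr : s.map r = s3)
    (l1 : ∀ x ∈ offIdeal ρ ρbar s, ∀ y ∈ offIdeal ρ ρbar s, l (x + y) = l x + l y)
    (l2 : ∀ b : B, ∀ x ∈ offIdeal ρ ρbar s, l (b * x) = r b * l x) (g h : G) :
    xi ρ ρbar s l (g * h) = xi ρ ρbar s l g + ρbar g * xi ρ ρbar s l h * ρbar g⁻¹ := by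
  have e1 : (off ρ ρbar s (g * h)).map l =
      ρbar g * (off ρ ρbar s h).map l + (off ρ ρbar s g).map l * ρbar h := by
    rw [off_mul h2 hs hdet, map_add' l1, map_mul_left l1 l2 _ _ (off_mem h),
      map_mul_right l1 l2 _ _ (off_mem g), main_map hρ hsr hdet, main_map hρ hsr hdet]
    · intro i j
      rw [Matrix.mul_apply]
      exact Ideal.sum_mem _ fun k _ => Ideal.mul_mem_left _ _ (off_mem _ _ _)
    · intro i j
      rw [Matrix.mul_apply]
      exact Ideal.sum_mem _ fun k _ => Ideal.mul_mem_right _ _ (off_mem _ _ _)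
  have e2 : ρbar h * ρbar h⁻¹ = 1 := by rw [← map_mul, mul_inv_cancel, map_one]
  rw [xi, e1, _root_.mul_inv_rev, map_mul, xi, xi, add_mul, add_comm]
  congr 1
  · rw [mul_assoc, ← mul_assoc (ρbar h), e2, one_mul]
  · simp only [mul_assoc]

theorem od_xi (h2 : (2 : B) = 0) (hs : s * s = s + 1) (hdet : ∀ g, (ρbar g).det = 1)
    (hsr : s.map r = s3)
    (l1 : ∀ x ∈ offIdeal ρ ρbar s, ∀ y ∈ offIdeal ρ ρbar s, l (x + y) = l x + l y)
    (l2 : ∀ b : B, ∀ x ∈ offIdeal ρ ρbar s, l (b * x) = r b * l x) (g : G) :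
    Od s3 (xi ρ ρbar s l g) := by
  have hinv : Mem (ρbar g⁻¹) ↔ Mem (ρbar g) := by
    have h := mem_mul (ρbar g) (ρbar g⁻¹) (hdet _) (hdet _)
    rw [← map_mul, mul_inv_cancel, map_one] at h
    exact (h.mp (Or.inl rfl)).symm
  have hm := off_mem (ρ := ρ) (ρbar := ρbar) (s := s) g
  by_cases hg : Mem (ρbar g)
  · refine Od.mul_ev ?_ (ev_of_mem _ (hdet _) (hinv.mpr hg))
    have h := od_p1 h2 hs (ρ g)
    rw [← off_of_mem (ρ := ρ) (s := s) hg, Od] at h
    rw [Od, ← hsr, ← map_mul_left l1 l2 _ _ hm, ← map_mul_right l1 l2 _ _ hm,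
      ← map_add' l1 _ _ _ hm, h]
    intro i j
    rw [Matrix.mul_apply]
    exact Ideal.sum_mem _ fun k _ => Ideal.mul_mem_right _ _ (off_mem _ _ _)
  · refine Ev.mul_od ?_ (od_of_notMem _ (hdet _) fun h => hg (hinv.mp h))
    have h := ev_p0 h2 hs (ρ g)
    rw [← off_of_not (ρ := ρ) (s := s) hg, Ev] at h
    rw [Ev, ← hsr, ← map_mul_left l1 l2 _ _ hm, ← map_mul_right l1 l2 _ _ hm, h]

/-- **The local condition.** `D` is a set of elements `g` of `G` (a decomposition group) for which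
`X g = ρ g - e g` satisfy `X g * X h = 0`. Then `ρbar h` fixes the vector of `xi g`. -/
theorem local_cond (h2 : (2 : B) = 0) (hr : ∀ x, IsUnit x ↔ r x = 1) (hs : s * s = s + 1)
    (hdet : ∀ g, (ρbar g).det = 1)
    (hρ : ∀ g, (ρ g).map r = ρbar g) (hsr : s.map r = s3)
    (l2 : ∀ b : B, ∀ x ∈ offIdeal ρ ρbar s, l (b * x) = r b * l x)
    (D : Subgroup G) (e : G → B) (he : ∀ g ∈ D, r (e g) = 1)
    (hD : ∀ g ∈ D, ∀ h ∈ D, (ρ g - e g • (1 : M2 B)) * (ρ h - e h • (1 : M2 B)) = 0)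
    {g h : G} (hg : g ∈ D) (hh : h ∈ D) :
    ρbar h *ᵥ vec (xi ρ ρbar s l g) = vec (xi ρ ρbar s l g) := by
  classical
  -- reduction of the relation
  have hmap1 : (1 : M2 B).map r = 1 := Matrix.map_one r (map_zero r) (map_one r)
  have hXr : ∀ k ∈ D, (ρ k - e k • (1 : M2 B)).map r = ρbar k - 1 := by
    intro k hk
    ext i j
    have h1 := congrFun (congrFun (hρ k) i) j
    have h3 := congrFun (congrFun hmap1 i) j
    rw [Matrix.map_apply] at h1 h3
    rw [Matrix.map_apply, Matrix.sub_apply, map_sub, Matrix.smul_apply, smul_eq_mul, map_mul,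
      he k hk, one_mul, h1, h3, Matrix.sub_apply]
  have hrel : ∀ k ∈ D, ∀ k' ∈ D, (ρbar k - 1) * (ρbar k' - 1) = 0 := by
    intro k hk k' hk'
    rw [← hXr k hk, ← hXr k' hk', ← Matrix.map_mul, hD k hk k' hk']
    exact Matrix.map_zero r (map_zero r)
  by_cases htriv : ∀ k ∈ D, ρbar k = 1
  · rw [htriv h hh, Matrix.one_mulVec]
  push Not at htriv
  obtain ⟨u, hu, hu1⟩ := htriv
  have huu := hrel u hu u hu
  -- all elements of `D` map to `1` or `ρbar u`
  have hcase : ∀ k ∈ D, ρbar k = 1 ∨ ρbar k = ρbar u := by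
    intro k hk
    by_cases hk1 : ρbar k = 1
    · exact Or.inl hk1
    · right
      exact eq_of_unip _ _ huu hu1 (hrel k hk k hk) hk1 (hrel k hk u hu)
  have hfix : ∀ c : ZMod 2, vec (c • ρbar u) = c • vec (ρbar u) := by
    intro c; funext i; fin_cases i <;> simp [vec]
  suffices hxi : ∃ c : ZMod 2, xi ρ ρbar s l g = c • ρbar u by
    obtain ⟨c, hc⟩ := hxi
    rw [hc, hfix, Matrix.mulVec_smul]
    rcases hcase h hh with h1 | h1
    · rw [h1, Matrix.one_mulVec]
    · rw [h1, unip_vec _ huu hu1]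
  -- the nilpotent
  set N : M2 B := ρ u - e u • (1 : M2 B) with hN
  have hNN : N * N = 0 := hD u hu u hu
  have hNr : N.map r = ρbar u - 1 := hXr u hu
  have hNu : IsUnit (N 0 1) ∨ IsUnit (N 1 0) := by
    rcases unip_off _ huu hu1 with h | h
    · left; rw [hr, ← h, ← hNr]; rfl
    · right; rw [hr, ← h, ← hNr]; rfl
  have hNtr : N.trace = 0 := trace_eq_zero hNN hNu
  -- its even part is scalar
  have hs01 : IsUnit (s 0 1) := by
    rw [hr]
    have h := congrFun (congrFun hsr 0) 1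
    rw [Matrix.map_apply] at h
    rw [h]; rfl
  have hstr : s.trace = 1 := trace_of_sq hs hs01
  obtain ⟨a, ha⟩ : ∃ a : B, p0 s N = a • (1 : M2 B) := by
    obtain ⟨a, b, hab⟩ := (ev_p0 h2 hs N).exists_eq hs01
    have h3 : (p0 s N).trace = 0 := by
      have h4 := congrArg Matrix.trace (p0_add_p1 h2 (s := s) N)
      rwa [Matrix.trace_add, (od_p1 h2 hs N).trace, add_zero, hNtr] at h4
    rw [hab, Matrix.trace_add, Matrix.trace_smul, Matrix.trace_smul, Matrix.trace_one, hstr,
      Fintype.card_fin] at h3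
    have h5 : b = 0 := by
      have : a * ((2 : ℕ) : B) + b * 1 = 0 := h3
      push_cast at this
      linear_combination this - a * h2
    exact ⟨a, by rw [hab, h5, zero_smul, add_zero]⟩
  -- `ρ g = e g + t N`
  obtain ⟨t, ht⟩ := exists_smul hNN hNu (hD g hg u hu) (hD u hu g hg)
  have hgt : ρ g = e g • (1 : M2 B) + t • N := by rw [← ht]; abel
  have hrg : ρbar g = 1 + r t • (ρbar u - 1) := by
    have h3 := hXr g hg
    rw [ht] at h3
    have h4 : (t • N).map r = r t • (ρbar u - 1) := by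
      rw [← hNr]; ext i j
      simp [Matrix.map_apply, Matrix.smul_apply]
    rw [h4] at h3
    rw [h3]; abel
  have hu2 : ¬ Mem (ρbar u) := unip_notMem _ huu hu1
  by_cases hgm : Mem (ρbar g)
  · -- even case
    have hg1 : ρbar g = 1 := by
      rcases hcase g hg with h | h
      · exact h
      · rw [h] at hgm; exact absurd hgm hu2
    have hoff : off ρ ρbar s g = t • p1 s N := by
      rw [off_of_mem hgm, hgt, p1_add, p1_smul, p1_smul, p1_of_ev h2 hs (ev_one s), smul_zero,
        zero_add]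
    have hp1r : (p1 s N).map r = ρbar u := by
      rw [p1_map, hsr, hNr, sub_eq_add_neg, p1_add, neg_mat two_zmod,
        p1_of_ev two_zmod s3_mul (ev_one s3), add_zero]
      exact p1_of_od two_zmod s3_mul (od_of_notMem _ (hdet u) hu2)
    -- `t ∈ I`
    obtain ⟨i, j, hij⟩ : ∃ i j, IsUnit (p1 s N i j) := by
      obtain ⟨i, j, hij⟩ := exists_entry _ (hdet u)
      refine ⟨i, j, ?_⟩
      rw [hr, ← hij, ← hp1r]; rfl
    have htI : t ∈ offIdeal ρ ρbar s := by
      obtain ⟨v, hv⟩ := hij.exists_left_inv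
      have h3 := off_mem (ρ := ρ) (ρbar := ρbar) (s := s) g i j
      rw [hoff, Matrix.smul_apply, smul_eq_mul] at h3
      have h4 := Ideal.mul_mem_left _ v h3
      have h5 : v * (t * p1 s N i j) = t := by linear_combination t * hv
      rwa [h5] at h4
    refine ⟨l t, ?_⟩
    have h6 : (off ρ ρbar s g).map l = l t • ρbar u := by
      rw [hoff, ← hp1r]
      ext i j
      rw [Matrix.map_apply, Matrix.smul_apply, smul_eq_mul, mul_comm, l2 _ _ htI,
        Matrix.smul_apply, Matrix.map_apply, smul_eq_mul, mul_comm]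
    have h7 : ρbar g⁻¹ = 1 := by
      have : ρbar g * ρbar g⁻¹ = 1 := by rw [← map_mul, mul_inv_cancel, map_one]
      rwa [hg1, one_mul] at this
    rw [xi, h6, h7, mul_one]
  · -- odd case
    have hgu : ρbar g = ρbar u := by
      rcases hcase g hg with h | h
      · exact absurd (Or.inl h) hgm
      · exact h
    have hoff : off ρ ρbar s g = (e g + t * a) • (1 : M2 B) := by
      rw [off_of_not hgm, hgt, p0_add, p0_smul, p0_smul, p0_of_ev h2 hs (ev_one s), ha, smul_smul,
        add_smul]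
    have hκ : e g + t * a ∈ offIdeal ρ ρbar s := by
      have h3 := off_mem (ρ := ρ) (ρbar := ρbar) (s := s) g 0 0
      rwa [hoff, Matrix.smul_apply, Matrix.one_apply_eq, smul_eq_mul, mul_one] at h3
    have l0 : l 0 = 0 := by
      have := l2 0 _ hκ
      rwa [zero_mul, map_zero, zero_mul] at this
    refine ⟨l (e g + t * a), ?_⟩
    have h6 : (off ρ ρbar s g).map l = l (e g + t * a) • (1 : M2 (ZMod 2)) := by
      rw [hoff]
      ext i j
      rw [Matrix.map_apply, Matrix.smul_apply, smul_eq_mul, Matrix.smul_apply, smul_eq_mul]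
      by_cases hij : i = j
      · subst hij
        rw [Matrix.one_apply_eq, Matrix.one_apply_eq, mul_one, mul_one]
      · rw [Matrix.one_apply_ne hij, Matrix.one_apply_ne hij, mul_zero, mul_zero, l0]
    have h7 : ρbar g⁻¹ = ρbar u := by
      have h8 : ρbar g⁻¹ * ρbar g = 1 := by rw [← map_mul, inv_mul_cancel, map_one]
      have h9 := unip_sq _ huu
      calc ρbar g⁻¹ = ρbar g⁻¹ * (ρbar u * ρbar u) := by rw [h9, mul_one]
        _ = ρbar u := by rw [← hgu, ← mul_assoc, h8, one_mul]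
    rw [xi, h6, h7, smul_mul_assoc, one_mul]

end Off

/-! ## An element of order three -/

theorem s3_pow : ∀ k : ℕ, s3 ^ 4 ^ k = s3 := by
  intro k
  induction k with
  | zero => rw [pow_zero, pow_one]
  | succ k ih =>
    rw [pow_succ, pow_mul, ih]
    unfold s3
    decide

theorem isUnit_mat {B : Type*} [CommRing B] {r : B →+* ZMod 2} (hr : ∀ x, IsUnit x ↔ r x = 1)
    {x : M2 B} (hx : (x.map r).det = 1) : IsUnit x := by
  rw [Matrix.isUnit_iff_isUnit_det, hr]
  have h : r x.det = (r.mapMatrix x).det := RingHom.map_det r x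
  rw [h]
  exact hx

theorem isNilpotent_of_map {B : Type*} [CommRing B] [Finite B] {r : B →+* ZMod 2}
    (hr : ∀ x, IsUnit x ↔ r x = 1) {n : M2 B} (hn : n.map r = 0) : ∃ k, n ^ k = 0 := by
  obtain ⟨a, b, hab, h⟩ : ∃ a b : ℕ, a < b ∧ n ^ a = n ^ b := by
    obtain ⟨x, y, hxy, h⟩ := Finite.exists_ne_map_eq_of_infinite (fun k : ℕ => n ^ k)
    rcases lt_or_gt_of_ne hxy with h' | h'
    · exact ⟨x, y, h', h⟩
    · exact ⟨y, x, h', h.symm⟩
  refine ⟨a, ?_⟩
  obtain ⟨c, rfl⟩ : ∃ c, b = a + (c + 1) := ⟨b - a - 1, by omega⟩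
  have h1 : n ^ a * (1 - n ^ (c + 1)) = 0 := by
    rw [mul_sub, mul_one, ← pow_add, ← h, sub_self]
  have hu : IsUnit (1 - n ^ (c + 1)) := by
    refine isUnit_mat hr ?_
    have h3 : (1 - n ^ (c + 1)).map r = 1 := by
      show r.mapMatrix (1 - n ^ (c + 1)) = 1
      have h4 : r.mapMatrix n = 0 := hn
      rw [map_sub, map_one, map_pow, h4, zero_pow (Nat.succ_ne_zero c), sub_zero]
    rw [h3, Matrix.det_one]
  exact (hu.mul_left_eq_zero).mp h1

theorem exists_order_three {B : Type*} [CommRing B] [Finite B] {r : B →+* ZMod 2}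
    (h2 : (2 : B) = 0) (hr : ∀ x, IsUnit x ↔ r x = 1) {y : M2 B} (hy : y.map r = s3) :
    ∃ k : ℕ, y ^ 4 ^ k * y ^ 4 ^ k = y ^ 4 ^ k + 1 ∧ (y ^ 4 ^ k).map r = s3 := by
  have hnt : Nontrivial B := r.domain_nontrivial
  haveI : CharP (M2 B) 2 := CharTwo.of_one_ne_zero_of_two_eq_zero one_ne_zero (two_eq_zero_mat h2)
  have hy' : r.mapMatrix y = s3 := hy
  obtain ⟨k, hk⟩ := isNilpotent_of_map hr (n := y ^ 3 - 1) (by
    show r.mapMatrix (y ^ 3 - 1) = 0
    rw [map_sub, map_pow, map_one, hy']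
    unfold s3
    decide)
  have hz : (y ^ 4 ^ k) ^ 3 = 1 := by
    have h1 : (y ^ 3) ^ 2 ^ (2 * k) = 1 := by
      have h3 : y ^ 3 = 1 + (y ^ 3 - 1) := by abel
      rw [h3, add_pow_char_pow_of_commute 2 _ (Commute.one_left _), one_pow]
      have h4 : (y ^ 3 - 1) ^ 2 ^ (2 * k) = 0 := by
        have hle : k ≤ 2 ^ (2 * k) := (Nat.lt_two_pow_self).le.trans
          (Nat.pow_le_pow_right (by norm_num) (by omega))
        obtain ⟨c, hc⟩ := Nat.exists_eq_add_of_le hle
        rw [hc, pow_add, hk, zero_mul]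
      rw [h4, add_zero]
    rw [← pow_mul, mul_comm, pow_mul]
    have h5 : 2 ^ (2 * k) = 4 ^ k := by rw [pow_mul]; norm_num
    rwa [h5] at h1
  have hzr : r.mapMatrix (y ^ 4 ^ k) = s3 := by rw [map_pow, hy', s3_pow]
  refine ⟨k, ?_, hzr⟩
  set z := y ^ 4 ^ k with hzdef
  have hu : IsUnit (z - 1) := by
    refine isUnit_mat hr ?_
    show (r.mapMatrix (z - 1)).det = 1
    rw [map_sub, map_one, hzr]
    unfold s3
    decide
  have h6 : (z - 1) * (z * z + z + 1) = 0 := by
    have : (z - 1) * (z * z + z + 1) = z ^ 3 - 1 := by noncomm_ring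
    rw [this, hz, sub_self]
  have h7 : z * z + z + 1 = 0 := (hu.mul_right_eq_zero).mp h6
  have h8 : z * z = (z * z + z + 1) - (z + 1) := by abel
  rw [h8, h7, zero_sub, neg_mat h2]

/-! ## The main theorem of block 5a -/

theorem vec_zero : vec 0 = 0 := by
  funext i; fin_cases i <;> rfl

/-- **Block 5a.** -/
theorem comm_of_selmer {B : Type} [CommRing B] [Finite B] (h2 : (2 : B) = 0)
    (r : B →+* ZMod 2) (hr : ∀ x, IsUnit x ↔ r x = 1) (ρ : GQ →* M2 B) (ρbar : GQ →* M2 (ZMod 2))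
    (hρ : ∀ g, (ρ g).map r = ρbar g) (hs : ∃ s, ρbar s = !![0, 1; 1, 1])
    (hlev : ∃ L : IntermediateField ℚ Ω, FiniteDimensional ℚ L ∧
      ∀ h : GQ, (∀ x ∈ L, h x = x) → ρ h = 1)
    (S Q : Finset ℕ)
    (hunr : ∀ ℓ : ℕ, ℓ.Prime → ℓ ∉ S → ℓ ∉ Q → ∀ P : ValuationSubring Ω, P.LiesOverPrime ℓ →
      ∀ g ∈ P.inertiaSubgroupIn ℚ, ρ g = 1)
    (hst : ∀ q : ℕ, q ∈ S ∨ q ∈ Q → ∀ P : ValuationSubring Ω, P.LiesOverPrime q →
      ∃ e : B, r e = 1 ∧ StRel P q e (fun _ => 1) (fun g => ρ g))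
    (ρV : Representation (ZMod 2) GQ (Fin 2 → ZMod 2)) (hV : ∀ g v, ρV g v = ρbar g *ᵥ v)
    (hsel : ∀ ξ ∈ Selmer ρV S Q, ∃ x : Fin 2 → ZMod 2, ξ = cob ρV x)
    {g h : GQ} (hg : ρbar g = 1 ∨ (ρbar g).trace = 1) (hh : ρbar h = 1 ∨ (ρbar h).trace = 1) :
    ρ g * ρ h = ρ h * ρ g := by
  classical
  obtain ⟨s1, hs1⟩ := hs
  have hdet : ∀ g, (ρbar g).det = 1 := by
    intro g
    have hne : ∀ c : ZMod 2, c ≠ 0 → c = 1 := by decide
    refine hne _ fun h0 => ?_
    have h1 := congrArg Matrix.det (map_mul ρbar g g⁻¹)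
    rw [mul_inv_cancel, map_one, Matrix.det_one, Matrix.det_mul, h0, zero_mul] at h1
    exact one_ne_zero h1
  obtain ⟨k, hs, hsr⟩ := exists_order_three h2 hr (y := ρ s1) (by rw [hρ, hs1]; rfl)
  set s : M2 B := ρ s1 ^ 4 ^ k with hsdef
  have hs01 : IsUnit (s 0 1) := by
    rw [hr]
    have h := congrFun (congrFun hsr 0) 1
    rw [Matrix.map_apply] at h
    rw [h]; rfl
  have hmem1 : Mem (ρbar 1) := by rw [map_one]; exact Or.inl rfl
  -- the ideal is zero
  have hI : offIdeal ρ ρbar s = ⊥ := by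
    by_contra hne
    obtain ⟨l, l1, l2, x₀, hx₀, hlx₀⟩ := exists_functional r hr _ hne
    have l0 : l 0 = 0 := by
      have := l2 0 0 (Ideal.zero_mem _)
      rwa [zero_mul, map_zero, zero_mul] at this
    have hlmap0 : (0 : M2 B).map l = 0 := by ext i j; exact l0
    let f : GQ → (Fin 2 → ZMod 2) := fun g => vec (xi ρ ρbar s l g)
    have hf : f ∈ Selmer ρV S Q := by
      refine mem_SelOn.mpr ⟨fun g h => ?_, ?_, ?_, ?_⟩
      · show vec (xi ρ ρbar s l (g * h)) = _
        rw [xi_mul h2 hs hdet hρ hsr l1 l2, vec_add, hV,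
          vec_conj (hdet g) (by rw [← map_mul, inv_mul_cancel, map_one])
            (od_xi h2 hs hdet hsr l1 l2 h)]
      · obtain ⟨L, hL, hL1⟩ := hlev
        refine ⟨L, hL, fun g h hh => ?_⟩
        have e1 : ρ (g * h) = ρ g := by rw [map_mul, hL1 h hh, mul_one]
        have e2 : ρbar (g * h) = ρbar g := by rw [← hρ, e1, hρ]
        have e4 : ρbar (g * h)⁻¹ = ρbar g⁻¹ := by
          have a1 : ρbar (g * h)⁻¹ * ρbar (g * h) = 1 := by
            rw [← map_mul, inv_mul_cancel, map_one]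
          have a2 : ρbar g * ρbar g⁻¹ = 1 := by rw [← map_mul, mul_inv_cancel, map_one]
          calc ρbar (g * h)⁻¹ = ρbar (g * h)⁻¹ * (ρbar g * ρbar g⁻¹) := by rw [a2, mul_one]
            _ = ρbar g⁻¹ := by rw [← mul_assoc, ← e2, a1, one_mul]
        have e3 : off ρ ρbar s (g * h) = off ρ ρbar s g := by
          unfold off; rw [e1, e2]
        show vec (xi ρ ρbar s l (g * h)) = vec (xi ρ ρbar s l g)
        unfold xi
        rw [e3, e4]
      · intro ℓ hℓ _ hS hQ P hP g hg
        have e1 : ρ g = 1 := hunr ℓ hℓ hS hQ P hP g hg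
        have e2 : ρbar g = 1 := by
          rw [← hρ, e1]; exact Matrix.map_one r (map_zero r) (map_one r)
        have e3 : off ρ ρbar s g = 0 := by
          rw [off_of_mem (Or.inl e2), e1, p1_of_ev h2 hs (ev_one s)]
        show vec (xi ρ ρbar s l g) = 0
        rw [xi, e3, hlmap0, zero_mul, vec_zero]
      · intro ℓ _ hSQ P hP
        obtain ⟨e, he, hst⟩ := hst ℓ hSQ P hP
        refine ⟨0, fun g hg h hh => ?_⟩
        rw [map_zero, sub_zero, sub_zero, hV]
        refine local_cond h2 hr hs hdet hρ hsr l2 (P.decompositionSubgroup ℚ)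
          (fun g => eta P ℓ e g) (fun g _ => ?_) (fun g hg h hh => ?_) hg hh
        · show r (eta P ℓ e g) = 1
          unfold eta
          split_ifs
          · exact he
          · exact map_one r
        · have := hst g hg h hh
          rwa [mul_one, Algebra.algebraMap_eq_smul_one, Algebra.algebraMap_eq_smul_one] at this
    obtain ⟨x, hx⟩ := hsel f hf
    have hs1m : Mem (ρbar s1) := by rw [hs1]; right; decide
    have hoff1 : off ρ ρbar s s1 = 0 := by
      rw [off_of_mem hs1m]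
      refine p1_of_ev h2 hs ?_
      rw [Ev, hsdef, ← pow_succ, ← pow_succ']
    have hf1 : f s1 = 0 := by
      show vec (xi ρ ρbar s l s1) = 0
      rw [xi, hoff1, hlmap0, zero_mul, vec_zero]
    have hx0 : x = 0 := by
      refine s3_sub_one x ?_
      have h3 := congrFun hx s1
      rw [hf1, cob_apply, hV, hs1] at h3
      exact h3.symm
    have hf0 : ∀ g, f g = 0 := by
      intro g
      rw [hx, hx0, map_zero]; rfl
    have hl0 : ∀ g i j, l (off ρ ρbar s g i j) = 0 := by
      intro g i j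
      have h3 : xi ρ ρbar s l g = 0 := vec_eq_zero _ (od_xi h2 hs hdet hsr l1 l2 g) (hf0 g)
      have h4 : (off ρ ρbar s g).map l = 0 := by
        have a2 : ρbar g⁻¹ * ρbar g = 1 := by rw [← map_mul, inv_mul_cancel, map_one]
        calc (off ρ ρbar s g).map l = xi ρ ρbar s l g * ρbar g := by
              rw [xi, mul_assoc, a2, mul_one]
          _ = 0 := by rw [h3, zero_mul]
      exact congrFun (congrFun h4 i) j
    refine hlx₀ ?_
    induction hx₀ using Submodule.span_induction with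
    | mem x hx =>
      obtain ⟨⟨g, i, j⟩, rfl⟩ := hx
      exact hl0 g i j
    | zero => exact l0
    | add x y hx hy ihx ihy =>
      rw [l1 x hx y hy]
      by_cases h3 : l x = 0
      · by_cases h4 : l y = 0
        · rw [h3, h4, add_zero]
        · exact absurd (ihy h4) h4
      · exact absurd (ihx h3) h3
    | smul b x hx ih =>
      rw [smul_eq_mul, l2 b x hx]
      by_cases h3 : l x = 0
      · rw [h3, mul_zero]
      · exact absurd (ih h3) h3
  -- conclusion
  have hev : ∀ g, Mem (ρbar g) → Ev s (ρ g) := by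
    intro g hg
    have h3 : off ρ ρbar s g = 0 := by
      ext i j
      have := off_mem (ρ := ρ) (ρbar := ρbar) (s := s) g i j
      rw [hI] at this
      exact (Submodule.mem_bot B).mp this
    rw [off_of_mem hg] at h3
    have h4 := p0_add_p1 h2 (s := s) (ρ g)
    rw [h3, add_zero] at h4
    rw [← h4]
    exact ev_p0 h2 hs _
  exact (hev g hg).comm (hev h hh) hs01

end Fermat.Agent.P2.RT.Off
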