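import Fermat.Agent.P2.RT.Kernel
import Fermat.Agent.P2.RT.ECurve
import Fermat.Agent.P2.RT.Off
import Fermat.Agent.P2.RT.Char2

/-!
# P2, block 5b-i: the main theorem `R = T`
-/

set_option autoImplicit false
set_option linter.unusedSectionVars false
set_option linter.style.haveILetI false

open IsLocalRing Matrix

noncomputable section

namespace Fermat.Agent.P2.RT

open Sel

local notation "Ω" => AlgebraicClosure ℚ

section Family

variable {𝔉 : Type} (n : ℕ) (R : 𝔉 → Type)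

/-- add the component `ℤ₂/2ⁿ` to a family of rings -/
def RO : Option 𝔉 → Type
  | none => RE n
  | some f => R f

variable [∀ f, CommRing (R f)] [∀ f, IsLocalRing (R f)] [∀ f, Algebra ℤ_[2] (R f)]
  [∀ f, Module.Finite ℤ_[2] (R f)]

instance instCommRingRO : ∀ i, CommRing (RO n R i)
  | none => inferInstanceAs (CommRing (RE n))
  | some f => inferInstanceAs (CommRing (R f))

instance instAlgebraRO : ∀ i, Algebra ℤ_[2] (RO n R i)
  | none => inferInstanceAs (Algebra ℤ_[2] (RE n))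
  | some f => inferInstanceAs (Algebra ℤ_[2] (R f))

instance instFiniteRO : ∀ i, Module.Finite ℤ_[2] (RO n R i)
  | none => inferInstanceAs (Module.Finite ℤ_[2] (RE n))
  | some f => inferInstanceAs (Module.Finite ℤ_[2] (R f))

instance instLocalRE [NeZero n] : IsLocalRing (RE n) := isLocalRing_RE (NeZero.ne n)

instance instLocalRO [NeZero n] : ∀ i, IsLocalRing (RO n R i)
  | none => inferInstanceAs (IsLocalRing (RE n))
  | some f => inferInstanceAs (IsLocalRing (R f))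

variable {n R}

/-- add the component of the curve to a family of representations -/
def rhoO (ρE : GQ →* GL (Fin 2) ℤ_[2]) (ρ : ∀ f, GQ →* Matrix (Fin 2) (Fin 2) (R f)) :
    ∀ i, GQ →* Matrix (Fin 2) (Fin 2) (RO n R i)
  | none => rhoE ρE n
  | some f => ρ f

end Family

section Main

variable {S : Finset ℕ} {a : ℕ → ℤ} (D : GalData S a) {n : ℕ}
  {𝔉 : Type} [Finite 𝔉] {R : 𝔉 → Type}
  [∀ f, CommRing (R f)] [∀ f, IsLocalRing (R f)] [∀ f, Algebra ℤ_[2] (R f)]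
  [∀ f, Module.Finite ℤ_[2] (R f)]
  {ρ : ∀ f, GQ →* Matrix (Fin 2) (Fin 2) (R f)}

theorem cong_rhoO [NeZero n] (H : Cong ρ (rhoBar D.ρ) (detRep D.ρ)) :
    Cong (rhoO (n := n) D.ρ ρ) (rhoBar D.ρ) (detRep D.ρ) := by
  refine ⟨fun i => ?_, fun i g => ?_, fun i g => ?_⟩
  · cases i with
    | none => exact two_mem_RE (n := n)
    | some f => exact H.two_mem f
  · cases i with
    | none => exact det_rhoE D.ρ n g
    | some f => exact H.det f g
  · cases i with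
    | none => exact residue_trace_rhoE (n := n) D.ρ g
    | some f => exact H.res f g

/-- Involutions of `GL₂(𝔽₂)` are not in the cyclic subgroup of order three. -/
theorem not_mem_of_sq : ∀ x : Matrix (Fin 2) (Fin 2) (ZMod 2), x * x = 1 → x ≠ 1 →
    ¬ (x = 1 ∨ x.trace = 1) :=
  Off.forall_mat (by decide)

theorem not_mem_of_unip {x : Matrix (Fin 2) (Fin 2) (ZMod 2)} (h : (x - 1) * (x - 1) = 0)
    (h1 : x ≠ 1) : ¬ (x = 1 ∨ x.trace = 1) := Off.unip_notMem x h h1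

/-- At all primes of `S` and all auxiliary primes the decomposition group is not contained in
`H`. -/
theorem exists_dec_notMem {Q : Finset ℕ} (hQ : ∀ q ∈ Q, AuxPrime D.ρ S n q) (hn : n ≠ 0)
    {q : ℕ} (hq : q ∈ S ∨ q ∈ Q) {P : ValuationSubring Ω} (hP : P.LiesOverPrime q) :
    ∃ g ∈ P.decompositionSubgroup ℚ, ¬ (rhoBar D.ρ g = 1 ∨ (rhoBar D.ρ g).trace = 1) := by
  by_cases hqS : q ∈ S
  · obtain ⟨t, ht, ht1⟩ := ram_rhoBar D hqS hP
    refine ⟨t, inertia_le P ht, not_mem_of_unip ?_ ht1⟩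
    have h1 := stRel_rhoE (D := D) (PadicInt.toZMod (p := 2)) hqS hP t (inertia_le P ht) t
      (inertia_le P ht)
    have h2 : ∀ c : ZMod 2, IsUnit c → c = 1 := by decide
    have h3 : (redRep D.ρ (PadicInt.toZMod (p := 2)) t).det = 1 := by
      rw [det_redRep]
      exact h2 _ ((isUnit_chi (detRep D.ρ) t).map _)
    have h4 : eta P q ((D.s q : ℤ) : ZMod 2) t = 1 := if_neg (not_isOddAt_of_inertia P q ht)
    simp only [h3, h4, mul_one, map_one] at h1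
    exact h1
  · have hqQ : q ∈ Q := hq.resolve_left hqS
    obtain ⟨φ, hφ⟩ := FrobExists.exists_isFrobeniusAt P (hQ q hqQ).1 hP
    refine ⟨φ, hφ.1, ?_⟩
    obtain ⟨g, hg⟩ := (hQ q hqQ).2.2 P hP φ hφ
    have h1 : rhoBar D.ρ φ = rhoBar D.ρ (g * complexConjugation * g⁻¹) := by
      apply Matrix.ext
      intro i j
      have h2 := (dvd_pow_self (2 : ℤ_[2]) hn).trans (hg i j)
      obtain ⟨c, hc⟩ := h2
      have h3 : rhoBar D.ρ φ i j - rhoBar D.ρ (g * complexConjugation * g⁻¹) i j =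
          PadicInt.toZMod (((D.ρ φ : Matrix (Fin 2) (Fin 2) ℤ_[2]) -
            (D.ρ (g * complexConjugation * g⁻¹) : Matrix (Fin 2) (Fin 2) ℤ_[2])) i j) := by
        rw [Matrix.sub_apply, map_sub]
        rfl
      have h4 : (2 : ZMod 2) = 0 := by decide
      have h5 : PadicInt.toZMod (2 * c) = 0 := by rw [map_mul, map_ofNat, h4, zero_mul]
      rw [hc, h5] at h3
      exact sub_eq_zero.mp h3
    have hcc : complexConjugation * complexConjugation = 1 := by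
      exact complexConjugation_mul_self
    refine not_mem_of_sq _ ?_ ?_
    · rw [h1, ← map_mul]
      have : g * complexConjugation * g⁻¹ * (g * complexConjugation * g⁻¹) = 1 := by
        calc g * complexConjugation * g⁻¹ * (g * complexConjugation * g⁻¹) =
            g * (complexConjugation * complexConjugation) * g⁻¹ := by group
          _ = 1 := by rw [hcc]; group
      rw [this, map_one]
    · rw [h1]
      intro h5
      refine rhoBar_conj_ne D ?_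
      have h6 : complexConjugation = g⁻¹ * (g * complexConjugation * g⁻¹) * g := by group
      rw [h6, map_mul, map_mul, h5, mul_one, ← map_mul, inv_mul_cancel, map_one]

theorem exists_level_and {p₁ p₂ : GQ → Prop}
    (h₁ : ∃ L : IntermediateField ℚ Ω, FiniteDimensional ℚ L ∧ ∀ g : GQ, (∀ x ∈ L, g x = x) → p₁ g)
    (h₂ : ∃ L : IntermediateField ℚ Ω, FiniteDimensional ℚ L ∧ ∀ g : GQ, (∀ x ∈ L, g x = x) → p₂ g) :
    ∃ L : IntermediateField ℚ Ω, FiniteDimensional ℚ L ∧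
      ∀ g : GQ, (∀ x ∈ L, g x = x) → p₁ g ∧ p₂ g := by
  obtain ⟨L₁, hL₁, h₁⟩ := h₁
  obtain ⟨L₂, hL₂, h₂⟩ := h₂
  exact ⟨L₁ ⊔ L₂, IntermediateField.finiteDimensional_sup L₁ L₂, fun g hg =>
    ⟨h₁ g fun x hx => hg x ((le_sup_left : L₁ ≤ L₁ ⊔ L₂) hx),
      h₂ g fun x hx => hg x ((le_sup_right : L₂ ≤ L₁ ⊔ L₂) hx)⟩⟩

/-- **`R = T`.** -/
theorem rt_main [NeZero n] {Q : Finset ℕ} (hQ : ∀ q ∈ Q, AuxPrime D.ρ S n q)
    (hsel : ∀ ξ ∈ Selmer (resRep D.ρ) S Q, ∃ x : Fin 2 → ZMod 2, ξ = cob (resRep D.ρ) x)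
    (H : Cong ρ (rhoBar D.ρ) (detRep D.ρ)) (htf : ∀ f (x : R f), 2 * x = 0 → x = 0)
    (hcont : ∀ k : ℕ, ∃ L : IntermediateField ℚ Ω, FiniteDimensional ℚ L ∧
      ∀ g : GQ, (∀ x ∈ L, g x = x) → ∀ f i j, (2 : R f) ^ k ∣ (ρ f g - 1) i j)
    (hunr : ∀ ℓ : ℕ, ℓ.Prime → ℓ ∉ S → ℓ ∉ Q → ∀ P : ValuationSubring Ω, P.LiesOverPrime ℓ →
      ∀ g ∈ P.inertiaSubgroupIn ℚ, ∀ f, ρ f g = 1)
    (σ : 𝔉 → ℕ → ℤ) (hσ : ∀ f q, σ f q = 1 ∨ σ f q = -1) (ε : ℕ → ℤ)
    (hε : ∀ q, ε q = 1 ∨ ε q = -1) (hσε : ∀ f, ∀ q ∈ Q, σ f q = ε q)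
    (hst : ∀ f q, q ∈ S ∨ q ∈ Q → ∀ P : ValuationSubring Ω, P.LiesOverPrime q →
      StRel P q (σ f q : R f) (fun g => (ρ f g).det) (fun g => ρ f g))
    (G₀ : Subgroup GQ) (hG₀ : ∀ g, g ∈ G₀ ↔ rhoBar D.ρ g = 1 ∨ (rhoBar D.ρ g).trace = 1)
    {Cl C F : Type} [CommGroup Cl] [Finite Cl] [CommGroup C] [Finite C] [Field F] [CharP F 2]
    (hC : ∃ m : ℕ, ∀ c : C, c ^ 2 ^ m = 1)
    (κ : Cl →* C) (hκ : ∀ x, κ x = 1 → Odd (orderOf x)) (ψ : Cl →* Fˣ)
    (cl : ValuationSubring Ω → Cl) (φ : trAlg ρ →+* MonoidAlgebra F C)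
    (hφ : ∀ ℓ : ℕ, ℓ.Prime → ℓ ∉ S → ℓ ∉ Q → ∀ P : ValuationSubring Ω, P.LiesOverPrime ℓ →
      ∀ f ∈ G₀, P.IsFrobeniusAt f ℓ → ((rhoBar D.ρ f).trace = 1 → ψ (cl P) ≠ 1) →
      φ (tA ρ f) = MonoidAlgebra.single (κ (cl P)) (ψ (cl P) : F) +
        MonoidAlgebra.single (κ (cl P))⁻¹ (((ψ (cl P))⁻¹ : Fˣ) : F))
    (AR : ∀ (X : Type) [CommGroup X] [Finite X] [IsCyclic X] (χ : G₀ →* X),
      (∃ L : IntermediateField ℚ Ω, FiniteDimensional ℚ L ∧
        ∀ h : G₀, (∀ x ∈ L, (h : GQ) x = x) → χ h = 1) →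
      (∀ ℓ : ℕ, ℓ.Prime → ∀ P : ValuationSubring Ω, P.LiesOverPrime ℓ →
        ∀ h : G₀, (h : GQ) ∈ P.inertiaSubgroupIn ℚ → χ h = 1) →
      ∃ U : Subgroup Cl,
        (∀ ℓ : ℕ, ℓ.Prime → ℓ ∉ S ∪ Q → ∀ P : ValuationSubring Ω, P.LiesOverPrime ℓ →
          ∀ f : G₀, P.IsFrobeniusAt (f : GQ) ℓ → cl P ^ orderOf (χ f) ∈ U) ∧
        ∀ (g : G₀) (L : IntermediateField ℚ Ω), FiniteDimensional ℚ L → ∀ Bd : Finset ℕ,
          ∃ ℓ : ℕ, ℓ.Prime ∧ ℓ ∉ Bd ∧ ∃ P : ValuationSubring Ω, P.LiesOverPrime ℓ ∧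
            ∃ f : G₀, P.IsFrobeniusAt (f : GQ) ℓ ∧ (∀ x ∈ L, (f : GQ) x = (g : GQ) x) ∧
              ((rhoBar D.ρ g).trace = 1 → ψ (cl P) ≠ 1) ∧ (χ g ≠ 1 → cl P ∉ U)) :
    Function.Injective (pr (rhoO (n := n) D.ρ ρ)) ∧
      Module.finrank ℤ_[2] (trAlg ρ) ≤ Nat.card C := by
  have HO := cong_rhoO (n := n) D H
  obtain ⟨s, hs⟩ := exists_rhoBar_s D
  obtain ⟨t, ht⟩ := exists_rhoBar_t D
  obtain ⟨ρA, P, P', hglue⟩ := exists_glued HO hs ht
  have hS' : ∃ s, rhoBar D.ρ s = !![0, 1; 1, 1] := ⟨s, hs⟩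
  have hT' : ∃ t, rhoBar D.ρ t = !![0, 1; 1, 0] := ⟨t, ht⟩
  -- the conditions for the extended family
  have hcontO : ∀ k : ℕ, ∃ L : IntermediateField ℚ Ω, FiniteDimensional ℚ L ∧
      ∀ g : GQ, (∀ x ∈ L, g x = x) → ∀ i a b, (2 : RO n R i) ^ k ∣
        (rhoO (n := n) D.ρ ρ i g - 1) a b := by
    intro k
    obtain ⟨L, hL, h⟩ := exists_level_and (hcont k) (cont_rhoE (D := D) n k)
    refine ⟨L, hL, fun g hg i => ?_⟩
    cases i with
    | none => exact (h g hg).2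
    | some f => exact (h g hg).1 f
  have hunrO : ∀ ℓ : ℕ, ℓ.Prime → ℓ ∉ S → ℓ ∉ Q → ∀ P : ValuationSubring Ω, P.LiesOverPrime ℓ →
      ∀ g ∈ P.inertiaSubgroupIn ℚ, ∀ i, rhoO (n := n) D.ρ ρ i g = 1 := by
    intro ℓ hℓ hS hQ P hP g hg i
    cases i with
    | none => exact unram_rhoE (D := D) (piE n) hℓ hS hP hg
    | some f => exact hunr ℓ hℓ hS hQ P hP g hg f
  -- the reduction
  have hlev := hglue.exists_level hcontO
  have hunr2 : ∀ ℓ : ℕ, ℓ.Prime → ℓ ∉ S → ℓ ∉ Q → ∀ P : ValuationSubring Ω,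
      P.LiesOverPrime ℓ → ∀ g ∈ P.inertiaSubgroupIn ℚ, rho2 ρA g = 1 := by
    intro ℓ hℓ hS hQ P hP g hg
    have h1 : ρA g = 1 := hglue.eq_one (hunrO ℓ hℓ hS hQ P hP g hg)
    rw [rho2_apply, h1]
    exact Matrix.map_one _ (map_zero _) (map_one _)
  have hst2 : ∀ q : ℕ, q ∈ S ∨ q ∈ Q → ∀ P : ValuationSubring Ω, P.LiesOverPrime q →
      ∃ e : Abar (rhoO (n := n) D.ρ ρ), r2 HO e = 1 ∧
        StRel P q e (fun _ => 1) (fun g => rho2 ρA g) := by
    intro q hq P hP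
    by_cases hqS : q ∈ S
    · obtain ⟨e, he, -, he2⟩ := hglue.exists_sign_ram (v := P) (q := q)
        (σ := fun i => match i with | none => D.s q | some f => σ f q)
        (fun i => by
          cases i with
          | none => exact D.s_eq q
          | some f => exact hσ f q)
        (fun i => by
          cases i with
          | none => exact stRel_rhoE (D := D) (piE n) hqS hP
          | some f => exact hst f q (Or.inl hqS) P hP)
        (ram_rhoBar D hqS hP) hS' hT'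
      refine ⟨_, ?_, he2⟩
      have h1 : r2 HO (mkA _ e) * r2 HO (mkA _ e) = 1 := by
        rw [← map_mul, ← map_mul, he, map_one, map_one]
      revert h1
      generalize r2 HO (mkA _ e) = c
      revert c
      decide
    · have hqQ : q ∈ Q := hq.resolve_left hqS
      obtain ⟨-, h2⟩ := hglue.exists_sign_const (v := P) (q := q) (c := ε q) (hε q) (fun i => by
          cases i with
          | none => exact stRel_rhoE_aux_int (D := D) (hQ q hqQ) hP (hε q)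
          | some f =>
            have := hst f q (Or.inr hqQ) P hP
            rw [hσε f q hqQ] at this
            exact this)
      exact ⟨1, map_one _, h2⟩
  -- block 5a
  have hcomm : ∀ g ∈ G₀, ∀ h ∈ G₀, rho2 ρA g * rho2 ρA h = rho2 ρA h * rho2 ρA g := by
    intro g hg h hh
    exact Off.comm_of_selmer two_Abar (r2 HO) (isUnit_iff_r2 HO) (rho2 ρA) (rhoBar D.ρ)
      hglue.rho2_res hS' hlev S Q hunr2 hst2 (resRep D.ρ) (fun g v => rfl) hsel
      ((hG₀ g).mp hg) ((hG₀ h).mp hh)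
  -- the homomorphism from `Abar`
  let Φ : trAlg (rhoO (n := n) D.ρ ρ) →+* MonoidAlgebra F C :=
    φ.comp (pr (rhoO (n := n) D.ρ ρ)).toRingHom
  have h2Λ : (2 : MonoidAlgebra F C) = 0 := by
    have h2F : (2 : F) = 0 := CharTwo.two_eq_zero
    have : algebraMap F (MonoidAlgebra F C) 2 = 0 := by rw [h2F, map_zero]
    rwa [map_ofNat] at this
  let Φ' : Abar (rhoO (n := n) D.ρ ρ) →+* MonoidAlgebra F C :=
    Ideal.Quotient.lift (Ideal.span {(2 : trAlg (rhoO (n := n) D.ρ ρ))}) Φ (by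
      intro x hx
      obtain ⟨y, rfl⟩ := Ideal.mem_span_singleton.mp hx
      rw [map_mul, map_ofNat, h2Λ, zero_mul])
  have hΦ' : ∀ x, Φ' (mkA _ x) = Φ x := fun x => Ideal.Quotient.lift_mk _ _ _
  obtain ⟨hinj, hcard⟩ := char2_main two_Abar (r2 HO) (isUnit_iff_r2 HO) (rho2 ρA) (rhoBar D.ρ)
    hglue.rho2_res hS' hT' hglue.det_rho2 hglue.closure hlev G₀ hG₀ hcomm (S ∪ Q)
    (fun ℓ hℓ hℓM P hP g hg => hunr2 ℓ hℓ (fun h => hℓM (Finset.mem_union_left _ h))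
      (fun h => hℓM (Finset.mem_union_right _ h)) P hP g hg)
    (fun q hq P hP => by
      obtain ⟨e, -, he⟩ := hst2 q (Finset.mem_union.mp hq) P hP
      exact ⟨e, he⟩)
    (fun q hq P hP => by
      obtain ⟨g, hg, hg'⟩ := exists_dec_notMem D hQ (NeZero.ne n) (Finset.mem_union.mp hq) hP
      exact ⟨g, hg, fun h => hg' ((hG₀ g).mp h)⟩)
    hC κ hκ ψ cl Φ'
    (fun ℓ hℓ hℓM P hP f hf hfr hgood => by
      rw [hglue.trace_rho2, hΦ']
      exact hφ ℓ hℓ (fun h => hℓM (Finset.mem_union_left _ h))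
        (fun h => hℓM (Finset.mem_union_right _ h)) P hP f hf hfr hgood)
    AR
  haveI : Finite (trAlg (rhoO (n := n) D.ρ ρ) ⧸
      Ideal.span {(2 : trAlg (rhoO (n := n) D.ρ ρ))}) :=
    instFiniteAbar (ρ := rhoO (n := n) D.ρ ρ)
  refine ⟨pr_injective HO htf φ fun x hx => ?_, finrank_le (ρ := rhoO (n := n) D.ρ ρ) htf _ hcard⟩
  refine mkA_eq_zero_iff.mp (hinj ?_)
  rw [hΦ', map_zero]
  exact hx

theorem lam_heckeGen (a : ℕ → ℤ) (ℓ : Nat.Primes) : lam a (ModularCurve.heckeGen ℓ) = a ℓ := by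
  show MvPolynomial.aeval _ (MvPolynomial.X ℓ) = _
  rw [MvPolynomial.aeval_X]

/-- The deduction for the Hecke algebra. -/
theorem dvd_of_eq_zero [NeZero n] (hinj : Function.Injective (pr (rhoO (n := n) D.ρ ρ)))
    {M : ℕ} (hM : ∀ q ∈ S, q ∣ M) (θ : anem M →+* trAlg ρ)
    (hθ : ∀ (ℓ : Nat.Primes) (hℓ : ¬ (ℓ : ℕ) ∣ M), ∃ P : ValuationSubring Ω,
      P.LiesOverPrime ℓ ∧ ∃ φ : GQ, P.IsFrobeniusAt φ ℓ ∧
        θ ⟨ModularCurve.heckeGen ℓ, Algebra.subset_adjoin ⟨ℓ, hℓ, rfl⟩⟩ = tA ρ φ)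
    {x : ModularCurve.HeckeAlg} (hx : x ∈ anem M) (h0 : θ ⟨x, hx⟩ = 0) :
    (2 : ℤ) ^ n ∣ lam a x := by
  have key : ∃ y : trAlg (rhoO (n := n) D.ρ ρ), pr (rhoO (n := n) D.ρ ρ) y = θ ⟨x, hx⟩ ∧
      ev (rhoO (n := n) D.ρ ρ) none y = piE n (lam a x) := by
    clear h0
    induction hx using Algebra.adjoin_induction with
    | mem x hx =>
      obtain ⟨ℓ, hℓ, rfl⟩ := hx
      obtain ⟨P, hP, φ, hφ, h⟩ := hθ ℓ hℓ
      refine ⟨tA _ φ, h.symm, ?_⟩
      show (rhoE D.ρ n φ).trace = _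
      rw [trace_redRep, D.trace_frob ℓ ℓ.2 (fun h => hℓ (hM _ h)) P hP φ hφ, lam_heckeGen]
    | algebraMap r =>
      refine ⟨(r : trAlg (rhoO (n := n) D.ρ ρ)), ?_, ?_⟩
      · rw [map_intCast]
        exact (map_intCast θ r).symm
      · rw [map_intCast]
        have : lam a (algebraMap ℤ ModularCurve.HeckeAlg r) = r := by
          rw [eq_intCast, map_intCast, Int.cast_id]
        rw [this, map_intCast]
        rfl
    | add x y hx hy ihx ihy =>
      obtain ⟨u, hu1, hu2⟩ := ihx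
      obtain ⟨v, hv1, hv2⟩ := ihy
      refine ⟨u + v, ?_, ?_⟩
      · rw [map_add, hu1, hv1]
        exact (map_add θ ⟨x, hx⟩ ⟨y, hy⟩).symm
      · rw [map_add, hu2, hv2, map_add, Int.cast_add, map_add]
        rfl
    | mul x y hx hy ihx ihy =>
      obtain ⟨u, hu1, hu2⟩ := ihx
      obtain ⟨v, hv1, hv2⟩ := ihy
      refine ⟨u * v, ?_, ?_⟩
      · rw [map_mul, hu1, hv1]
        exact (map_mul θ ⟨x, hx⟩ ⟨y, hy⟩).symm
      · rw [map_mul, hu2, hv2, map_mul, Int.cast_mul, map_mul]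
        rfl
  obtain ⟨y, hy1, hy2⟩ := key
  have hy0 : y = 0 := hinj (by rw [hy1, h0, map_zero]; rfl)
  rw [hy0, map_zero] at hy2
  have h1 := piE_eq_zero_iff.mp hy2.symm
  have h2 := (PadicInt.pow_p_dvd_int_iff (p := 2) n (lam a x)).mp (by exact_mod_cast h1)
  exact_mod_cast h2

end Main

end Fermat.Agent.P2.RT
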