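import Fermat.Agent.P2.RT.Psi
import Fermat.Agent.P2.RT.Main
import Fermat.Agent.P2.RT.Hyp34

/-!
# P2, block 5b: auxiliary primes are inert in `K = ℚ(√-∏S)`
-/

set_option autoImplicit false

open NumberField

noncomputable section

namespace Fermat.Agent.P2.RT

open Sel

local notation "Ω" => AlgebraicClosure ℚ

variable {S : Finset ℕ} {a : ℕ → ℤ} (D : GalData S a) (hS : ∀ q ∈ S, q.Prime)

theorem map_rS (g : GQ) : g (rS S) = rS S ∨ g (rS S) = -rS S := by
  have h1 : (g (rS S)) ^ 2 = rS S ^ 2 := by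
    rw [← map_pow, rS_sq, map_neg, map_natCast]
  exact sq_eq_sq_iff_eq_or_eq_neg.mp h1

include D hS in
/-- Auxiliary primes are inert in `K`. -/
theorem not_isSquare_aux {n q : ℕ} (hn : n ≠ 0) (hq : AuxPrime D.ρ S n q) (h2 : q ≠ 2) :
    ¬ IsSquare (-((∏ p ∈ S, p : ℕ) : ZMod q)) := by
  obtain ⟨P, hP⟩ := FrobExists.exists_liesOverPrime (AlgebraicClosure ℚ) hq.1
  obtain ⟨g, hg, hgK⟩ := exists_dec_notMem (Q := {q}) D (fun p hp => by
    rw [Finset.mem_singleton.mp hp]; exact hq) hn (Or.inr (Finset.mem_singleton_self q)) hP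
  rw [← mem_KS_iff D, mem_KS_iff_fix] at hgK
  refine H34.not_isSquare_of_neg hq.1 hP h2 (fun hd => ?_) (rS_sq S) hg
    ((map_rS g).resolve_left hgK)
  obtain ⟨p, hp, hpq⟩ := (Prime.dvd_finsetProd_iff hq.1.prime _).mp hd
  have h3 : q = p := (Nat.prime_dvd_prime_iff_eq hq.1 (hS p hp)).mp hpq
  exact hq.2.1 (h3 ▸ hp)

end Fermat.Agent.P2.RT
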