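import Mathlib

/-!
# P2, block 5b-i: dihedral representations over local rings of characteristic two

`A` is a ring of characteristic `2` with a local homomorphism `r : A → 𝔽₂` with nilpotent kernel,
`ρ : G → M₂(A)` a representation with determinant one which residually is onto `GL₂(𝔽₂) = S₃`,
`H` the preimage of `C₃`, such that `ρ(H)` is commutative.

* `DihData.finrank_le` : if `A` is generated by the traces, then `dim_{𝔽₂} A ≤ #ρ(N)`, where `N` is
  the residual kernel;
* `DihData.card_le` : under the existence of enough "Frobenius elements", `#ρ(N) ≤ #C`.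
-/

set_option autoImplicit false

namespace Fermat.Agent.P2.RT.Dih

open Matrix

local notation "M₂" => Matrix (Fin 2) (Fin 2)

section Matrices

variable {A : Type*} [CommRing A]

/-- `X + X⁻¹ = tr X` -/
theorem add_adjugate (X : M₂ A) : X + X.adjugate = X.trace • 1 := by
  ext i j
  fin_cases i <;> fin_cases j <;> simp [adjugate_fin_two, trace_fin_two]
  ring

/-- the product formula for traces -/
theorem trace_mul_trace (X Y Z : M₂ A) (hYZ : Y * Z = 1) (hY : Y.det = 1) :
    X.trace * Y.trace = (X * Y).trace + (X * Z).trace := by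
  have hZ : Z = Y.adjugate := by
    have h1 : Y.adjugate * Y = 1 := by rw [adjugate_mul, hY, one_smul]
    calc Z = (Y.adjugate * Y) * Z := by rw [h1, one_mul]
      _ = Y.adjugate := by rw [mul_assoc, hYZ, mul_one]
  rw [← trace_add, ← mul_add, hZ, add_adjugate, mul_smul_comm, mul_one, trace_smul, smul_eq_mul,
    mul_comm]

variable [CharP A 2]

/-- Cayley–Hamilton for determinant one in characteristic two -/
theorem sq_eq (X : M₂ A) (h : X.det = 1) : X * X = X.trace • X + 1 := by
  rw [det_fin_two] at h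
  have h2 : (2 : A) = 0 := CharTwo.two_eq_zero
  ext i j
  fin_cases i <;> fin_cases j <;>
    simp [Matrix.mul_apply, Fin.sum_univ_two, trace_fin_two] <;>
    first | ring1 | linear_combination (-1 : A) * h - h2

/-- an element commuting with an element of trace one (in characteristic two) -/
theorem eq_of_commute (ω X : M₂ A) (hω : ω.trace = 1) (hc : ω * X = X * ω) :
    X = X.trace • ω + (X 0 0 + X.trace * ω 0 0) • 1 := by
  have h2 : (2 : A) = 0 := CharTwo.two_eq_zero
  have h01 := congrFun (congrFun hc 0) 1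
  have h10 := congrFun (congrFun hc 1) 0
  simp only [Matrix.mul_apply, Fin.sum_univ_two] at h01 h10
  rw [trace_fin_two] at hω
  rw [trace_fin_two]
  ext i j
  fin_cases i <;> fin_cases j <;> simp
  · linear_combination (-(X 0 0 + X 1 1) * ω 0 0) * h2
  · linear_combination h01 + (-(X 0 1)) * hω + (X 0 1 * ω 1 1 - ω 0 1 * X 1 1) * h2
  · linear_combination (-1 : A) * h10 + (-(X 1 0)) * hω + (X 1 0 * ω 1 1 - X 1 1 * ω 1 0) * h2
  · linear_combination (-(X 0 0 + X 1 1)) * hω + (-(X 0 0)) * h2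

theorem trace_mul_self (X : M₂ A) (h : X.det = 1) : (X * X).trace = X.trace ^ 2 := by
  have h2 : (2 : A) = 0 := CharTwo.two_eq_zero
  rw [sq_eq X h, trace_add, trace_smul, trace_one, Fintype.card_fin, smul_eq_mul]
  push_cast
  linear_combination h2

theorem trace_pow_two_pow (X : M₂ A) (h : X.det = 1) (m : ℕ) :
    (X ^ 2 ^ m).trace = X.trace ^ 2 ^ m := by
  induction m with
  | zero => simp
  | succ m ih =>
    have h1 : (X ^ 2 ^ m).det = 1 := by rw [det_pow, h, one_pow]
    rw [pow_succ 2 m, pow_mul, pow_two, trace_mul_self _ h1, ih, ← pow_mul]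

end Matrices

section Finite

/-- the subgroup `C₃` of `GL₂(𝔽₂)` -/
def InC (X : M₂ (ZMod 2)) : Prop := X.trace = 1 ∨ X = 1

theorem fin_aux1 : ∀ a b c d e f g h : ZMod 2, a * d - b * c = 1 → e * h - f * g = 1 →
    a + d = 1 → (e + h = 1 ∨ (e = 1 ∧ f = 0 ∧ g = 0 ∧ h = 1)) →
    (e = 1 ∧ f = 0 ∧ g = 0 ∧ h = 1) ∨ (e = a ∧ f = b ∧ g = c ∧ h = d) ∨
    (e = a + 1 ∧ f = b ∧ g = c ∧ h = d + 1) := by decide

theorem fin_aux2 : ∀ a b c d e f g h : ZMod 2, a * d - b * c = 1 → e * h - f * g = 1 →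
    a + d = 1 → ¬ (e + h = 1 ∨ (e = 1 ∧ f = 0 ∧ g = 0 ∧ h = 1)) →
    (e * a + f * c = (a + 1) * e + b * g) ∧ (e * b + f * d = (a + 1) * f + b * h) ∧
    (g * a + h * c = c * e + (d + 1) * g) ∧ (g * b + h * d = c * f + (d + 1) * h) := by decide

theorem inC_iff (X : M₂ (ZMod 2)) : InC X ↔ (X 0 0 + X 1 1 = 1 ∨
    (X 0 0 = 1 ∧ X 0 1 = 0 ∧ X 1 0 = 0 ∧ X 1 1 = 1)) := by
  rw [InC, trace_fin_two]
  refine or_congr Iff.rfl ⟨fun h => by simp [h], fun h => ?_⟩
  ext i j
  fin_cases i <;> fin_cases j <;> simp [h]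

/-- elements of `C₃` -/
theorem eq_of_inC {Y X : M₂ (ZMod 2)} (hY : Y.det = 1) (hX : X.det = 1) (ht : Y.trace = 1)
    (h : InC X) : X = 1 ∨ X = Y ∨ X = Y + 1 := by
  rw [inC_iff] at h
  rw [det_fin_two] at hY hX
  rw [trace_fin_two] at ht
  rcases fin_aux1 _ _ _ _ _ _ _ _ hY hX ht h with h | h | h
  · left
    ext i j
    fin_cases i <;> fin_cases j <;> simp [h]
  · right; left
    ext i j
    fin_cases i <;> fin_cases j <;> simp [h]
  · right; right
    ext i j
    fin_cases i <;> fin_cases j <;> simp [h]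

/-- conjugation by elements outside `C₃` -/
theorem mul_eq_of_not_inC {Y X : M₂ (ZMod 2)} (hY : Y.det = 1) (hX : X.det = 1) (ht : Y.trace = 1)
    (h : ¬ InC X) : X * Y = (Y + 1) * X := by
  rw [inC_iff] at h
  rw [det_fin_two] at hY hX
  rw [trace_fin_two] at ht
  obtain ⟨h1, h2, h3, h4⟩ := fin_aux2 _ _ _ _ _ _ _ _ hY hX ht h
  ext i j
  fin_cases i <;> fin_cases j <;> simp [Matrix.mul_apply, Fin.sum_univ_two, h1, h2, h3, h4]

end Finite

end Fermat.Agent.P2.RT.Dih
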