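import Fermat.Agent.P2.RT.DihRep

/-!
# P2, block 5b-i: dihedral representations in characteristic two, the final count
-/

set_option autoImplicit false
set_option linter.unusedSectionVars false

namespace Fermat.Agent.P2.RT.Dih

local notation "M₂" => Matrix (Fin 2) (Fin 2)

open MonoidAlgebra

section Main

variable {B : Type} [CommRing B] [Finite B] [CharP B 2] {r : B →+* ZMod 2}
  (hr : ∀ x, IsUnit x ↔ r x = 1) {G : Type} [Group G] {ρ : G →* M₂ B}
  (hdet : ∀ g, (ρ g).det = 1) {s : G} (hs : (ρ s).trace = 1)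
  (hcomm : ∀ g h, InC ((ρ g).map r) → InC ((ρ h).map r) → ρ g * ρ h = ρ h * ρ g)
  {F : Type} [Field F] [CharP F 2] {C : Type} [CommGroup C] {m : ℕ}
  (hm : ∀ c : C, c ^ 2 ^ m = 1) (φ : B →+* MonoidAlgebra F C)

theorem inC_of_res {n : G} (hn : (ρ n).map r = 1) : InC ((ρ n).map r) := Or.inr hn

include hdet hs hcomm hr hm in
/-- the value of `psi` on the residual kernel -/
theorem psi_key {w : F} (hw : w ^ 2 = w + 1) {n : G} (hn : (ρ n).map r = 1) {ζ : Fˣ} {c : C}
    (hF : φ (ρ (s * n)).trace = single c (ζ : F) + single c⁻¹ ((ζ⁻¹ : Fˣ) : F)) :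
    ∃ c' : C, (c' = c ∨ c' = c⁻¹) ∧ psi φ (ρ s) w (ρ n) = single c' 1 ∧
      φ (ρ (s * n)).trace = single c' w + single c'⁻¹ (w + 1) := by
  have h2 : (2 : F) = 0 := CharTwo.two_eq_zero
  have : CharP (MonoidAlgebra F C) 2 := charP_monoidAlgebra'
  have h2' : (2 : MonoidAlgebra F C) = 0 := CharTwo.two_eq_zero
  have hwi : w⁻¹ = w + 1 := w_inv hw
  have hw0 : w ≠ 0 := by
    rintro rfl
    simp at hw
  have hcn : ρ s * ρ n = ρ n * ρ s := hcomm _ _ (inC_s hs) (inC_of_res hn)
  have hcs : ρ s * ρ (s * n) = ρ (s * n) * ρ s := by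
    rw [map_mul, mul_assoc, ← hcn]
  set X := ρ (s * n) with hX
  set Y := psi φ (ρ s) w X with hY
  have hsq : Y * Y = φ X.trace * Y + 1 := psi_sq φ (ρ s) w hs (hdet s) hw hcs (hdet _)
  -- the residual value
  have hXr : X.map r = (ρ s).map r := by
    rw [hX, map_mul, map_mul', hn, mul_one]
  have hXt : r X.trace = 1 := by
    rw [← trace_map', hXr, trace_map', hs, map_one]
  have hX0 : r (X 0 0 + X.trace * ρ s 0 0) = 0 := by
    have h3 := congrFun (congrFun hXr 0) 0
    simp only [Matrix.map_apply] at h3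
    rw [map_add, map_mul, hXt, one_mul, h3]
    exact CharTwo.add_self_eq_zero _
  have hεY : aug Y = w := by
    rw [hY, psi, map_add, map_mul, aug_single]
    have e1 : aug (φ (X 0 0 + X.trace * ρ s 0 0)) = (0 : F) :=
      map_eq_zero_of_r r hr ((aug : MonoidAlgebra F C →+* F).comp φ) hX0
    have e2 : aug (φ X.trace) = (1 : F) :=
      map_eq_one_of_r r hr ((aug : MonoidAlgebra F C →+* F).comp φ) hXt
    rw [e1, e2, zero_add, one_mul]
  have hprod : (Y + single c (ζ : F)) * (Y + single c⁻¹ ((ζ⁻¹ : Fˣ) : F)) = 0 := by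
    have e1 : (single c (ζ : F) : MonoidAlgebra F C) * single c⁻¹ ((ζ⁻¹ : Fˣ) : F) = 1 := by
      rw [single_mul_single, mul_inv_cancel, Units.mul_inv]; rfl
    rw [hF] at hsq
    linear_combination hsq + e1 + ((single c (ζ : F) + single c⁻¹ ((ζ⁻¹ : Fˣ) : F)) * Y + 1) * h2'
  have hε := congrArg (aug : MonoidAlgebra F C →+* F) hprod
  rw [map_mul, map_add, map_add, aug_single, aug_single, hεY, map_zero] at hε
  -- transfer from `X` to `ρ n`
  have hmul : Y = single 1 w * psi φ (ρ s) w (ρ n) := by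
    rw [hY, hX, map_mul, psi_mul φ (ρ s) w hs (hdet s) hw rfl hcn, psi_omega φ (ρ s) w hs]
  have fin : ∀ c' : C, Y = single c' w → psi φ (ρ s) w (ρ n) = single c' 1 := by
    intro c' h
    have e1 : (single 1 w⁻¹ : MonoidAlgebra F C) * single 1 w = 1 := by
      rw [single_mul_single, one_mul, inv_mul_cancel₀ hw0]; rfl
    calc psi φ (ρ s) w (ρ n) = (single 1 w⁻¹ * single 1 w) * psi φ (ρ s) w (ρ n) := by
          rw [e1, one_mul]
      _ = single 1 w⁻¹ * single c' w := by rw [mul_assoc, ← hmul, h]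
      _ = single c' 1 := by rw [single_mul_single, one_mul, inv_mul_cancel₀ hw0]
  have hww : w + (w + 1) = 1 := by linear_combination w * h2
  rcases mul_eq_zero.mp hε with h | h
  · -- `ζ = w`
    have hζ : (ζ : F) = w := by
      have := CharTwo.add_eq_zero.mp h
      exact this.symm
    have hζi : ((ζ⁻¹ : Fˣ) : F) = w + 1 := by rw [Units.val_inv_eq_inv_val, hζ, hwi]
    have hu : IsUnit (Y + single c⁻¹ ((ζ⁻¹ : Fˣ) : F)) := by
      refine isUnit_of_aug hm ?_
      rw [map_add, aug_single, hεY, hζi, hww]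
      exact one_ne_zero
    have h3 : Y + single c (ζ : F) = 0 := (hu.mul_left_eq_zero).mp hprod
    have h4 : Y = single c w := by
      rw [hζ] at h3
      exact CharTwo.add_eq_zero.mp h3
    refine ⟨c, Or.inl rfl, fin c h4, ?_⟩
    rw [hF, hζ, hζi]
  · have hζi : ((ζ⁻¹ : Fˣ) : F) = w := by
      have := CharTwo.add_eq_zero.mp h
      exact this.symm
    have hζ : (ζ : F) = w + 1 := by
      rw [← hwi, ← hζi, Units.val_inv_eq_inv_val, inv_inv]
    have hu : IsUnit (Y + single c (ζ : F)) := by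
      refine isUnit_of_aug hm ?_
      rw [map_add, aug_single, hεY, hζ, hww]
      exact one_ne_zero
    have h3 : Y + single c⁻¹ ((ζ⁻¹ : Fˣ) : F) = 0 := (hu.mul_right_eq_zero).mp hprod
    have h4 : Y = single c⁻¹ w := by
      rw [hζi] at h3
      exact CharTwo.add_eq_zero.mp h3
    refine ⟨c⁻¹, Or.inr rfl, fin c⁻¹ h4, ?_⟩
    rw [hF, hζ, hζi, inv_inv, add_comm]

variable {t : G} (ht : ¬ InC ((ρ t).map r))
  (hgen : Subring.closure (Set.range fun g => (ρ g).trace) = ⊤)
  (hF : ∀ n : G, (ρ n).map r = 1 → ∃ (ζ : Fˣ) (c : C),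
    φ (ρ (s * n)).trace = single c (ζ : F) + single c⁻¹ ((ζ⁻¹ : Fˣ) : F) ∧ (ρ n ≠ 1 → c ≠ 1))

/-- the image of the residual kernel -/
abbrev Nb (r : B →+* ZMod 2) (ρ : G →* M₂ B) : Type := {X : M₂ B // ∃ n, (ρ n).map r = 1 ∧ ρ n = X}

instance : Finite (Nb r ρ) := by
  have : Finite (M₂ B) := inferInstanceAs (Finite (Fin 2 → Fin 2 → B))
  exact Subtype.finite

include hdet hs hcomm hr ht hgen in
theorem exists_coeffs [Fintype (Nb r ρ)] (b : B) : ∃ a : Nb r ρ → ZMod 2,
    b = ∑ X, ZMod.castHom (dvd_refl 2) B (a X) * (ρ s * X.1).trace := by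
  classical
  have hb : b ∈ spanT s r ρ := by
    rw [spanT_eq_top hr hdet hs hcomm ht hgen]
    exact AddSubgroup.mem_top _
  induction hb using AddSubgroup.closure_induction with
  | mem x hx =>
    obtain ⟨n, hn, rfl⟩ := hx
    refine ⟨Pi.single ⟨ρ n, n, hn, rfl⟩ 1, ?_⟩
    rw [Finset.sum_eq_single ⟨ρ n, n, hn, rfl⟩]
    · rw [Pi.single_eq_same, map_one, one_mul, map_mul]
    · intro y _ hy
      rw [Pi.single_eq_of_ne hy, map_zero, zero_mul]
    · intro h; exact absurd (Finset.mem_univ _) h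
  | zero => exact ⟨0, by simp⟩
  | add x y _ _ hx hy =>
    obtain ⟨a, ha⟩ := hx
    obtain ⟨a', ha'⟩ := hy
    refine ⟨a + a', ?_⟩
    rw [ha, ha', ← Finset.sum_add_distrib]
    refine Finset.sum_congr rfl fun X _ => ?_
    rw [Pi.add_apply, map_add, add_mul]
  | neg x _ hx =>
    obtain ⟨a, ha⟩ := hx
    refine ⟨a, ?_⟩
    rw [← ha]
    exact CharTwo.neg_eq x

include hdet hs hcomm hr ht hgen hF hm in
/-- **The final count.** -/
theorem injective_and_card_le [Finite C] : Function.Injective φ ∧ Nat.card B ≤ 2 ^ Nat.card C := by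
  classical
  let _ : Fintype C := Fintype.ofFinite C
  let _ : Fintype (Nb r ρ) := Fintype.ofFinite _
  have h2 : (2 : F) = 0 := CharTwo.two_eq_zero
  -- the cube root of unity
  obtain ⟨w, hw⟩ : ∃ w : F, w ^ 2 = w + 1 := by
    obtain ⟨ζ, c, h, _⟩ := hF 1 (by
      rw [map_one]
      ext i j
      fin_cases i <;> fin_cases j <;> simp)
    rw [mul_one, hs, map_one] at h
    have h1 := congrArg (aug : MonoidAlgebra F C →+* F) h
    rw [map_one, map_add, aug_single, aug_single] at h1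
    refine ⟨ζ, ?_⟩
    have h3 : (ζ : F) * ((ζ⁻¹ : Fˣ) : F) = 1 := Units.mul_inv ζ
    linear_combination (-(ζ : F)) * h1 - h3 - h2
  have key : ∀ n : G, (ρ n).map r = 1 → ∃ c : C, psi φ (ρ s) w (ρ n) = single c 1 ∧
      φ (ρ (s * n)).trace = single c w + single c⁻¹ (w + 1) ∧ (ρ n ≠ 1 → c ≠ 1) := by
    intro n hn
    obtain ⟨ζ, c, h, h'⟩ := hF n hn
    obtain ⟨c', h1, h3, h4⟩ := psi_key hr hdet hs hcomm hm φ hw hn h
    refine ⟨c', h3, h4, fun hn1 => ?_⟩
    rcases h1 with rfl | rfl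
    · exact h' hn1
    · exact inv_ne_one.mpr (h' hn1)
  choose! θ hθ using key
  let θ' : Nb r ρ → C := fun X => θ X.2.choose
  have hθ' : ∀ X : Nb r ρ, φ (ρ s * X.1).trace = single (θ' X) w + single (θ' X)⁻¹ (w + 1) := by
    intro X
    have h1 := (hθ _ X.2.choose_spec.1).2.1
    rw [map_mul, X.2.choose_spec.2] at h1
    exact h1
  have hinj : Function.Injective θ' := by
    intro X Y h
    obtain ⟨hn, hn'⟩ := X.2.choose_spec
    obtain ⟨hm', hm''⟩ := Y.2.choose_spec
    set n := X.2.choose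
    set m' := Y.2.choose
    have hk : (ρ (n⁻¹ * m')).map r = 1 := by
      have h1 : (ρ n⁻¹).map r * (ρ n).map r = 1 := by
        rw [← map_mul', ← map_mul, inv_mul_cancel, map_one]
        ext i j
        fin_cases i <;> fin_cases j <;> simp
      rw [hn, mul_one] at h1
      rw [map_mul, map_mul', h1, hm', one_mul]
    have e1 : psi φ (ρ s) w (ρ m') = psi φ (ρ s) w (ρ n) * psi φ (ρ s) w (ρ (n⁻¹ * m')) := by
      rw [← psi_mul φ (ρ s) w hs (hdet s) hw (hcomm _ _ (inC_s hs) (inC_of_res hn))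
        (hcomm _ _ (inC_s hs) (inC_of_res hk)), ← map_mul, mul_inv_cancel_left]
    rw [(hθ _ hn).1, (hθ _ hm').1, (hθ _ hk).1, single_mul_single, mul_one,
      single_left_inj one_ne_zero] at e1
    have e2 : θ (n⁻¹ * m') = 1 := by
      have h3 : θ n = θ m' := h
      rw [← h3] at e1
      exact (mul_eq_left.mp e1.symm)
    have e3 : ρ (n⁻¹ * m') = 1 := by
      by_contra hne
      exact (hθ _ hk).2.2 hne e2
    have e4 : ρ m' = ρ n := by
      have : m' = n * (n⁻¹ * m') := by group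
      rw [this, map_mul, e3, mul_one]
    exact Subtype.ext (by rw [← hn', ← hm'', e4])
  have hcoef := exists_coeffs hr hdet hs hcomm ht hgen
  refine ⟨?_, ?_⟩
  · rw [injective_iff_map_eq_zero]
    intro b hb
    obtain ⟨a, ha⟩ := hcoef b
    have e1 : ∀ x : ZMod 2, φ (ZMod.castHom (dvd_refl 2) B x) =
        single 1 (ZMod.castHom (dvd_refl 2) F x) := by
      intro x
      have : (φ.comp (ZMod.castHom (dvd_refl 2) B)) =
          ((algebraMap F (MonoidAlgebra F C)).comp (ZMod.castHom (dvd_refl 2) F)) :=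
        Subsingleton.elim _ _
      exact congrArg (fun f : ZMod 2 →+* MonoidAlgebra F C => f x) this
    have e2 : ∑ X : Nb r ρ, (single 1 (ZMod.castHom (dvd_refl 2) F (a X)) : MonoidAlgebra F C) *
        (single (θ' X) w + single (θ' X)⁻¹ (w + 1)) = 0 := by
      rw [← hb, ha, map_sum]
      refine Finset.sum_congr rfl fun X _ => ?_
      rw [map_mul, e1, hθ']
    have e3 : ∑ c : C, (single 1 (ZMod.castHom (dvd_refl 2) F (Function.extend θ' a 0 c)) :
        MonoidAlgebra F C) * (single c w + single c⁻¹ (w + 1)) = 0 := by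
      rw [← e2]
      symm
      refine Finset.sum_of_injOn θ' hinj.injOn (fun _ _ => Finset.mem_coe.mpr (Finset.mem_univ _))
        (fun c _ hc => ?_) (fun X _ => ?_)
      · rw [Function.extend_apply', Pi.zero_apply, map_zero, single_zero, zero_mul]
        rintro ⟨X, rfl⟩
        exact hc ⟨X, Finset.mem_coe.mpr (Finset.mem_univ _), rfl⟩
      · rw [hinj.extend_apply]
    have e4 : ∀ X, a X = 0 := by
      intro X
      have := indep rfl hw _ e3 (θ' X)
      rwa [hinj.extend_apply] at this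
    rw [ha]
    exact Finset.sum_eq_zero fun X _ => by rw [e4, map_zero, zero_mul]
  · have h3 : Function.Surjective fun a : Nb r ρ → ZMod 2 =>
        ∑ X, ZMod.castHom (dvd_refl 2) B (a X) * (ρ s * X.1).trace := fun b => by
      obtain ⟨a, ha⟩ := hcoef b
      exact ⟨a, ha.symm⟩
    calc Nat.card B ≤ Nat.card (Nb r ρ → ZMod 2) := Nat.card_le_card_of_surjective _ h3
      _ = 2 ^ Nat.card (Nb r ρ) := by
        rw [Nat.card_fun, Nat.card_zmod]
      _ ≤ 2 ^ Nat.card C :=
        Nat.pow_le_pow_right (by norm_num) (Nat.card_le_card_of_injective _ hinj)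

end Main

end Fermat.Agent.P2.RT.Dih
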