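import Fermat.Agent.P2.RT.DihAbs

/-!
# P2, block 5b-i: dihedral representations in characteristic two, main abstract theorem
-/

set_option autoImplicit false
set_option linter.unusedSectionVars false

namespace Fermat.Agent.P2.RT.Dih

local notation "M₂" => Matrix (Fin 2) (Fin 2)

open MonoidAlgebra

section Rep

variable {B : Type} [CommRing B] [Finite B] [CharP B 2] {r : B →+* ZMod 2}
  (hr : ∀ x, IsUnit x ↔ r x = 1) {G : Type} [Group G] {ρ : G →* M₂ B}
  (hdet : ∀ g, (ρ g).det = 1) {s : G} (hs : (ρ s).trace = 1)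
  (hcomm : ∀ g h, InC ((ρ g).map r) → InC ((ρ h).map r) → ρ g * ρ h = ρ h * ρ g)

theorem map_mul' (r : B →+* ZMod 2) (X Y : M₂ B) : (X * Y).map r = X.map r * Y.map r :=
  Matrix.map_mul

theorem det_map' (r : B →+* ZMod 2) {X : M₂ B} (h : X.det = 1) : (X.map r).det = 1 := by
  have := RingHom.map_det r X
  rw [h, map_one] at this
  exact this.symm

theorem trace_map' (r : B →+* ZMod 2) (X : M₂ B) : (X.map r).trace = r X.trace := by
  rw [Matrix.trace_fin_two, Matrix.trace_fin_two, map_add]
  rfl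

include hs in
theorem inC_s : InC ((ρ s).map r) := Or.inl (by rw [trace_map', hs, map_one])

theorem inC_one : InC ((ρ 1).map r) := Or.inr (by
  rw [map_one]
  ext i j
  fin_cases i <;> fin_cases j <;> simp)

include hdet hs in
theorem omega_sq : ρ s * ρ s = ρ s + 1 := by rw [sq_eq _ (hdet s), hs, one_smul]

include hdet hs hcomm hr in
/-- conjugation by elements outside `H` -/
theorem conj_omega {g : G} (hg : ¬ InC ((ρ g).map r)) : ρ g * ρ s = (ρ s + 1) * ρ g := by
  set X := ρ (g * s * g⁻¹) with hX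
  have hXg : X * ρ g = ρ g * ρ s := by
    rw [hX, ← map_mul, ← map_mul]; congr 1; group
  have hres : X.map r = (ρ s).map r + 1 := by
    have h1 : X.map r * (ρ g).map r = ((ρ s).map r + 1) * (ρ g).map r := by
      rw [← map_mul', hXg, map_mul']
      exact mul_eq_of_not_inC (det_map' r (hdet s)) (det_map' r (hdet g))
        (by rw [trace_map', hs, map_one]) hg
    have h2 : (ρ g).map r * (ρ g⁻¹).map r = 1 := by
      rw [← map_mul', ← map_mul, mul_inv_cancel, map_one]
      ext i j
      fin_cases i <;> fin_cases j <;> simp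
    calc X.map r = X.map r * ((ρ g).map r * (ρ g⁻¹).map r) := by rw [h2, mul_one]
      _ = ((ρ s).map r + 1) * ((ρ g).map r * (ρ g⁻¹).map r) := by
        rw [← mul_assoc, h1, mul_assoc]
      _ = _ := by rw [h2, mul_one]
  have htr : X.trace = 1 := by
    rw [hX, map_mul, map_mul, Matrix.trace_mul_comm, ← mul_assoc, ← map_mul, inv_mul_cancel,
      map_one, one_mul, hs]
  have hXC : InC (X.map r) := Or.inl (by rw [trace_map', htr, map_one])
  have hcX : ρ s * X = X * ρ s := hcomm _ _ (inC_s hs) hXC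
  have hXd : X.det = 1 := hdet _
  have e1 := eq_of_commute (ρ s) X hs hcX
  set α := X 0 0 + X.trace * (ρ s) 0 0 with hα
  rw [htr, one_smul] at e1
  have hrα : r α = 1 := by
    have h3 := congrFun (congrFun hres 0) 0
    simp only [Matrix.map_apply, Matrix.add_apply, Matrix.one_apply_eq] at h3
    rw [hα, htr, one_mul, map_add, h3]
    have h2 : (2 : ZMod 2) = 0 := rfl
    linear_combination (r (ρ s 0 0)) * h2
  have hα1 : α = 1 := by
    have h2 : (2 : B) = 0 := CharTwo.two_eq_zero
    have h4 := sq_eq X hXd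
    rw [htr, one_smul] at h4
    have h5 := omega_sq hdet hs
    have h6 : (α * α) • (1 : M₂ B) = α • 1 := by
      rw [e1] at h4
      have h7 : (ρ s + α • 1) * (ρ s + α • 1) =
          ρ s + 1 + (α + α) • ρ s + (α * α) • (1 : M₂ B) := by
        rw [add_mul, mul_add, mul_add, h5, smul_mul_smul_comm, mul_one, smul_mul_assoc, one_mul,
          mul_smul_comm, mul_one]
        module
      rw [h7, CharTwo.add_self_eq_zero, zero_smul, add_zero] at h4
      have h8 : ρ s + 1 + (α * α) • (1 : M₂ B) = ρ s + 1 + α • (1 : M₂ B) := by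
        rw [h4]; abel
      exact add_left_cancel h8
    have h7 := congrFun (congrFun h6 0) 0
    simp only [Matrix.smul_apply, Matrix.one_apply_eq, smul_eq_mul, mul_one] at h7
    have hu : IsUnit α := (hr α).mpr hrα
    exact hu.mul_left_cancel (by rw [h7, mul_one])
  rw [hα1, one_smul] at e1
  rw [← hXg, ← e1]

include hdet hs hcomm hr in
theorem trace_eq_zero {g : G} (hg : ¬ InC ((ρ g).map r)) : (ρ g).trace = 0 := by
  have h1 := congrArg Matrix.trace (conj_omega hr hdet hs hcomm hg)
  rw [add_mul, one_mul, Matrix.trace_add, Matrix.trace_mul_comm] at h1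
  simpa using h1

include hdet hs in
/-- elements of `H` -/
theorem exists_eq_of_inC {g : G} (hg : InC ((ρ g).map r)) :
    ∃ n : G, (ρ n).map r = 1 ∧ (g = n ∨ g = s * n ∨ g = s * (s * n)) := by
  have hinv : ∀ x : G, (ρ x⁻¹).map r * (ρ x).map r = 1 := by
    intro x
    rw [← map_mul', ← map_mul, inv_mul_cancel, map_one]
    ext i j
    fin_cases i <;> fin_cases j <;> simp
  rcases eq_of_inC (det_map' r (hdet s)) (det_map' r (hdet g))
    (by rw [trace_map', hs, map_one]) hg with h | h | h
  · exact ⟨g, h, Or.inl rfl⟩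
  · refine ⟨s⁻¹ * g, ?_, Or.inr (Or.inl (by group))⟩
    rw [map_mul, map_mul', h, hinv]
  · refine ⟨s⁻¹ * (s⁻¹ * g), ?_, Or.inr (Or.inr (by group))⟩
    have h1 : (ρ s).map r + 1 = (ρ s).map r * (ρ s).map r := by
      rw [← map_mul', omega_sq hdet hs]
      ext i j
      fin_cases i <;> fin_cases j <;> simp
    rw [map_mul, map_mul', map_mul, map_mul', h, h1,
      ← mul_assoc ((ρ s⁻¹).map r) ((ρ s).map r) ((ρ s).map r), hinv, one_mul, hinv]

variable {t : G} (ht : ¬ InC ((ρ t).map r))

theorem trace_conj (x y : G) : (ρ (x * y * x⁻¹)).trace = (ρ y).trace := by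
  rw [map_mul, map_mul, Matrix.trace_mul_comm, ← mul_assoc, ← map_mul, inv_mul_cancel, map_one,
    one_mul]

theorem res_conj (x : G) {n : G} (hn : (ρ n).map r = 1) : (ρ (x * n * x⁻¹)).map r = 1 := by
  rw [map_mul, map_mul', map_mul, map_mul', hn, mul_one, ← map_mul', ← map_mul, mul_inv_cancel,
    map_one]
  ext i j
  fin_cases i <;> fin_cases j <;> simp

include hdet hs hcomm hr ht in
/-- `tr(s² n) = tr(s n')`. -/
theorem exists_trace_sq {n : G} (hn : (ρ n).map r = 1) :
    ∃ n' : G, (ρ n').map r = 1 ∧ (ρ (s * (s * n))).trace = (ρ (s * n')).trace := by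
  have h2 : (2 : M₂ B) = 0 := by
    have : CharP (M₂ B) 2 := Matrix.charP 2
    exact CharTwo.two_eq_zero
  refine ⟨t * n * t⁻¹, res_conj t hn, ?_⟩
  rw [← trace_conj t (s * (s * n))]
  congr 1
  have h1 := conj_omega hr hdet hs hcomm ht
  have h3 : t * (s * (s * n)) * t⁻¹ = t * s * s * t⁻¹ * (t * n * t⁻¹) := by group
  rw [h3, map_mul ρ (t * s * s * t⁻¹), map_mul ρ s]
  congr 1
  have h4 : ρ (t * s * s * t⁻¹) * ρ t = ρ s * ρ t := by
    rw [← map_mul]
    have h5 : t * s * s * t⁻¹ * t = t * s * s := by group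
    rw [h5, map_mul, map_mul, h1, mul_assoc, h1, ← mul_assoc, add_mul, mul_add, mul_one, one_mul,
      omega_sq hdet hs]
    have h6 : ρ s + 1 + ρ s + (ρ s + 1) = ρ s + 2 * (ρ s + 1) := by noncomm_ring
    rw [h6, h2, zero_mul, add_zero]
  have h7 : ρ t * ρ t⁻¹ = 1 := by rw [← map_mul, mul_inv_cancel, map_one]
  calc ρ (t * s * s * t⁻¹) = ρ (t * s * s * t⁻¹) * (ρ t * ρ t⁻¹) := by rw [h7, mul_one]
    _ = ρ s * (ρ t * ρ t⁻¹) := by rw [← mul_assoc, h4, mul_assoc]
    _ = ρ s := by rw [h7, mul_one]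

variable (s) in
/-- the additive group spanned by the traces `tr(s n)` -/
def spanT (r : B →+* ZMod 2) (ρ : G →* M₂ B) : AddSubgroup B :=
  AddSubgroup.closure {x | ∃ n : G, (ρ n).map r = 1 ∧ x = (ρ (s * n)).trace}

include hdet hs hcomm hr ht in
theorem trace_mem_spanT (g : G) : (ρ g).trace ∈ spanT s r ρ := by
  have hgen : ∀ n : G, (ρ n).map r = 1 → (ρ (s * n)).trace ∈ spanT s r ρ := fun n hn =>
    AddSubgroup.subset_closure ⟨n, hn, rfl⟩
  have hgen2 : ∀ n : G, (ρ n).map r = 1 → (ρ (s * (s * n))).trace ∈ spanT s r ρ := by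
    intro n hn
    obtain ⟨n', hn', h⟩ := exists_trace_sq hr hdet hs hcomm ht hn
    rw [h]
    exact hgen n' hn'
  by_cases hg : InC ((ρ g).map r)
  · obtain ⟨n, hn, h | h | h⟩ := exists_eq_of_inC hdet hs hg
    · have h1 : (ρ g).trace = (ρ (s * (s * n))).trace - (ρ (s * n)).trace := by
        rw [h, map_mul, map_mul, ← mul_assoc, omega_sq hdet hs, add_mul, one_mul,
          Matrix.trace_add]
        ring
      rw [h1]
      exact AddSubgroup.sub_mem _ (hgen2 n hn) (hgen n hn)
    · rw [h]; exact hgen n hn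
    · rw [h]; exact hgen2 n hn
  · rw [trace_eq_zero hr hdet hs hcomm hg]
    exact AddSubgroup.zero_mem _

include hdet hs hcomm hr ht in
theorem spanT_eq_top (hgen : Subring.closure (Set.range fun g => (ρ g).trace) = ⊤) :
    spanT s r ρ = ⊤ := by
  have hone : (1 : B) ∈ spanT s r ρ := by
    rw [← hs]
    exact trace_mem_spanT hr hdet hs hcomm ht s
  have hmul : ∀ x ∈ spanT s r ρ, ∀ y ∈ spanT s r ρ, x * y ∈ spanT s r ρ := by
    intro x hx y hy
    induction hx, hy using AddSubgroup.closure_induction₂ with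
    | mem x y hx hy =>
      obtain ⟨n, hn, rfl⟩ := hx
      obtain ⟨m, hm, rfl⟩ := hy
      have h1 : ρ (s * m) * ρ (s * m)⁻¹ = 1 := by rw [← map_mul, mul_inv_cancel, map_one]
      rw [trace_mul_trace _ _ _ h1 (hdet _), ← map_mul, ← map_mul]
      exact AddSubgroup.add_mem _ (trace_mem_spanT hr hdet hs hcomm ht _)
        (trace_mem_spanT hr hdet hs hcomm ht _)
    | zero_left x hx => rw [zero_mul]; exact AddSubgroup.zero_mem _
    | zero_right x hx => rw [mul_zero]; exact AddSubgroup.zero_mem _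
    | add_left x y z _ _ _ h1 h2 => rw [add_mul]; exact AddSubgroup.add_mem _ h1 h2
    | add_right x y z _ _ _ h1 h2 => rw [mul_add]; exact AddSubgroup.add_mem _ h1 h2
    | neg_left x y _ _ h => rw [neg_mul]; exact AddSubgroup.neg_mem _ h
    | neg_right x y _ _ h => rw [mul_neg]; exact AddSubgroup.neg_mem _ h
  let R : Subring B := { spanT s r ρ with
    one_mem' := hone
    mul_mem' := fun {a b} ha hb => hmul a ha b hb }
  have h1 : Subring.closure (Set.range fun g => (ρ g).trace) ≤ R := by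
    rw [Subring.closure_le]
    rintro _ ⟨g, rfl⟩
    exact trace_mem_spanT hr hdet hs hcomm ht g
  rw [hgen] at h1
  rw [eq_top_iff]
  intro x _
  exact h1 (Subring.mem_top x)

end Rep

end Fermat.Agent.P2.RT.Dih
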