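import Fermat.Agent.P2.RT.Trace

/-!
# P2, block 5b-i: gluing

The product of the `ρ i` is conjugate (by an element of `∏ GL₂(R i)`) to a representation with
values in `M₂(A)`, `A = trAlg ρ`, and the reduction of this representation modulo the maximal ideal
is `ρbar` (`exists_glued`).
-/

set_option autoImplicit false
set_option linter.unusedSectionVars false
set_option linter.style.haveILetI false
set_option linter.unusedSimpArgs false

open IsLocalRing

noncomputable section

namespace Fermat.Agent.P2.RT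

/-- An idempotent of trace one of `M₂(R)`, `R` local, is conjugate to `diag(1, 0)`. -/
theorem exists_conj_idem {R : Type*} [CommRing R] [IsLocalRing R] (e : Matrix (Fin 2) (Fin 2) R)
    (htr : e.trace = 1) (hdet : e.det = 0) :
    ∃ P Q : Matrix (Fin 2) (Fin 2) R, P * Q = 1 ∧ Q * P = 1 ∧ e * Q = Q * !![1, 0; 0, 0] := by
  rw [Matrix.trace_fin_two] at htr
  rw [Matrix.det_fin_two] at hdet
  obtain ⟨a, ha⟩ : ∃ a, a = e 0 0 := ⟨_, rfl⟩
  obtain ⟨b, hb⟩ : ∃ b, b = e 0 1 := ⟨_, rfl⟩
  obtain ⟨c, hc⟩ : ∃ c, c = e 1 0 := ⟨_, rfl⟩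
  obtain ⟨d, hd⟩ : ∃ d, d = e 1 1 := ⟨_, rfl⟩
  have he : e = !![a, b; c, d] := by
    rw [ha, hb, hc, hd]; exact Matrix.eta_fin_two e
  rw [← ha, ← hd] at htr hdet
  rw [← hb, ← hc] at hdet
  rcases IsLocalRing.isUnit_or_isUnit_of_add_one htr with h | h
  · obtain ⟨u, hu⟩ := h.exists_left_inv
    refine ⟨u • !![a, b; -c, a], !![a, -b; c, a], ?_, ?_, ?_⟩
    · rw [Matrix.smul_mul]
      ext i j
      fin_cases i <;> fin_cases j <;> simp [Matrix.mul_apply, Fin.sum_univ_two]
      · linear_combination hu - u * hdet + u * a * htr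
      · ring
      · ring
      · linear_combination hu - u * hdet + u * a * htr
    · rw [Matrix.mul_smul]
      ext i j
      fin_cases i <;> fin_cases j <;> simp [Matrix.mul_apply, Fin.sum_univ_two]
      · linear_combination hu - u * hdet + u * a * htr
      · ring
      · ring
      · linear_combination hu - u * hdet + u * a * htr
    · rw [he]
      ext i j
      fin_cases i <;> fin_cases j <;> simp [Matrix.mul_apply, Fin.sum_univ_two]
      · linear_combination a * htr - hdet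
      · ring
      · linear_combination c * htr
      · linear_combination hdet
  · obtain ⟨u, hu⟩ := h.exists_left_inv
    refine ⟨u • !![c, d; d, -b], !![b, d; d, -c], ?_, ?_, ?_⟩
    · rw [Matrix.smul_mul]
      ext i j
      fin_cases i <;> fin_cases j <;> simp [Matrix.mul_apply, Fin.sum_univ_two]
      · linear_combination hu - u * hdet + u * d * htr
      · ring
      · ring
      · linear_combination hu - u * hdet + u * d * htr
    · rw [Matrix.mul_smul]
      ext i j
      fin_cases i <;> fin_cases j <;> simp [Matrix.mul_apply, Fin.sum_univ_two]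
      · linear_combination hu - u * hdet + u * d * htr
      · ring
      · ring
      · linear_combination hu - u * hdet + u * d * htr
    · rw [he]
      ext i j
      fin_cases i <;> fin_cases j <;> simp [Matrix.mul_apply, Fin.sum_univ_two]
      · linear_combination b * htr
      · linear_combination hdet
      · linear_combination d * htr - hdet
      · ring

variable {G : Type*} [Group G] {ι : Type*} [Finite ι] {R : ι → Type*}
  [∀ i, CommRing (R i)] [∀ i, IsLocalRing (R i)] [∀ i, Algebra ℤ_[2] (R i)]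
  [∀ i, Module.Finite ℤ_[2] (R i)]

/-- `ρA` is a representation over the ring of traces which is conjugate to `ρ i` for all `i`, with
reduction exactly `ρbar`. -/
structure Glued [Nonempty ι] {ρ : ∀ i, G →* Matrix (Fin 2) (Fin 2) (R i)}
    {ρbar : G →* Matrix (Fin 2) (Fin 2) (ZMod 2)} {χ : G →* ℤ_[2]} (H : Cong ρ ρbar χ)
    (ρA : G →* Matrix (Fin 2) (Fin 2) (trAlg ρ)) (P Q : ∀ i, Matrix (Fin 2) (Fin 2) (R i)) :
    Prop where
  mul_inv : ∀ i, P i * Q i = 1
  inv_mul : ∀ i, Q i * P i = 1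
  map_eq : ∀ i g, (ρA g).map (fun a => (a : ∀ i, R i) i) = P i * ρ i g * Q i
  res_eq : ∀ g, (ρA g).map (resA H) = ρbar g

variable {ρ : ∀ i, G →* Matrix (Fin 2) (Fin 2) (R i)}
  {ρbar : G →* Matrix (Fin 2) (Fin 2) (ZMod 2)} {χ : G →* ℤ_[2]}

/-- the component map -/
def ev (ρ : ∀ i, G →* Matrix (Fin 2) (Fin 2) (R i)) (i : ι) : trAlg ρ →+* R i :=
  (Pi.evalRingHom R i).comp (trAlg ρ).val.toRingHom

theorem ev_apply (i : ι) (x : trAlg ρ) : ev ρ i x = (x : ∀ i, R i) i := rfl

theorem ev_tA (i : ι) (g : G) : ev ρ i (tA ρ g) = (ρ i g).trace := rfl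

theorem ev_algebraMap (i : ι) (c : ℤ_[2]) :
    ev ρ i (algebraMap ℤ_[2] (trAlg ρ) c) = algebraMap ℤ_[2] (R i) c := rfl

theorem ev_ext {x y : trAlg ρ} (h : ∀ i, ev ρ i x = ev ρ i y) : x = y :=
  Subtype.ext (funext h)

/-- trace of `(v (1 + s + t - λ)) g` -/
def aEl (ρ : ∀ i, G →* Matrix (Fin 2) (Fin 2) (R i)) (s t : G) (v l : trAlg ρ) (g : G) : trAlg ρ :=
  v * (tA ρ g + tA ρ (s * g) + tA ρ (t * g) - l * tA ρ g)

theorem aEl_ev (s t : G) (v l : trAlg ρ) (g : G) (i : ι) :
    ev ρ i (aEl ρ s t v l g) =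
      ((ev ρ i v • (1 + ρ i s + ρ i t - ev ρ i l • (1 : Matrix (Fin 2) (Fin 2) (R i)))) *
        ρ i g).trace := by
  simp only [aEl, map_mul, map_sub, map_add, ev_tA]
  rw [Matrix.smul_mul, Matrix.trace_smul, Matrix.sub_mul, Matrix.add_mul, Matrix.add_mul,
    Matrix.one_mul, Matrix.smul_mul, Matrix.one_mul, Matrix.trace_sub, Matrix.trace_add,
    Matrix.trace_add, Matrix.trace_smul, smul_eq_mul, smul_eq_mul]

theorem resA_algebraMap_unit [Nonempty ι] (H : Cong ρ ρbar χ) (g : G) :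
    resA H (algebraMap ℤ_[2] (trAlg ρ) (χ g)) = 1 := by
  rw [← isUnit_iff]
  refine IsUnit.map _ ?_
  exact ⟨⟨χ g, χ g⁻¹, by rw [← map_mul, mul_inv_cancel, map_one],
    by rw [← map_mul, inv_mul_cancel, map_one]⟩, rfl⟩

/-- **Gluing.** -/
theorem exists_glued [Nonempty ι] (H : Cong ρ ρbar χ) {s t : G}
    (hs : ρbar s = !![0, 1; 1, 1]) (ht : ρbar t = !![0, 1; 1, 0]) :
    ∃ (ρA : G →* Matrix (Fin 2) (Fin 2) (trAlg ρ)) (P Q : ∀ i, Matrix (Fin 2) (Fin 2) (R i)),
      Glued H ρA P Q := by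
  classical
  haveI := isLocalRing H
  haveI := henselian H
  -- traces modulo 2
  have r1 : resA H (tA ρ 1) = 0 := by rw [resA_tA, map_one]; decide
  have rs : resA H (tA ρ s) = 1 := by rw [resA_tA, hs]; decide
  have rt : resA H (tA ρ t) = 0 := by rw [resA_tA, ht]; decide
  have rst : resA H (tA ρ (s * t)) = 0 := by rw [resA_tA, map_mul, hs, ht]; decide
  have t1 : tA ρ 1 = 2 := by
    refine ev_ext fun i => ?_
    rw [ev_tA, map_one, map_ofNat, Matrix.trace_one, Fintype.card_fin]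
    norm_num
  -- characteristic polynomial of `1 + s + t`
  set T₀  : trAlg ρ := tA ρ 1 + tA ρ s + tA ρ t with hT₀
  set D₀  : trAlg ρ := 1 + algebraMap ℤ_[2] (trAlg ρ) (χ s) + tA ρ s + algebraMap ℤ_[2] (trAlg ρ) (χ t) +
    (2 + tA ρ s) * tA ρ t - tA ρ t - tA ρ (s * t) with hD₀
  have rT : resA H T₀ = 1 := by
    rw [hT₀, map_add, map_add, r1, rs, rt]; decide
  have rD : resA H D₀ = 0 := by
    rw [hD₀]
    simp only [map_add, map_sub, map_mul, map_one, map_ofNat, rs, rt, rst,
      resA_algebraMap_unit H]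
    decide
  -- a root
  obtain ⟨l, hl, hlm⟩ : ∃ l : trAlg ρ, l * l - T₀ * l + D₀ = 0 ∧ l ∈ maximalIdeal (trAlg ρ) := by
    obtain ⟨l, hl, hl0⟩ := HenselianRing.is_henselian (R := trAlg ρ) (I := maximalIdeal (trAlg ρ))
      (Polynomial.X ^ 2 - Polynomial.C T₀ * Polynomial.X + Polynomial.C D₀)
      (by monicity!) 0
      (by
        simp only [Polynomial.eval_add, Polynomial.eval_sub, Polynomial.eval_pow,
          Polynomial.eval_X, Polynomial.eval_mul, Polynomial.eval_C]
        rw [mem_max_iff H]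
        simp [rD])
      (by
        refine IsUnit.map _ ?_
        rw [isUnit_iff H]
        simp [rT])
    refine ⟨l, ?_, by rwa [sub_zero] at hl0⟩
    have := Polynomial.IsRoot.def.mp hl
    simp only [Polynomial.eval_add, Polynomial.eval_sub, Polynomial.eval_pow,
      Polynomial.eval_X, Polynomial.eval_mul, Polynomial.eval_C] at this
    linear_combination this
  have rl : resA H l = 0 := (mem_max_iff H l).mp hlm
  obtain ⟨v, hv⟩ : ∃ v : trAlg ρ, v * (T₀ - 2 * l) = 1 := by
    refine IsUnit.exists_left_inv ?_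
    rw [isUnit_iff H, map_sub, map_mul, rT, rl, mul_zero, sub_zero]
  have rv : resA H v = 1 := by
    have := congrArg (resA H) hv
    rwa [map_mul, map_sub, map_mul, rT, rl, mul_zero, sub_zero, mul_one, map_one] at this
  -- the idempotent
  let e : ∀ i, Matrix (Fin 2) (Fin 2) (R i) := fun i =>
    ev ρ i v • (1 + ρ i s + ρ i t - ev ρ i l • (1 : Matrix (Fin 2) (Fin 2) (R i)))
  have etr : ∀ i, (e i).trace = 1 := by
    intro i
    have h := congrArg (ev ρ i) hv
    rw [map_mul, map_sub, map_mul, map_ofNat, map_one, hT₀, map_add, map_add, ev_tA, ev_tA, ev_tA,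
      map_one] at h
    show (ev ρ i v • (1 + ρ i s + ρ i t - ev ρ i l • (1 : Matrix (Fin 2) (Fin 2) (R i)))).trace = 1
    rw [Matrix.trace_smul, Matrix.trace_sub, Matrix.trace_add, Matrix.trace_add, Matrix.trace_smul,
      smul_eq_mul, smul_eq_mul]
    rw [← h, Matrix.trace_one, Fintype.card_fin]
    push_cast
    ring
  have edet : ∀ i, (e i).det = 0 := by
    intro i
    have h := congrArg (ev ρ i) hl
    rw [hT₀, hD₀] at h
    have hs' := H.det i s
    have ht' := H.det i t
    simp only [map_add, map_sub, map_mul, map_ofNat, map_one, map_zero, ev_tA, ev_algebraMap,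
      ← hs', ← ht'] at h
    simp only [Matrix.trace_fin_two, Matrix.det_fin_two, Matrix.mul_apply, Fin.sum_univ_two,
      Matrix.one_apply] at h
    simp only [Matrix.det_fin_two, e, Matrix.smul_apply, Matrix.sub_apply, Matrix.add_apply,
      Matrix.one_apply, smul_eq_mul]
    simp at h ⊢
    linear_combination (ev ρ i v) ^ 2 * h
  choose P Q hPQ hQP heQ using fun i => exists_conj_idem (e i) (etr i) (edet i)
  -- the entries
  let a : G → trAlg ρ := aEl ρ s t v l
  let ρ' : ∀ i, G → Matrix (Fin 2) (Fin 2) (R i) := fun i g => P i * ρ i g * Q i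
  have ρ'mul : ∀ i g h, ρ' i (g * h) = ρ' i g * ρ' i h := by
    intro i g h
    show P i * ρ i (g * h) * Q i = P i * ρ i g * Q i * (P i * ρ i h * Q i)
    rw [map_mul, Matrix.mul_assoc (P i * ρ i g) (Q i), ← Matrix.mul_assoc (Q i),
      ← Matrix.mul_assoc (Q i), hQP, Matrix.one_mul]
    simp only [Matrix.mul_assoc]
  have ha : ∀ i g, ev ρ i (a g) = ρ' i g 0 0 := by
    intro i g
    have h1 : e i = Q i * !![1, 0; 0, 0] * P i := by
      rw [← heQ, Matrix.mul_assoc, hQP, Matrix.mul_one]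
    have h2 : ev ρ i (a g) = (e i * ρ i g).trace := aEl_ev s t v l g i
    rw [h2, h1, Matrix.mul_assoc (Q i), Matrix.mul_assoc (Q i), Matrix.trace_mul_comm,
      Matrix.mul_assoc !![1, 0; 0, 0], Matrix.mul_assoc !![1, 0; 0, 0]]
    show (!![1, 0; 0, 0] * ρ' i g).trace = _
    conv_lhs => rw [Matrix.eta_fin_two (ρ' i g)]
    simp [Matrix.trace_fin_two, Matrix.mul_apply, Fin.sum_univ_two]
  have htr : ∀ i g, ev ρ i (tA ρ g) = ρ' i g 0 0 + ρ' i g 1 1 := by
    intro i g
    rw [← Matrix.trace_fin_two]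
    show (ρ i g).trace = (P i * ρ i g * Q i).trace
    rw [Matrix.trace_mul_comm, ← Matrix.mul_assoc, hQP, Matrix.one_mul]
  let x : G → G → trAlg ρ := fun g h => a (g * h) - a g * a h
  have hx : ∀ i g h, ev ρ i (x g h) = ρ' i g 0 1 * ρ' i h 1 0 := by
    intro i g h
    show ev ρ i (a (g * h) - a g * a h) = _
    rw [map_sub, map_mul, ha, ha, ha, ρ'mul, Matrix.mul_apply, Fin.sum_univ_two]
    ring
  -- residues
  have ra : ∀ g, resA H (a g) = ρbar g 0 0 := by
    intro g
    show resA H (v * (tA ρ g + tA ρ (s * g) + tA ρ (t * g) - l * tA ρ g)) = _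
    rw [map_mul, map_sub, map_add, map_add, map_mul, rv, rl, resA_tA, resA_tA, resA_tA, map_mul,
      map_mul, hs, ht]
    simp only [Matrix.trace_fin_two, Matrix.mul_apply, Fin.sum_univ_two, Matrix.of_apply,
      Matrix.cons_val', Matrix.cons_val_zero, Matrix.cons_val_one, Matrix.cons_val_fin_one]
    generalize ρbar g 0 0 = m00
    generalize ρbar g 0 1 = m01
    generalize ρbar g 1 0 = m10
    generalize ρbar g 1 1 = m11
    revert m00 m01 m10 m11
    decide
  have rx : ∀ g h, resA H (x g h) = ρbar g 0 1 * ρbar h 1 0 := by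
    intro g h
    show resA H (a (g * h) - a g * a h) = _
    rw [map_sub, map_mul, ra, ra, ra, map_mul, Matrix.mul_apply, Fin.sum_univ_two]
    ring
  have rw1 : resA H (x t t) = 1 := by rw [rx, ht]; decide
  obtain ⟨w', hw'⟩ : ∃ w' : trAlg ρ, w' * x t t = 1 :=
    ((isUnit_iff H _).mpr rw1).exists_left_inv
  have rw' : resA H w' = 1 := by
    have := congrArg (resA H) hw'
    rwa [map_mul, rw1, mul_one, map_one] at this
  let M : G → Matrix (Fin 2) (Fin 2) (trAlg ρ) := fun g =>
    !![a g, x g t * w'; x t g, tA ρ g - a g]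
  let P' : ∀ i, Matrix (Fin 2) (Fin 2) (R i) := fun i => !![1, 0; 0, ρ' i t 0 1] * P i
  let Q' : ∀ i, Matrix (Fin 2) (Fin 2) (R i) := fun i =>
    Q i * !![1, 0; 0, ρ' i t 1 0 * ev ρ i w']
  have hβ : ∀ i, ρ' i t 0 1 * (ρ' i t 1 0 * ev ρ i w') = 1 := by
    intro i
    have := congrArg (ev ρ i) hw'
    rw [map_mul, hx, map_one] at this
    linear_combination this
  have hPQ' : ∀ i, P' i * Q' i = 1 := by
    intro i
    show !![1, 0; 0, ρ' i t 0 1] * P i * (Q i * !![1, 0; 0, ρ' i t 1 0 * ev ρ i w']) = 1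
    rw [Matrix.mul_assoc, ← Matrix.mul_assoc (P i), hPQ, Matrix.one_mul]
    ext j k
    fin_cases j <;> fin_cases k <;> simp [Matrix.mul_apply, Fin.sum_univ_two]
    exact hβ i
  have hQP' : ∀ i, Q' i * P' i = 1 := by
    intro i
    show Q i * !![1, 0; 0, ρ' i t 1 0 * ev ρ i w'] * (!![1, 0; 0, ρ' i t 0 1] * P i) = 1
    have h1 : (!![1, 0; 0, ρ' i t 1 0 * ev ρ i w'] * !![1, 0; 0, ρ' i t 0 1] :
        Matrix (Fin 2) (Fin 2) (R i)) = 1 := by
      ext j k
      fin_cases j <;> fin_cases k <;> simp [Matrix.mul_apply, Fin.sum_univ_two]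
      linear_combination hβ i
    rw [Matrix.mul_assoc, ← Matrix.mul_assoc _ _ (P i), h1, Matrix.one_mul, hQP]
  have hM : ∀ i g, (M g).map (ev ρ i) = P' i * ρ i g * Q' i := by
    intro i g
    have h1 : P' i * ρ i g * Q' i =
        !![1, 0; 0, ρ' i t 0 1] * ρ' i g * !![1, 0; 0, ρ' i t 1 0 * ev ρ i w'] := by
      show !![1, 0; 0, ρ' i t 0 1] * P i * ρ i g * (Q i * !![1, 0; 0, ρ' i t 1 0 * ev ρ i w']) =
        !![1, 0; 0, ρ' i t 0 1] * (P i * ρ i g * Q i) * !![1, 0; 0, ρ' i t 1 0 * ev ρ i w']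
      simp only [Matrix.mul_assoc]
    rw [h1]
    conv_rhs => rw [Matrix.eta_fin_two (ρ' i g)]
    ext j k
    fin_cases j <;> fin_cases k <;> simp [M, Matrix.mul_apply, Fin.sum_univ_two]
    · exact ha i g
    · rw [hx]; ring
    · rw [hx]
    · rw [ha, htr]
      linear_combination (-ρ' i g 1 1) * hβ i
  have Mext : ∀ X Y : Matrix (Fin 2) (Fin 2) (trAlg ρ),
      (∀ i, X.map (ev ρ i) = Y.map (ev ρ i)) → X = Y := by
    intro X Y h
    exact Matrix.ext fun j k => ev_ext fun i => congrFun (congrFun (h i) j) k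
  refine ⟨⟨⟨M, Mext _ _ fun i => ?_⟩, fun g h => Mext _ _ fun i => ?_⟩, P', Q', hPQ', hQP',
    fun i g => hM i g, fun g => ?_⟩
  · rw [hM, map_one, Matrix.mul_one, hPQ', Matrix.map_one _ (map_zero _) (map_one _)]
  · show (M (g * h)).map (ev ρ i) = (M g * M h).map (ev ρ i)
    rw [hM, Matrix.map_mul, hM, hM, map_mul, Matrix.mul_assoc (P' i * ρ i g) (Q' i),
      ← Matrix.mul_assoc (Q' i), ← Matrix.mul_assoc (Q' i), hQP', Matrix.one_mul]
    simp only [Matrix.mul_assoc]
  · show (M g).map (resA H) = ρbar g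
    ext j k
    fin_cases j <;> fin_cases k <;> simp [M]
    · exact ra g
    · rw [rx, rw', mul_one, ht]; simp
    · rw [rx, ht]; simp
    · rw [ra, resA_tA, Matrix.trace_fin_two]; ring

end Fermat.Agent.P2.RT
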