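import Mathlib

/-!
# P2, block 5a: the grading of `M₂(B)` defined by an element `s` with `s² = s + 1`

`B` is a commutative ring of characteristic two; `s ∈ M₂(B)`, `s² = s + 1`. `x` is even if it
commutes with `s`, odd if `s x = x (s + 1)`.
-/

set_option autoImplicit false
set_option linter.unusedSectionVars false

open Matrix

namespace Fermat.Agent.P2.RT.Grade

variable {B : Type*} [CommRing B]

local notation "M2" => Matrix (Fin 2) (Fin 2)

/-- `x` commutes with `s` -/
def Ev (s x : M2 B) : Prop := s * x = x * s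

/-- `s x = x (s + 1)` -/
def Od (s x : M2 B) : Prop := s * x = x * s + x

/-- the even part -/
def p0 (s x : M2 B) : M2 B := x + (s * x * (s + 1) + (s + 1) * x * s)

/-- the odd part -/
def p1 (s x : M2 B) : M2 B := s * x * (s + 1) + (s + 1) * x * s

theorem ev_one (s : M2 B) : Ev s 1 := by rw [Ev, mul_one, one_mul]

theorem ev_self (s : M2 B) : Ev s s := rfl

theorem ev_zero (s : M2 B) : Ev s 0 := by rw [Ev, mul_zero, zero_mul]

theorem od_zero (s : M2 B) : Od s 0 := by rw [Od, mul_zero, zero_mul, zero_add]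

theorem Ev.add {s x y : M2 B} (hx : Ev s x) (hy : Ev s y) : Ev s (x + y) := by
  rw [Ev, mul_add, add_mul, hx, hy]

theorem Od.add {s x y : M2 B} (hx : Od s x) (hy : Od s y) : Od s (x + y) := by
  rw [Od, mul_add, add_mul, hx, hy]; abel

theorem Ev.mul {s x y : M2 B} (hx : Ev s x) (hy : Ev s y) : Ev s (x * y) := by
  rw [Ev, ← mul_assoc, hx, mul_assoc, hy, mul_assoc]

theorem Ev.mul_od {s x y : M2 B} (hx : Ev s x) (hy : Od s y) : Od s (x * y) := by
  rw [Od, ← mul_assoc, hx, mul_assoc, hy]; noncomm_ring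

theorem Od.mul_ev {s x y : M2 B} (hx : Od s x) (hy : Ev s y) : Od s (x * y) := by
  rw [Od, ← mul_assoc, hx, add_mul, mul_assoc, hy]; noncomm_ring

theorem Ev.smul {s x : M2 B} (hx : Ev s x) (b : B) : Ev s (b • x) := by
  rw [Ev, mul_smul_comm, hx, smul_mul_assoc]

theorem Od.smul {s x : M2 B} (hx : Od s x) (b : B) : Od s (b • x) := by
  rw [Od, mul_smul_comm, hx, smul_mul_assoc, smul_add]

theorem p0_zero (s : M2 B) : p0 s 0 = 0 := by simp [p0]

theorem p1_zero (s : M2 B) : p1 s 0 = 0 := by simp [p1]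

theorem p0_add (s x y : M2 B) : p0 s (x + y) = p0 s x + p0 s y := by
  simp only [p0]; noncomm_ring

theorem p1_add (s x y : M2 B) : p1 s (x + y) = p1 s x + p1 s y := by
  simp only [p1]; noncomm_ring

theorem p0_smul (s : M2 B) (b : B) (x : M2 B) : p0 s (b • x) = b • p0 s x := by
  simp only [p0, smul_add, mul_smul_comm, smul_mul_assoc]

theorem p1_smul (s : M2 B) (b : B) (x : M2 B) : p1 s (b • x) = b • p1 s x := by
  simp only [p1, smul_add, mul_smul_comm, smul_mul_assoc]

theorem p0_map {B' : Type*} [CommRing B'] (f : B →+* B') (s x : M2 B) :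
    (p0 s x).map f = p0 (s.map f) (x.map f) := by
  have h1 : ∀ y z : M2 B, (y + z).map f = y.map f + z.map f := fun y z =>
    Matrix.map_add f (map_add f) y z
  have h2 : (1 : M2 B).map f = 1 := Matrix.map_one f (map_zero f) (map_one f)
  simp only [p0, h1, Matrix.map_mul, h2]

theorem p1_map {B' : Type*} [CommRing B'] (f : B →+* B') (s x : M2 B) :
    (p1 s x).map f = p1 (s.map f) (x.map f) := by
  have h1 : ∀ y z : M2 B, (y + z).map f = y.map f + z.map f := fun y z =>
    Matrix.map_add f (map_add f) y z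
  have h2 : (1 : M2 B).map f = 1 := Matrix.map_one f (map_zero f) (map_one f)
  simp only [p1, h1, Matrix.map_mul, h2]

/-- An element which is both even and odd is zero. -/
theorem eq_zero_of_ev_od {s x : M2 B} (h : Ev s x) (h' : Od s x) : x = 0 := by
  rw [Od, h] at h'
  exact (left_eq_add.mp h')

section Char2

variable (h2 : (2 : B) = 0)

include h2

theorem two_mat (x : M2 B) : x + x = 0 := by
  ext i j
  rw [Matrix.add_apply, Matrix.zero_apply]
  linear_combination x i j * h2

theorem two_eq_zero_mat : (2 : M2 B) = 0 := by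
  exact (one_add_one_eq_two (R := M2 B)).symm.trans (two_mat h2 1)

theorem neg_mat (x : M2 B) : -x = x := by
  rw [neg_eq_iff_add_eq_zero]; exact two_mat h2 x

theorem sub_mat (x y : M2 B) : x - y = x + y := by
  rw [sub_eq_add_neg, neg_mat h2]

theorem p0_add_p1 {s : M2 B} (x : M2 B) : p0 s x + p1 s x = x := by
  rw [p0, p1, add_assoc, two_mat h2, add_zero]

variable {s : M2 B} (hs : s * s = s + 1)

include hs

theorem Od.mul_od {x y : M2 B} (hx : Od s x) (hy : Od s y) : Ev s (x * y) := by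
  rw [Ev, ← mul_assoc, hx, add_mul, mul_assoc, hy, mul_add, add_assoc, two_mat h2, add_zero,
    mul_assoc]

theorem ev_p0 (x : M2 B) : Ev s (p0 s x) := by
  rw [Ev, ← sub_eq_zero]
  have h1 : s * p0 s x = s * x + (s * s) * x * s + (s * s) * x + (s * s) * x * s + s * x * s := by
    rw [p0]; noncomm_ring
  have h3 : p0 s x * s = x * s + s * x * (s * s) + s * x * s + s * x * (s * s) +
      x * (s * s) := by
    rw [p0]; noncomm_ring
  rw [h1, h3, hs]
  have h4 : s * x + (s + 1) * x * s + (s + 1) * x + (s + 1) * x * s + s * x * s -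
      (x * s + s * x * (s + 1) + s * x * s + s * x * (s + 1) + x * (s + 1)) = 0 := by
    noncomm_ring
  exact h4

theorem od_p1 (x : M2 B) : Od s (p1 s x) := by
  rw [Od, ← sub_eq_zero]
  have h1 : s * p1 s x = (s * s) * x * s + (s * s) * x + (s * s) * x * s + s * x * s := by
    rw [p1]; noncomm_ring
  have h3 : p1 s x * s + p1 s x = s * x * (s * s) + s * x * s + s * x * (s * s) + x * (s * s) +
      (s * x * s + s * x + s * x * s + x * s) := by
    rw [p1]; noncomm_ring
  rw [h1, h3, hs]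
  have h4 : (s + 1) * x * s + (s + 1) * x + (s + 1) * x * s + s * x * s -
      (s * x * (s + 1) + s * x * s + s * x * (s + 1) + x * (s + 1) +
      (s * x * s + s * x + s * x * s + x * s)) =
      -(2 * (s * x * s)) - 2 * (s * x) := by
    noncomm_ring
  rw [h4, two_eq_zero_mat h2, zero_mul, zero_mul, neg_zero, sub_zero]

theorem p1_of_ev {x : M2 B} (hx : Ev s x) : p1 s x = 0 := by
  refine eq_zero_of_ev_od (s := s) ?_ (od_p1 h2 hs x)
  have h := p0_add_p1 h2 (s := s) x
  have h' : p1 s x = x + p0 s x := by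
    calc p1 s x = (p0 s x + p0 s x) + p1 s x := by rw [two_mat h2, zero_add]
      _ = x + p0 s x := by rw [add_assoc, h, add_comm]
  rw [h']
  exact hx.add (ev_p0 h2 hs x)

theorem p0_of_ev {x : M2 B} (hx : Ev s x) : p0 s x = x := by
  have h := p0_add_p1 h2 (s := s) x
  rwa [p1_of_ev h2 hs hx, add_zero] at h

theorem p0_of_od {x : M2 B} (hx : Od s x) : p0 s x = 0 := by
  refine eq_zero_of_ev_od (s := s) (ev_p0 h2 hs x) ?_
  have h := p0_add_p1 h2 (s := s) x
  have h' : p0 s x = x + p1 s x := by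
    calc p0 s x = p0 s x + (p1 s x + p1 s x) := by rw [two_mat h2, add_zero]
      _ = x + p1 s x := by rw [← add_assoc, h]
  rw [h']
  exact hx.add (od_p1 h2 hs x)

theorem p1_of_od {x : M2 B} (hx : Od s x) : p1 s x = x := by
  have h := p0_add_p1 h2 (s := s) x
  rwa [p0_of_od h2 hs hx, zero_add] at h

/-- uniqueness of the decomposition -/
theorem p0_eq {x a b : M2 B} (h : x = a + b) (ha : Ev s a) (hb : Od s b) : p0 s x = a := by
  rw [h, p0_add, p0_of_ev h2 hs ha, p0_of_od h2 hs hb, add_zero]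

theorem p1_eq {x a b : M2 B} (h : x = a + b) (ha : Ev s a) (hb : Od s b) : p1 s x = b := by
  rw [h, p1_add, p1_of_ev h2 hs ha, p1_of_od h2 hs hb, zero_add]

theorem p0_mul (x y : M2 B) : p0 s (x * y) = p0 s x * p0 s y + p1 s x * p1 s y := by
  refine p0_eq h2 hs (b := p0 s x * p1 s y + p1 s x * p0 s y) ?_
    (((ev_p0 h2 hs x).mul (ev_p0 h2 hs y)).add ((od_p1 h2 hs x).mul_od h2 hs (od_p1 h2 hs y)))
    (((ev_p0 h2 hs x).mul_od (od_p1 h2 hs y)).add ((od_p1 h2 hs x).mul_ev (ev_p0 h2 hs y)))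
  conv_lhs => rw [← p0_add_p1 h2 (s := s) x, ← p0_add_p1 h2 (s := s) y]
  noncomm_ring

theorem p1_mul (x y : M2 B) : p1 s (x * y) = p0 s x * p1 s y + p1 s x * p0 s y := by
  refine p1_eq h2 hs (a := p0 s x * p0 s y + p1 s x * p1 s y) ?_
    (((ev_p0 h2 hs x).mul (ev_p0 h2 hs y)).add ((od_p1 h2 hs x).mul_od h2 hs (od_p1 h2 hs y)))
    (((ev_p0 h2 hs x).mul_od (od_p1 h2 hs y)).add ((od_p1 h2 hs x).mul_ev (ev_p0 h2 hs y)))
  conv_lhs => rw [← p0_add_p1 h2 (s := s) x, ← p0_add_p1 h2 (s := s) y]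
  noncomm_ring

end Char2

/-- odd elements have trace zero -/
theorem Od.trace {s x : M2 B} (hx : Od s x) : x.trace = 0 := by
  have h := congrArg Matrix.trace hx
  rw [Matrix.trace_add, Matrix.trace_mul_comm] at h
  exact left_eq_add.mp h

/-- The centralizer of `s` is `B + B s` if an off-diagonal entry of `s` is a unit. -/
theorem Ev.exists_eq {s x : M2 B} (hx : Ev s x) (hu : IsUnit (s 0 1)) :
    ∃ a b : B, x = a • 1 + b • s := by
  obtain ⟨v, hv⟩ := hu.exists_left_inv
  have h := hx
  rw [Ev] at h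
  have e : ∀ i j, (s * x) i j = (x * s) i j := fun i j => by rw [h]
  have e00 := e 0 0
  have e01 := e 0 1
  simp only [Matrix.mul_apply, Fin.sum_univ_two] at e00 e01
  refine ⟨x 0 0 - x 0 1 * v * s 0 0, x 0 1 * v, ?_⟩
  ext i j
  fin_cases i <;> fin_cases j <;> simp
  · linear_combination (-x 0 1) * hv
  · linear_combination v * e00 - x 1 0 * hv
  · linear_combination v * e01 + (x 0 0 - x 1 1) * hv - x 0 1 * 0 * hv

/-- two even elements commute -/
theorem Ev.comm {s x y : M2 B} (hx : Ev s x) (hy : Ev s y) (hu : IsUnit (s 0 1)) :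
    x * y = y * x := by
  obtain ⟨a, b, rfl⟩ := hx.exists_eq hu
  rw [Ev] at hy
  rw [add_mul, mul_add, smul_mul_assoc, smul_mul_assoc, mul_smul_comm, mul_smul_comm, hy, one_mul,
    mul_one]

end Fermat.Agent.P2.RT.Grade
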