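import Fermat.Agent.P2.RT.Glue

/-!
# P2, block 5b-i: the kernel of `A → T₀`

`A = trAlg ρ` for a family indexed by `Option 𝔉`, `T₀ = trAlg (ρ ∘ some)`, `R (some f)` torsion
free.  If a ring homomorphism `Φ` from `T₀` to a ring of characteristic two has the property that
the kernel of `A → T₀ → Λ` is `2 A`, then `A → T₀` is an isomorphism.
-/

set_option autoImplicit false
set_option linter.unusedSectionVars false
set_option linter.style.haveILetI false

open IsLocalRing

noncomputable section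

namespace Fermat.Agent.P2.RT

variable {G : Type*} [Group G] {𝔉 : Type*} [Finite 𝔉] {R : Option 𝔉 → Type*}
  [∀ i, CommRing (R i)] [∀ i, IsLocalRing (R i)] [∀ i, Algebra ℤ_[2] (R i)]
  [∀ i, Module.Finite ℤ_[2] (R i)]

/-- forget the component `none` -/
def forget (R : Option 𝔉 → Type*) [∀ i, CommRing (R i)] [∀ i, Algebra ℤ_[2] (R i)] :
    (∀ i, R i) →ₐ[ℤ_[2]] (∀ f : 𝔉, R (some f)) :=
  AlgHom.pi fun f => Pi.evalAlgHom ℤ_[2] R (some f)

@[simp] theorem forget_apply (x : ∀ i, R i) (f : 𝔉) : forget R x f = x (some f) := rfl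

variable (ρ : ∀ i, G →* Matrix (Fin 2) (Fin 2) (R i))

theorem map_forget : (trAlg ρ).map (forget R) = trAlg (fun f : 𝔉 => ρ (some f)) := by
  rw [trAlg, AlgHom.map_adjoin, trAlg]
  congr 1
  rw [← Set.range_comp]
  rfl

/-- `A → T₀` -/
def pr : trAlg ρ →ₐ[ℤ_[2]] trAlg (fun f : 𝔉 => ρ (some f)) :=
  ((forget R).comp (trAlg ρ).val).codRestrict _ fun x => by
    rw [← map_forget]
    exact ⟨x, x.2, rfl⟩

@[simp] theorem pr_coe (x : trAlg ρ) (f : 𝔉) :
    (pr ρ x : ∀ f : 𝔉, R (some f)) f = (x : ∀ i, R i) (some f) := rfl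

theorem pr_tA (g : G) : pr ρ (tA ρ g) = tA (fun f : 𝔉 => ρ (some f)) g := rfl

theorem pr_surjective : Function.Surjective (pr ρ) := by
  rintro ⟨y, hy⟩
  rw [← map_forget] at hy
  obtain ⟨x, hx, rfl⟩ := hy
  exact ⟨⟨x, hx⟩, rfl⟩

variable {ρ} {ρbar : G →* Matrix (Fin 2) (Fin 2) (ZMod 2)} {χ : G →* ℤ_[2]}

/-- **`A = T₀`.** -/
theorem pr_injective (H : Cong ρ ρbar χ)
    (htf : ∀ (f : 𝔉) (x : R (some f)), 2 * x = 0 → x = 0)
    {Λ : Type*} [CommRing Λ] (Φ : trAlg (fun f : 𝔉 => ρ (some f)) →+* Λ)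
    (hΦ : ∀ x : trAlg ρ, Φ (pr ρ x) = 0 → ∃ y, x = 2 * y) : Function.Injective (pr ρ) := by
  haveI := isLocalRing H
  haveI : IsNoetherianRing (trAlg ρ) := IsNoetherianRing.of_finite ℤ_[2] _
  set J : Ideal (trAlg ρ) := RingHom.ker (pr ρ) with hJ
  have h2 : (2 : trAlg ρ) ∈ maximalIdeal (trAlg ρ) := by
    rw [mem_max_iff H, map_ofNat]; decide
  have hJ0 : J = ⊥ := by
    refine Submodule.eq_bot_of_le_smul_of_le_jacobson_bot (maximalIdeal (trAlg ρ)) J
      (IsNoetherian.noetherian J) (fun x hx => ?_) (IsLocalRing.maximalIdeal_le_jacobson _)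
    have hx' : pr ρ x = 0 := hx
    obtain ⟨y, rfl⟩ := hΦ x (by rw [hx', map_zero])
    refine Submodule.smul_mem_smul h2 ?_
    show pr ρ y = 0
    refine Subtype.ext (funext fun f => ?_)
    have h := congrFun (congrArg Subtype.val hx') f
    exact htf f _ h
  rw [injective_iff_map_eq_zero]
  intro x hx
  have : x ∈ J := hx
  rw [hJ0] at this
  exact this

theorem isTorsionFree_of_two {M : Type*} [AddCommGroup M] [Module ℤ_[2] M]
    (h : ∀ x : M, (2 : ℤ_[2]) • x = 0 → x = 0) : Module.IsTorsionFree ℤ_[2] M := by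
  refine ⟨fun r hr => ?_⟩
  have hr0 : r ≠ 0 := hr.ne_zero
  have h2 : ∀ (k : ℕ) (x : M), (2 : ℤ_[2]) ^ k • x = 0 → x = 0 := by
    intro k
    induction k with
    | zero => intro x hx; simpa using hx
    | succ k ih =>
      intro x hx
      rw [pow_succ, mul_smul] at hx
      exact h x (ih _ hx)
  have h3 : ∀ x : M, r • x = 0 → x = 0 := by
    intro x hx
    rw [PadicInt.unitCoeff_spec hr0, mul_smul] at hx
    have h4 : ((2 : ℕ) : ℤ_[2]) ^ r.valuation • x = 0 := by
      have := congrArg (fun z => ((PadicInt.unitCoeff hr0)⁻¹ : ℤ_[2]ˣ) • z) hx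
      simpa [smul_smul, Units.smul_def] using this
    exact h2 _ x (by exact_mod_cast h4)
  intro x y hxy
  have : r • (x - y) = 0 := by rw [smul_sub]; exact sub_eq_zero.mpr hxy
  exact sub_eq_zero.mp (h3 _ this)

/-- The bound for the rank. -/
theorem finrank_le (htf : ∀ (f : 𝔉) (x : R (some f)), 2 * x = 0 → x = 0) (c : ℕ)
    [Finite (trAlg ρ ⧸ Ideal.span {(2 : trAlg ρ)})]
    (hcard : Nat.card (trAlg ρ ⧸ Ideal.span {(2 : trAlg ρ)}) ≤ 2 ^ c) :
    Module.finrank ℤ_[2] (trAlg (fun f : 𝔉 => ρ (some f))) ≤ c := by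
  classical
  set T := trAlg (fun f : 𝔉 => ρ (some f)) with hT
  -- `T` is torsion free
  have htf2 : ∀ x : T, (2 : ℤ_[2]) • x = 0 → x = 0 := by
    intro x hx
    refine Subtype.ext (funext fun f => htf f _ ?_)
    have h := congrFun (congrArg Subtype.val hx) f
    have h' : (2 : ℤ_[2]) • (x : ∀ f : 𝔉, R (some f)) f = 0 := h
    rwa [Algebra.smul_def, map_ofNat] at h'
  haveI : Module.IsTorsionFree ℤ_[2] T := isTorsionFree_of_two htf2
  haveI : Module.Free ℤ_[2] T := Module.free_of_finite_type_torsion_free'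
  let b := Module.finBasis ℤ_[2] T
  let f : trAlg ρ →+ (Fin (Module.finrank ℤ_[2] T) → ZMod 2) :=
    { toFun := fun x i => PadicInt.toZMod (b.repr (pr ρ x) i)
      map_zero' := by funext i; simp
      map_add' := fun x y => by funext i; simp }
  have hf : Function.Surjective f := by
    intro y
    obtain ⟨x, hx⟩ := pr_surjective ρ
      (b.equivFun.symm fun i => ((y i).val : ℤ_[2]))
    refine ⟨x, ?_⟩
    funext i
    show PadicInt.toZMod (b.repr (pr ρ x) i) = y i
    rw [hx, ← Module.Basis.equivFun_apply, LinearEquiv.apply_symm_apply, map_natCast,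
      ZMod.natCast_zmod_val]
  have hle : (Ideal.span {(2 : trAlg ρ)}).toAddSubgroup ≤ f.ker := by
    intro x hx
    obtain ⟨y, rfl⟩ := Ideal.mem_span_singleton'.mp hx
    rw [AddMonoidHom.mem_ker]
    funext i
    show PadicInt.toZMod (b.repr (pr ρ (y * 2)) i) = 0
    have h1 : pr ρ (y * 2) = (2 : ℤ_[2]) • pr ρ y := by
      rw [map_mul, map_ofNat, Algebra.smul_def, map_ofNat, mul_comm]
    rw [h1, map_smul, Finsupp.smul_apply, smul_eq_mul, map_mul, map_ofNat]
    have : (2 : ZMod 2) = 0 := by decide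
    rw [this, zero_mul]
  have h1 : Function.Surjective (QuotientAddGroup.lift _ f hle) :=
    QuotientAddGroup.lift_surjective_of_surjective _ _ hf _
  have h2 : Nat.card (Fin (Module.finrank ℤ_[2] T) → ZMod 2) ≤
      Nat.card (trAlg ρ ⧸ Ideal.span {(2 : trAlg ρ)}) :=
    Nat.card_le_card_of_surjective (α := trAlg ρ ⧸ Ideal.span {(2 : trAlg ρ)}) _ h1
  rw [Nat.card_fun, Nat.card_fin, Nat.card_zmod] at h2
  exact (Nat.pow_le_pow_iff_right (by norm_num)).mp (h2.trans hcard)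

end Fermat.Agent.P2.RT
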