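import Fermat.Agent.P2.RT.Glue
import Fermat.Agent.P2.Defs

/-!
# P2, block 5b-i (δ): transfer of the local properties to the glued representation

`Glued H ρA P Q`: `ρA : G → M₂(trAlg ρ)` is conjugate over every `R i` to `ρ i` and reduces to `ρbar`.
`Abar ρ = trAlg ρ / 2`, `rho2 ρA = ρA mod 2`.
-/

set_option autoImplicit false
set_option linter.unusedSectionVars false
set_option linter.style.haveILetI false

open IsLocalRing

noncomputable section

namespace Fermat.Agent.P2.RT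

open Sel

attribute [local simp] ev_apply

section General

variable {G : Type*} [Group G] {ι : Type*} [Finite ι] {R : ι → Type*}
  [∀ i, CommRing (R i)] [∀ i, IsLocalRing (R i)] [∀ i, Algebra ℤ_[2] (R i)]
  [∀ i, Module.Finite ℤ_[2] (R i)]
  {ρ : ∀ i, G →* Matrix (Fin 2) (Fin 2) (R i)}
  {ρbar : G →* Matrix (Fin 2) (Fin 2) (ZMod 2)} {χ : G →* ℤ_[2]}

theorem mat_ext {A B : Matrix (Fin 2) (Fin 2) (trAlg ρ)} (h : ∀ i, A.map (ev ρ i) =
    B.map (ev ρ i)) : A = B := by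
  apply Matrix.ext
  intro a b
  exact ev_ext fun i => congrFun (congrFun (h i) a) b

variable [Nonempty ι] {H : Cong ρ ρbar χ} {ρA : G →* Matrix (Fin 2) (Fin 2) (trAlg ρ)}
  {P Q : ∀ i, Matrix (Fin 2) (Fin 2) (R i)}

theorem Glued.PQ (h : Glued H ρA P Q) (i : ι) : P i * Q i = 1 := h.mul_inv i

theorem Glued.QP (h : Glued H ρA P Q) (i : ι) : Q i * P i = 1 := h.inv_mul i

theorem Glued.conj (h : Glued H ρA P Q) (i : ι) (g : G) :
    (ρA g).map (ev ρ i) = P i * ρ i g * Q i := h.map_eq i g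

theorem Glued.res (h : Glued H ρA P Q) (g : G) : (ρA g).map (resA H) = ρbar g := h.res_eq g

theorem Glued.det_PQ (h : Glued H ρA P Q) (i : ι) : (P i).det * (Q i).det = 1 := by
  rw [← Matrix.det_mul, h.PQ, Matrix.det_one]

theorem Glued.det (h : Glued H ρA P Q) (g : G) :
    (ρA g).det = algebraMap ℤ_[2] (trAlg ρ) (χ g) := by
  apply ev_ext
  intro i
  rw [RingHom.map_det, RingHom.mapMatrix_apply, h.conj, Matrix.det_mul, Matrix.det_mul, H.det i g,
    mul_comm (P i).det, mul_assoc, h.det_PQ, mul_one]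
  rfl

theorem Glued.trace (h : Glued H ρA P Q) (g : G) : (ρA g).trace = tA ρ g := by
  apply ev_ext
  intro i
  have e : ev ρ i (ρA g).trace = ((ρA g).map (ev ρ i)).trace := by
    simp [Matrix.trace_fin_two]
  rw [e, h.conj, Matrix.trace_mul_comm, ← mul_assoc, h.QP, one_mul]
  rfl

/-- (e) -/
theorem Glued.eq_one (h : Glued H ρA P Q) {g : G} (hg : ∀ i, ρ i g = 1) : ρA g = 1 := by
  apply mat_ext
  intro i
  rw [h.conj, hg, mul_one, h.PQ, Matrix.map_one _ (map_zero _) (map_one _)]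

variable (ρ) in
/-- the ring of traces modulo `2` -/
def Abar : Type _ := trAlg ρ ⧸ Ideal.span {(2 : trAlg ρ)}

instance instCommRingAbar : CommRing (Abar ρ) :=
  inferInstanceAs (CommRing (trAlg ρ ⧸ Ideal.span {(2 : trAlg ρ)}))

variable (ρ) in
/-- reduction modulo `2` -/
def mkA : trAlg ρ →+* Abar ρ := Ideal.Quotient.mk (Ideal.span {(2 : trAlg ρ)})

theorem mkA_surjective : Function.Surjective (mkA ρ) := Ideal.Quotient.mk_surjective

theorem mkA_eq_zero_iff {a : trAlg ρ} : mkA ρ a = 0 ↔ ∃ b, a = 2 * b := by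
  have h : mkA ρ a = 0 ↔ a ∈ Ideal.span {(2 : trAlg ρ)} := Ideal.Quotient.eq_zero_iff_mem
  rw [h, Ideal.mem_span_singleton]
  exact Iff.rfl

theorem two_Abar : (2 : Abar ρ) = 0 := by
  rw [← map_ofNat (mkA ρ) 2]
  exact mkA_eq_zero_iff.mpr ⟨1, (mul_one _).symm⟩

/-- every `x : ℤ₂` is `0` or `1` modulo `2` -/
theorem padic_mod_two (x : ℤ_[2]) : ∃ d : ℤ_[2], x = ((PadicInt.toZMod x).val : ℤ_[2]) + 2 * d := by
  have h1 := PadicInt.toZMod_spec (p := 2) x
  rw [← ZMod.natCast_val, PadicInt.maximalIdeal_eq_span_p, Ideal.mem_span_singleton] at h1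
  obtain ⟨d, hd⟩ := h1
  push_cast at hd
  exact ⟨d, by linear_combination hd⟩

theorem mkA_algebraMap (x : ℤ_[2]) : mkA ρ (algebraMap ℤ_[2] (trAlg ρ) x) =
    ((PadicInt.toZMod x).val : Abar ρ) := by
  obtain ⟨d, hd⟩ := padic_mod_two x
  conv_lhs => rw [hd]
  rw [map_add, map_mul, map_natCast, map_ofNat, map_add, map_mul, map_natCast, map_ofNat, two_Abar,
    zero_mul, add_zero]

instance instFiniteAbar : Finite (Abar ρ) := by
  obtain ⟨n, f, hf⟩ := Module.Finite.exists_fin' ℤ_[2] (trAlg ρ)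
  refine Finite.of_surjective
    (fun c : Fin n → ZMod 2 => mkA ρ (f (fun j => ((c j).val : ℤ_[2])))) ?_
  intro y
  obtain ⟨z, rfl⟩ := mkA_surjective y
  obtain ⟨x, rfl⟩ := hf z
  choose d hd using fun j => padic_mod_two (x j)
  refine ⟨fun j => PadicInt.toZMod (x j), ?_⟩
  have h2 : x = (fun j => ((PadicInt.toZMod (x j)).val : ℤ_[2])) + (2 : ℤ_[2]) • d := by
    funext j
    exact hd j
  conv_rhs => rw [h2]
  have h3 : mkA ρ ((2 : ℤ_[2]) • f d) = 0 :=
    mkA_eq_zero_iff.mpr ⟨f d, by rw [Algebra.smul_def, map_ofNat]⟩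
  rw [map_add, map_smul, map_add, h3, add_zero]

/-- the residue map of `Abar` -/
def r2 (H : Cong ρ ρbar χ) : Abar ρ →+* ZMod 2 :=
  Ideal.Quotient.lift (Ideal.span {(2 : trAlg ρ)}) (resA H) (by
    intro a ha
    obtain ⟨b, rfl⟩ := Ideal.mem_span_singleton.mp ha
    rw [map_mul, map_ofNat]
    have : (OfNat.ofNat 2 : ZMod 2) = 0 := rfl
    rw [this, zero_mul])

@[simp] theorem r2_mkA (H : Cong ρ ρbar χ) (a : trAlg ρ) :
    r2 H (mkA ρ a) = resA H a := rfl

theorem isUnit_iff_r2 (H : Cong ρ ρbar χ) (x : Abar ρ) : IsUnit x ↔ r2 H x = 1 := by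
  obtain ⟨a, rfl⟩ := mkA_surjective x
  constructor
  · intro h
    have h1 := h.map (r2 H)
    rcases zmod_two_cases (r2 H (mkA ρ a)) with h0 | h0
    · rw [h0] at h1; exact absurd h1 not_isUnit_zero
    · exact h0
  · intro h
    rw [r2_mkA] at h
    exact ((isUnit_iff H a).mpr h).map (mkA ρ)

/-- `ρA` modulo `2` -/
def rho2 (ρA : G →* Matrix (Fin 2) (Fin 2) (trAlg ρ)) : G →* Matrix (Fin 2) (Fin 2) (Abar ρ) :=
  ((mkA ρ).mapMatrix : Matrix (Fin 2) (Fin 2) (trAlg ρ) →+*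
    Matrix (Fin 2) (Fin 2) (Abar ρ)).toMonoidHom.comp ρA

theorem rho2_apply (ρA : G →* Matrix (Fin 2) (Fin 2) (trAlg ρ)) (g : G) :
    rho2 ρA g = (ρA g).map (mkA ρ) := rfl

theorem Glued.rho2_res (h : Glued H ρA P Q) (g : G) : (rho2 ρA g).map (r2 H) = ρbar g := by
  rw [← h.res g]
  rfl

theorem isUnit_chi (χ : G →* ℤ_[2]) (g : G) : IsUnit (χ g) := by
  have : χ g * χ g⁻¹ = 1 := by rw [← map_mul, mul_inv_cancel, map_one]
  exact IsUnit.of_mul_eq_one _ this

theorem chi_mod_two (χ : G →* ℤ_[2]) (g : G) :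
    mkA ρ (algebraMap ℤ_[2] (trAlg ρ) (χ g)) = 1 := by
  rw [mkA_algebraMap]
  have h1 := (isUnit_chi χ g).map (PadicInt.toZMod (p := 2))
  rcases zmod_two_cases (PadicInt.toZMod (χ g)) with h0 | h0
  · rw [h0] at h1; exact absurd h1 not_isUnit_zero
  · rw [h0, ZMod.val_one, Nat.cast_one]

theorem Glued.det_rho2 (h : Glued H ρA P Q) (g : G) : (rho2 ρA g).det = 1 := by
  have e : (rho2 ρA g).det = mkA ρ (ρA g).det := by
    rw [RingHom.map_det]; rfl
  rw [e, h.det]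
  exact chi_mod_two (ρ := ρ) χ g

theorem Glued.trace_rho2 (h : Glued H ρA P Q) (g : G) :
    (rho2 ρA g).trace = mkA ρ (tA ρ g) := by
  rw [← h.trace, rho2_apply, Matrix.trace_fin_two, Matrix.trace_fin_two, map_add]
  rfl

/-- (c) -/
theorem Glued.closure (h : Glued H ρA P Q) :
    Subring.closure (Set.range fun g => (rho2 ρA g).trace) = ⊤ := by
  rw [eq_top_iff]
  intro x _
  obtain ⟨⟨a, ha⟩, rfl⟩ := mkA_surjective x
  induction ha using Algebra.adjoin_induction with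
  | mem x hx =>
    obtain ⟨g, rfl⟩ := hx
    apply Subring.subset_closure
    exact ⟨g, h.trace_rho2 g⟩
  | algebraMap r =>
    have : mkA ρ ⟨algebraMap ℤ_[2] (∀ i, R i) r, Subalgebra.algebraMap_mem _ r⟩ =
      ((PadicInt.toZMod r).val : Abar ρ) := mkA_algebraMap r
    rw [this]
    exact natCast_mem _ _
  | add x y hx hy ihx ihy =>
    exact Subring.add_mem _ (ihx trivial) (ihy trivial)
  | mul x y hx hy ihx ihy =>
    exact Subring.mul_mem _ (ihx trivial) (ihy trivial)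

/-- Artin–Rees for one element. -/
theorem artinRees_aux {R₀ M : Type*} [CommRing R₀] [IsNoetherianRing R₀] [AddCommGroup M]
    [Module R₀ M] [Module.Finite R₀ M] (N : Submodule R₀ M) (r : R₀) :
    ∃ k : ℕ, ∀ x ∈ N, (∃ y, x = r ^ k • y) → ∃ z ∈ N, x = r • z := by
  obtain ⟨k, hk⟩ := Ideal.exists_pow_inf_eq_pow_smul (Ideal.span {r}) N
  refine ⟨k + 1, ?_⟩
  rintro x hx ⟨y, hy⟩
  have h1 : x ∈ Ideal.span {r} ^ (k + 1) • (⊤ : Submodule R₀ M) ⊓ N := by
    refine ⟨?_, hx⟩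
    rw [hy]
    exact Submodule.smul_mem_smul (Ideal.pow_mem_pow (Ideal.mem_span_singleton_self r) _)
      Submodule.mem_top
  rw [hk (k + 1) (Nat.le_succ k)] at h1
  have h2 : k + 1 - k = 1 := by omega
  rw [h2, pow_one] at h1
  have h3 : x ∈ Ideal.span {r} • N := Submodule.smul_mono le_rfl inf_le_right h1
  rw [Submodule.ideal_span_singleton_smul] at h3
  obtain ⟨b, hb, hba⟩ := (Submodule.mem_smul_pointwise_iff_exists _ _ _).mp h3
  exact ⟨b, hb, hba.symm⟩

/-- Artin–Rees: elements of `trAlg ρ` divisible by a large power of `2` in `∏ R i` are divisible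
by `2` in `trAlg ρ`. -/
theorem exists_artinRees (ρ : ∀ i, G →* Matrix (Fin 2) (Fin 2) (R i)) :
    ∃ k : ℕ, ∀ a : trAlg ρ, (∀ i, (2 : R i) ^ k ∣ (a : ∀ i, R i) i) → ∃ b : trAlg ρ, a = 2 * b := by
  obtain ⟨k, hk⟩ := artinRees_aux (Subalgebra.toSubmodule (trAlg ρ)) (2 : ℤ_[2])
  refine ⟨k, ?_⟩
  intro a hdiv
  choose c hc using hdiv
  have hc' : (a : ∀ i, R i) = (2 : ℤ_[2]) ^ k • (c : ∀ i, R i) := by
    funext i
    rw [Pi.smul_apply, Algebra.smul_def, map_pow, map_ofNat]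
    exact hc i
  obtain ⟨b, hb, hab⟩ := hk a.1 a.2 ⟨c, hc'⟩
  refine ⟨⟨b, hb⟩, Subtype.ext (funext fun i => ?_)⟩
  have h1 : (a : ∀ i, R i) i = ((2 : ℤ_[2]) • b) i := congrFun hab i
  rw [h1, Pi.smul_apply, Algebra.smul_def, map_ofNat]
  rfl

theorem Glued.dvd (h : Glued H ρA P Q) {g : G} {k : ℕ}
    (hg : ∀ i a b, (2 : R i) ^ k ∣ (ρ i g - 1) a b) (i : ι) (a b : Fin 2) :
    (2 : R i) ^ k ∣ ev ρ i ((ρA g - 1) a b) := by
  have e : ev ρ i ((ρA g - 1) a b) = (P i * (ρ i g - 1) * Q i) a b := by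
    rw [mul_sub, sub_mul, mul_one, h.PQ, ← h.conj i g]
    change ev ρ i ((ρA g) a b - (1 : Matrix (Fin 2) (Fin 2) (trAlg ρ)) a b) =
      ev ρ i ((ρA g) a b) - (1 : Matrix (Fin 2) (Fin 2) (R i)) a b
    rw [map_sub]
    congr 1
    fin_cases a <;> fin_cases b <;> simp
  rw [e]
  simp only [Matrix.mul_apply, Fin.sum_univ_two]
  exact dvd_add
    (Dvd.dvd.mul_right (dvd_add (Dvd.dvd.mul_left (hg i _ _) _) (Dvd.dvd.mul_left (hg i _ _) _)) _)
    (Dvd.dvd.mul_right (dvd_add (Dvd.dvd.mul_left (hg i _ _) _) (Dvd.dvd.mul_left (hg i _ _) _)) _)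

/-- (d), for one element -/
theorem Glued.rho2_eq_one (h : Glued H ρA P Q) : ∃ k : ℕ, ∀ g : G,
    (∀ i a b, (2 : R i) ^ k ∣ (ρ i g - 1) a b) → rho2 ρA g = 1 := by
  obtain ⟨k, hk⟩ := exists_artinRees ρ
  refine ⟨k, fun g hg => ?_⟩
  apply Matrix.ext
  intro a b
  obtain ⟨c, hc⟩ := hk ((ρA g - 1) a b) (fun i => h.dvd hg i a b)
  have h1 : (ρA g) a b = (1 : Matrix (Fin 2) (Fin 2) (trAlg ρ)) a b + 2 * c := by
    have : (ρA g) a b - (1 : Matrix (Fin 2) (Fin 2) (trAlg ρ)) a b = 2 * c := hc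
    rw [← this]; abel
  rw [rho2_apply, Matrix.map_apply, h1, map_add, map_mul, map_ofNat, two_Abar, zero_mul, add_zero]
  have h2 : (1 : Matrix (Fin 2) (Fin 2) (trAlg ρ)).map (mkA ρ) = 1 :=
    Matrix.map_one _ (map_zero _) (map_one _)
  exact congrFun (congrFun h2 a) b

end General

/-! ### Galois side -/

section Galois

local notation "Ω" => AlgebraicClosure ℚ

theorem eta_map {A B : Type*} [CommRing A] [CommRing B] (f : A →+* B) (P : ValuationSubring Ω)
    (q : ℕ) (e : A) (g : GQ) : f (eta P q e g) = eta P q (f e) g := by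
  unfold eta
  split_ifs
  · rfl
  · exact map_one f

theorem eta_mul_self {A : Type*} [CommRing A] (P : ValuationSubring Ω) (q : ℕ) {e : A}
    (he : e * e = 1) (g : GQ) : eta P q e g * eta P q e g = 1 := by
  unfold eta
  split_ifs
  · exact he
  · exact one_mul 1

/-- elements of inertia are not odd -/
theorem not_isOddAt_of_inertia (P : ValuationSubring Ω) (q : ℕ) {t : GQ}
    (ht : t ∈ P.inertiaSubgroupIn ℚ) : ¬ IsOddAt P q t := by
  rintro ⟨hg, x, hx, hne⟩
  apply hne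
  obtain ⟨⟨t', ht'⟩, htt, rfl⟩ := ht
  have h1 : (⟨t', ht'⟩ : P.decompositionSubgroup ℚ) ∈ P.inertiaSubgroup ℚ := htt
  rw [ValuationSubring.inertiaSubgroup, MonoidHom.mem_ker] at h1
  have h2 := congrArg (fun e => e x) h1
  exact h2

theorem inertia_le (P : ValuationSubring Ω) {t : GQ}
    (ht : t ∈ P.inertiaSubgroupIn ℚ) : t ∈ P.decompositionSubgroup ℚ := by
  obtain ⟨⟨t', ht'⟩, htt, rfl⟩ := ht
  exact ht'

theorem StRel.map {A B : Type*} [CommRing A] [CommRing B] (f : A →+* B) {P : ValuationSubring Ω}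
    {q : ℕ} {e : A} {d : GQ → A} {ρ : GQ → Matrix (Fin 2) (Fin 2) A} (h : StRel P q e d ρ) :
    StRel P q (f e) (fun g => f (d g)) (fun g => (ρ g).map f) := by
  intro g hg k hk
  have h1 := congrArg (fun M : Matrix (Fin 2) (Fin 2) A => M.map f) (h g hg k hk)
  simp only [Matrix.map_mul] at h1
  have e1 : ∀ (X : Matrix (Fin 2) (Fin 2) A) (a : A),
      (X - algebraMap A (Matrix (Fin 2) (Fin 2) A) a).map f =
        X.map f - algebraMap B (Matrix (Fin 2) (Fin 2) B) (f a) := by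
    intro X a
    apply Matrix.ext
    intro i j
    fin_cases i <;> fin_cases j <;>
      simp [Matrix.algebraMap_matrix_apply]
  rw [e1, e1, map_mul, eta_map, eta_map] at h1
  rw [h1]
  exact Matrix.map_zero _ (map_zero f)

variable {ι : Type*} [Finite ι] {R : ι → Type*}
  [∀ i, CommRing (R i)] [∀ i, IsLocalRing (R i)] [∀ i, Algebra ℤ_[2] (R i)]
  [∀ i, Module.Finite ℤ_[2] (R i)]
  {ρ : ∀ i, GQ →* Matrix (Fin 2) (Fin 2) (R i)}
  {ρbar : GQ →* Matrix (Fin 2) (Fin 2) (ZMod 2)} {χ : GQ →* ℤ_[2]}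
  [Nonempty ι] {H : Cong ρ ρbar χ} {ρA : GQ →* Matrix (Fin 2) (Fin 2) (trAlg ρ)}
  {P Q : ∀ i, Matrix (Fin 2) (Fin 2) (R i)}

/-- (d) -/
theorem Glued.exists_level (h : Glued H ρA P Q)
    (hc : ∀ k : ℕ, ∃ L : IntermediateField ℚ Ω, FiniteDimensional ℚ L ∧
      ∀ g : GQ, (∀ x ∈ L, g x = x) → ∀ i a b, (2 : R i) ^ k ∣ (ρ i g - 1) a b) :
    ∃ L : IntermediateField ℚ Ω, FiniteDimensional ℚ L ∧
      ∀ g : GQ, (∀ x ∈ L, g x = x) → rho2 ρA g = 1 := by
  obtain ⟨k, hk⟩ := h.rho2_eq_one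
  obtain ⟨L, hL, hL2⟩ := hc k
  exact ⟨L, hL, fun g hg => hk g (hL2 g hg)⟩

/-- The relation over `trAlg ρ` from the relations over all `R i`, for a sign in `trAlg ρ`. -/
theorem Glued.stRel (h : Glued H ρA P Q) {v : ValuationSubring Ω} {q : ℕ} {e : trAlg ρ}
    (hs : ∀ i, StRel v q ((e : ∀ i, R i) i) (fun g => (ρ i g).det) (fun g => ρ i g)) :
    StRel v q e (fun g => algebraMap ℤ_[2] (trAlg ρ) (χ g)) (fun g => ρA g) := by
  intro g hg k hk
  apply mat_ext
  intro i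
  have e1 : ∀ (X : Matrix (Fin 2) (Fin 2) (trAlg ρ)) (a : trAlg ρ),
      (X - algebraMap (trAlg ρ) (Matrix (Fin 2) (Fin 2) (trAlg ρ)) a).map (ev ρ i) =
        X.map (ev ρ i) - algebraMap (R i) (Matrix (Fin 2) (Fin 2) (R i)) (ev ρ i a) := by
    intro X a
    apply Matrix.ext
    intro i' j
    fin_cases i' <;> fin_cases j <;>
      simp [Matrix.algebraMap_matrix_apply]
  have e2 : ∀ (g : GQ) (a : R i),
      P i * ρ i g * Q i - algebraMap (R i) (Matrix (Fin 2) (Fin 2) (R i)) a =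
      P i * (ρ i g - algebraMap (R i) (Matrix (Fin 2) (Fin 2) (R i)) a) * Q i := by
    intro g a
    rw [mul_sub, sub_mul, (Algebra.commutes a (P i)).symm, mul_assoc _ (P i), h.PQ, mul_one]
  have e3 : ev ρ i (eta v q e g * algebraMap ℤ_[2] (trAlg ρ) (χ g)) =
      eta v q ((e : ∀ i, R i) i) g * (ρ i g).det := by
    rw [map_mul, eta_map, H.det i g]
    rfl
  rw [Matrix.map_mul, e1, e1, h.conj, h.conj, e2, e2, eta_map, e3]
  have e4 : P i * (ρ i g - algebraMap (R i) (Matrix (Fin 2) (Fin 2) (R i))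
        (eta v q ((e : ∀ i, R i) i) g * (ρ i g).det)) * Q i *
      (P i * (ρ i k - algebraMap (R i) (Matrix (Fin 2) (Fin 2) (R i))
        (eta v q (ev ρ i e) k)) * Q i) =
      P i * ((ρ i g - algebraMap (R i) (Matrix (Fin 2) (Fin 2) (R i))
        (eta v q ((e : ∀ i, R i) i) g * (ρ i g).det)) * (ρ i k - algebraMap (R i)
        (Matrix (Fin 2) (Fin 2) (R i)) (eta v q (ev ρ i e) k))) * Q i := by
    simp only [mul_assoc]
    rw [← mul_assoc (Q i) (P i), h.QP, one_mul]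
  rw [e4]
  have e5 := hs i g hg k hk
  simp only [ev_apply]
  rw [e5, mul_zero, zero_mul, Matrix.map_zero _ (map_zero _)]

/-- ... and over `Abar`. -/
theorem StRel.rho2 {v : ValuationSubring Ω} {q : ℕ} {e : trAlg ρ}
    (hs : StRel v q e (fun g => algebraMap ℤ_[2] (trAlg ρ) (χ g)) (fun g => ρA g)) :
    StRel v q (mkA ρ e) (fun _ => 1) (fun g => rho2 ρA g) := by
  have h1 := StRel.map (mkA ρ) hs
  have h2 : (fun g => mkA ρ (algebraMap ℤ_[2] (trAlg ρ) (χ g))) = fun _ : GQ => (1 : Abar ρ) := by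
    funext g
    exact chi_mod_two (ρ := ρ) χ g
  rw [h2] at h1
  exact h1

/-- constant signs -/
theorem Glued.exists_sign_const (h : Glued H ρA P Q) {v : ValuationSubring Ω} {q : ℕ} {c : ℤ}
    (hc : c = 1 ∨ c = -1)
    (hs : ∀ i, StRel v q (c : R i) (fun g => (ρ i g).det) (fun g => ρ i g)) :
    StRel v q (c : trAlg ρ) (fun g => algebraMap ℤ_[2] (trAlg ρ) (χ g)) (fun g => ρA g) ∧
      StRel v q (1 : Abar ρ) (fun _ => 1) (fun g => rho2 ρA g) := by
  have h1 : StRel v q (c : trAlg ρ) (fun g => algebraMap ℤ_[2] (trAlg ρ) (χ g))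
      (fun g => ρA g) := by
    apply h.stRel
    intro i
    have : ((c : trAlg ρ) : ∀ i, R i) i = (c : R i) := by
      rw [← ev_apply, map_intCast]
    rw [this]
    exact hs i
  refine ⟨h1, ?_⟩
  have h2 := StRel.rho2 h1
  have h3 : mkA ρ (c : trAlg ρ) = 1 := by
    rw [map_intCast]
    have h4 : (1 : Abar ρ) + 1 = 0 := by rw [one_add_one_eq_two, two_Abar]
    rcases hc with rfl | rfl
    · simp
    · rw [Int.cast_neg, Int.cast_one]
      exact (neg_eq_of_add_eq_zero_left h4)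
  rwa [h3] at h2

/-- trace criterion over `𝔽₂` -/
theorem exists_trace_ne {G : Type*} [Group G] (ρbar : G →* Matrix (Fin 2) (Fin 2) (ZMod 2))
    (hs : ∃ s, ρbar s = !![0, 1; 1, 1]) (ht : ∃ t, ρbar t = !![0, 1; 1, 0]) {g : G}
    (hg : ρbar g ≠ 1) : ∃ k, (ρbar (g * k)).trace ≠ (ρbar k).trace := by
  by_contra hcon
  push Not at hcon
  apply hg
  obtain ⟨s, hs⟩ := hs
  obtain ⟨t, ht⟩ := ht
  have h1 := hcon 1
  have h2 := hcon s
  have h3 := hcon t
  have h4 := hcon (s * t)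
  simp only [map_mul, map_one, hs, ht, Matrix.trace_fin_two, Matrix.mul_apply, Fin.sum_univ_two,
    Matrix.one_apply_eq, mul_one] at h1 h2 h3 h4
  simp at h1 h2 h3 h4
  have two : (2 : ZMod 2) = 0 := rfl
  have c1 : (ρbar g) 1 1 = 1 := by linear_combination h2 - h3
  have c0 : (ρbar g) 0 0 = 1 := by linear_combination h1 - c1
  have c2 : (ρbar g) 0 1 = 0 := by linear_combination h4 - c0 - c1
  have c3 : (ρbar g) 1 0 = 0 := by linear_combination h3 - c2
  ext a b
  fin_cases a <;> fin_cases b <;> simp [c0, c1, c2, c3]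

/-- signs at primes where `ρbar` is ramified -/
theorem Glued.exists_sign_ram (h : Glued H ρA P Q) {v : ValuationSubring Ω} {q : ℕ} {σ : ι → ℤ}
    (hσ : ∀ i, σ i = 1 ∨ σ i = -1)
    (hst : ∀ i, StRel v q (σ i : R i) (fun g => (ρ i g).det) (fun g => ρ i g))
    (hram : ∃ t ∈ v.inertiaSubgroupIn ℚ, ρbar t ≠ 1)
    (hs : ∃ s, ρbar s = !![0, 1; 1, 1]) (ht : ∃ t, ρbar t = !![0, 1; 1, 0]) :
    ∃ e : trAlg ρ, e * e = 1 ∧
      StRel v q e (fun g => algebraMap ℤ_[2] (trAlg ρ) (χ g)) (fun g => ρA g) ∧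
      StRel v q (mkA ρ e) (fun _ => 1) (fun g => rho2 ρA g) := by
  obtain ⟨t, htI, htne⟩ := hram
  by_cases hodd : ∃ g, IsOddAt v q g
  · obtain ⟨g, hg⟩ := hodd
    have hgD : g ∈ v.decompositionSubgroup ℚ := hg.1
    obtain ⟨k, hk⟩ := exists_trace_ne ρbar hs ht htne
    -- the unit `u`
    have hu : IsUnit (tA ρ (t * k) - tA ρ k) := by
      rw [isUnit_iff H, map_sub, resA_tA, resA_tA]
      rcases zmod_two_cases ((ρbar (t * k)).trace) with h1 | h1 <;>
        rcases zmod_two_cases ((ρbar k).trace) with h2 | h2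
      · exact absurd (h1.trans h2.symm) hk
      · rw [h1, h2]; decide
      · rw [h1, h2]; decide
      · exact absurd (h1.trans h2.symm) hk
    have hχ : IsUnit (algebraMap ℤ_[2] (trAlg ρ) (χ g)) := (isUnit_chi χ g).map _
    obtain ⟨u, hu⟩ := hu.mul hχ
    -- the relation
    have hrel : ∀ i, (σ i : R i) * ev ρ i (u : trAlg ρ) =
        ev ρ i (tA ρ (g * (t * k)) - tA ρ (g * k)) := by
      intro i
      have h1 := hst i g hgD t (inertia_le v htI)
      have e1 : eta v q (σ i : R i) g = σ i := if_pos hg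
      have e2 : eta v q (σ i : R i) t = 1 := if_neg (not_isOddAt_of_inertia v q htI)
      rw [e1, e2, map_one] at h1
      simp only [H.det i g] at h1
      have h2 := congrArg (fun M => (M * ρ i k).trace) h1
      simp only [zero_mul, Matrix.trace_zero] at h2
      have h3 : (ρ i g - algebraMap (R i) (Matrix (Fin 2) (Fin 2) (R i))
            ((σ i : R i) * algebraMap ℤ_[2] (R i) (χ g))) * (ρ i t - 1) * ρ i k =
          (ρ i (g * (t * k)) - ρ i (g * k)) -
            ((σ i : R i) * algebraMap ℤ_[2] (R i) (χ g)) • (ρ i (t * k) - ρ i k) := by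
        rw [Algebra.algebraMap_eq_smul_one, map_mul, map_mul, map_mul, sub_mul, sub_mul,
          Matrix.smul_mul, Matrix.smul_mul, one_mul]
        simp only [mul_sub, sub_mul, mul_one, one_mul, mul_assoc, smul_sub]
      rw [h3, Matrix.trace_sub, Matrix.trace_sub, Matrix.trace_smul, Matrix.trace_sub,
        smul_eq_mul] at h2
      rw [hu, map_mul, map_sub, map_sub]
      have e3 : ev ρ i (algebraMap ℤ_[2] (trAlg ρ) (χ g)) = algebraMap ℤ_[2] (R i) (χ g) := rfl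
      rw [e3]
      simp only [ev_apply, tA_coe]
      linear_combination -h2
    set e : trAlg ρ := (tA ρ (g * (t * k)) - tA ρ (g * k)) * ((u⁻¹ : (trAlg ρ)ˣ) : trAlg ρ) with he
    have hei : ∀ i, (e : ∀ i, R i) i = (σ i : R i) := by
      intro i
      rw [← ev_apply, he, map_mul, ← hrel, mul_assoc, ← map_mul, Units.mul_inv, map_one, mul_one]
    have hee : e * e = 1 := by
      apply ev_ext
      intro i
      rw [map_mul, map_one, ev_apply, hei]
      rcases hσ i with h1 | h1 <;> rw [h1] <;> simp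
    have hrelA : StRel v q e (fun g => algebraMap ℤ_[2] (trAlg ρ) (χ g)) (fun g => ρA g) := by
      apply h.stRel
      intro i
      rw [hei]
      exact hst i
    exact ⟨e, hee, hrelA, StRel.rho2 hrelA⟩
  · push Not at hodd
    have hrelA : StRel v q (1 : trAlg ρ) (fun g => algebraMap ℤ_[2] (trAlg ρ) (χ g))
        (fun g => ρA g) := by
      apply h.stRel
      intro i g hg k hk
      have h1 := hst i g hg k hk
      have e1 : ∀ (a : R i) (g : GQ), eta v q a g = 1 := fun a g => if_neg (hodd g)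
      rw [e1, e1] at h1 ⊢
      exact h1
    exact ⟨1, one_mul 1, hrelA, StRel.rho2 hrelA⟩

end Galois

end Fermat.Agent.P2.RT
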