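import Fermat.Agent.P2.RT.ECurve
import Fermat.Agent.P2.RT.Off
import Fermat.Agent.P2.RT.DihAbs
import Fermat.Agent.P2.AR.Final
import Fermat.Agent.P2.AR.ClT

/-!
# P2, block 5b-i: the class field theoretic input

`K = ℚ(√-∏S)`, `chi3` the character of order three of `G_K` cut out by `ρbar`, `psiCl` the
corresponding character of the class group, `kappa : Cl(K) → Cl2` the projection to the 2-part.
-/

set_option autoImplicit false
set_option linter.unusedSectionVars false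
set_option linter.style.haveILetI false

open NumberField

noncomputable section

namespace Fermat.Agent.P2.RT

open Sel

local notation "Ω" => AlgebraicClosure ℚ

/-! ### The quadratic field -/

variable (S : Finset ℕ)

/-- a square root of `-∏ S` -/
def rS : Ω := (IsAlgClosed.exists_pow_nat_eq (-((∏ q ∈ S, q : ℕ) : Ω)) two_pos).choose

theorem rS_sq : rS S ^ 2 = -((∏ q ∈ S, q : ℕ) : Ω) :=
  (IsAlgClosed.exists_pow_nat_eq (-((∏ q ∈ S, q : ℕ) : Ω)) two_pos).choose_spec

/-- `ℚ(√-∏ S)` -/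
def KS : IntermediateField ℚ Ω := IntermediateField.adjoin ℚ {rS S}

theorem rS_mem : rS S ∈ KS S := IntermediateField.mem_adjoin_simple_self ℚ _

/-- the square root as an element of `K` -/
def rK : KS S := ⟨rS S, rS_mem S⟩

theorem rK_sq : rK S ^ 2 = -((∏ q ∈ S, q : ℕ) : KS S) := by
  apply Subtype.ext
  push_cast
  have := rS_sq S
  push_cast at this
  exact this

instance instFiniteDimensionalKS : FiniteDimensional ℚ (KS S) :=
  IntermediateField.adjoin.finiteDimensional (Algebra.IsAlgebraic.isAlgebraic _).isIntegral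

instance instNumberFieldKS : NumberField (KS S) := AR.numberField _

theorem mem_KS_iff_fix (g : GQ) : g ∈ (KS S).fixingSubgroup ↔ g (rS S) = rS S := by
  rw [IntermediateField.mem_fixingSubgroup_iff]
  constructor
  · intro h
    exact h _ (rS_mem S)
  · intro h x hx
    have h1 : KS S ≤ IntermediateField.fixedField (Subgroup.zpowers g) := by
      rw [KS, IntermediateField.adjoin_simple_le_iff, IntermediateField.mem_fixedField_iff]
      intro f hf
      obtain ⟨k, rfl⟩ := Subgroup.mem_zpowers_iff.mp hf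
      have h2 : g ∈ MulAction.stabilizer GQ (rS S) := MulAction.mem_stabilizer_iff.mpr h
      exact MulAction.mem_stabilizer_iff.mp (Subgroup.zpow_mem _ h2 k)
    have h2 := (IntermediateField.mem_fixedField_iff _ _).mp (h1 hx)
    exact h2 g (Subgroup.mem_zpowers g)

variable {S}

theorem prod_pos_of_primes (hS : ∀ q ∈ S, q.Prime) : 0 < ∏ q ∈ S, q :=
  Finset.prod_pos fun q hq => (hS q hq).pos

theorem finrank_KS (hS : ∀ q ∈ S, q.Prime) : Module.finrank ℚ (KS S) = 2 := by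
  have hirr : Irreducible (Polynomial.X ^ 2 - Polynomial.C (-((∏ q ∈ S, q : ℕ) : ℚ))) := by
    refine X_pow_sub_C_irreducible_of_prime Nat.prime_two fun b hb => ?_
    have h1 : (0 : ℚ) < ((∏ q ∈ S, q : ℕ) : ℚ) := by exact_mod_cast prod_pos_of_primes hS
    nlinarith [sq_nonneg b]
  have hmonic := Polynomial.monic_X_pow_sub_C (-((∏ q ∈ S, q : ℕ) : ℚ)) two_ne_zero
  have h1 : minpoly ℚ (rS S) = Polynomial.X ^ 2 - Polynomial.C (-((∏ q ∈ S, q : ℕ) : ℚ)) := by
    refine (minpoly.eq_of_irreducible_of_monic hirr ?_ hmonic).symm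
    rw [map_sub, map_pow, Polynomial.aeval_X, Polynomial.aeval_C, rS_sq, map_neg, map_natCast,
      sub_self]
  rw [KS, IntermediateField.adjoin.finrank (Algebra.IsAlgebraic.isAlgebraic _).isIntegral, h1,
    Polynomial.natDegree_X_pow_sub_C]

theorem isTotallyComplex_KS (hS : ∀ q ∈ S, q.Prime) : IsTotallyComplex (KS S) := by
  refine ⟨fun v => ?_⟩
  rw [← InfinitePlace.not_isReal_iff_isComplex]
  intro hv
  have h1 := congrArg (InfinitePlace.embedding_of_isReal hv) (rK_sq S)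
  rw [map_pow, map_neg, map_natCast] at h1
  have h2 : (0 : ℝ) < ((∏ q ∈ S, q : ℕ) : ℝ) := by exact_mod_cast prod_pos_of_primes hS
  nlinarith [sq_nonneg (InfinitePlace.embedding_of_isReal hv (rK S))]

/-! ### The character of order three -/

section Chi

variable {a : ℕ → ℤ} (D : GalData S a)

theorem det_rhoBar (g : GQ) : (rhoBar D.ρ g).det = 1 := by
  have h2 : ∀ c : ZMod 2, IsUnit c → c = 1 := by decide
  rw [det_redRep]
  exact h2 _ ((isUnit_chi (detRep D.ρ) g).map _)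

theorem mem_KS_iff (g : GQ) : g ∈ (KS S).fixingSubgroup ↔
    rhoBar D.ρ g = 1 ∨ (rhoBar D.ρ g).trace = 1 := by
  rw [mem_KS_iff_fix, D.disc (rS S) (rS_sq S) g, trace_redRep]
  refine or_congr ?_ Iff.rfl
  rw [rhoBar_eq_one_iff]
  exact forall_congr' fun i => forall_congr' fun j => toZMod_eq_zero_iff

theorem level_rhoBar : ∃ L : IntermediateField ℚ Ω, FiniteDimensional ℚ L ∧
    ∀ h : GQ, (∀ x ∈ L, h x = x) → rhoBar D.ρ h = 1 := by
  obtain ⟨L, hL, h⟩ := D.cont 1
  refine ⟨L, hL, fun g hg => (rhoBar_eq_one_iff D g).mpr fun i j => ?_⟩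
  have := h g hg i j
  rwa [pow_one] at this

/-- the character of `G_K` of order three -/
def chi3 : (KS S).fixingSubgroup →* (Matrix (Fin 2) (Fin 2) (ZMod 2))ˣ :=
  (rhoBar D.ρ).toHomUnits.comp (KS S).fixingSubgroup.subtype

theorem coe_chi3 (g : (KS S).fixingSubgroup) :
    (chi3 D g : Matrix (Fin 2) (Fin 2) (ZMod 2)) = rhoBar D.ρ g := rfl

theorem chi3_eq_one_iff (g : (KS S).fixingSubgroup) : chi3 D g = 1 ↔ rhoBar D.ρ g = 1 := by
  rw [← coe_chi3, Units.val_eq_one]

theorem trace_rhoBar_iff (g : (KS S).fixingSubgroup) :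
    (rhoBar D.ρ g).trace = 1 ↔ chi3 D g ≠ 1 := by
  rw [Ne, chi3_eq_one_iff]
  constructor
  · intro h h1
    rw [h1] at h
    exact absurd h (by decide)
  · intro h
    exact ((mem_KS_iff D g).mp g.2).resolve_left h

theorem exists_range_chi3 : ∃ u : (Matrix (Fin 2) (Fin 2) (ZMod 2))ˣ,
    (chi3 D).range = Subgroup.zpowers u ∧ orderOf u = 3 := by
  obtain ⟨s, hs⟩ := exists_rhoBar_s D
  have hst : (rhoBar D.ρ s).trace = 1 := by rw [hs]; rfl
  have hsK : s ∈ (KS S).fixingSubgroup := (mem_KS_iff D s).mpr (Or.inr hst)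
  have hu : (chi3 D ⟨s, hsK⟩ : Matrix (Fin 2) (Fin 2) (ZMod 2)) = !![0, 1; 1, 1] := hs
  refine ⟨chi3 D ⟨s, hsK⟩, ?_, ?_⟩
  · apply le_antisymm
    · rintro _ ⟨g, rfl⟩
      rcases Dih.eq_of_inC (det_rhoBar D s) (det_rhoBar D (g : GQ)) hst
        (Or.comm.mp ((mem_KS_iff D g).mp g.2)) with h | h | h
      · have : chi3 D g = 1 := (chi3_eq_one_iff D g).mpr h
        rw [this]
        exact Subgroup.one_mem _
      · have : chi3 D g = chi3 D ⟨s, hsK⟩ := Units.ext h
        rw [this]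
        exact Subgroup.mem_zpowers _
      · have : chi3 D g = chi3 D ⟨s, hsK⟩ ^ 2 := by
          apply Units.ext
          rw [Units.val_pow_eq_pow_val, coe_chi3, coe_chi3, h, hs]
          decide
        rw [this]
        exact Subgroup.pow_mem _ (Subgroup.mem_zpowers _) 2
    · rw [Subgroup.zpowers_le]
      exact ⟨_, rfl⟩
  · haveI : Fact (Nat.Prime 3) := ⟨Nat.prime_three⟩
    refine orderOf_eq_prime ?_ ?_
    · apply Units.ext
      rw [Units.val_pow_eq_pow_val, hu]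
      decide
    · intro h
      have h1 := congrArg Units.val h
      rw [hu] at h1
      exact absurd h1 (by decide)

theorem card_range_chi3 : Nat.card (chi3 D).range = 3 := by
  obtain ⟨u, hu, ho⟩ := exists_range_chi3 D
  rw [hu, Nat.card_zpowers, ho]

theorem chi3_pow_three (g : (KS S).fixingSubgroup) : chi3 D g ^ 3 = 1 := by
  obtain ⟨u, hu, ho⟩ := exists_range_chi3 D
  have h1 : chi3 D g ∈ Subgroup.zpowers u := hu ▸ (⟨g, rfl⟩ : chi3 D g ∈ (chi3 D).range)
  obtain ⟨k, hk⟩ := Subgroup.mem_zpowers_iff.mp h1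
  rw [← hk, ← zpow_natCast, ← zpow_mul, mul_comm, zpow_mul, zpow_natCast, ← ho, pow_orderOf_eq_one,
    one_zpow]

theorem exists_chi3_ne_one : ∃ g, chi3 D g ≠ 1 := by
  by_contra h
  push Not at h
  have h1 : (chi3 D).range = ⊥ := by
    rw [eq_bot_iff]
    rintro _ ⟨g, rfl⟩
    exact Subgroup.mem_bot.mpr (h g)
  have h2 := card_range_chi3 D
  rw [h1, Subgroup.card_bot] at h2
  exact absurd h2 (by norm_num)

theorem unr_chi3 : AR.Unr (KS S) (chi3 D) where
  cyclic := by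
    obtain ⟨u, hu, -⟩ := exists_range_chi3 D
    rw [hu]
    infer_instance
  cont := by
    obtain ⟨L, hL, h⟩ := level_rhoBar D
    exact ⟨L, hL, fun g hg => (chi3_eq_one_iff D g).mpr (h g hg)⟩
  unr := by
    intro ℓ hℓ P hP g hg
    rw [chi3_eq_one_iff]
    by_cases hS : ℓ ∈ S
    · by_contra h1
      have h2 := stRel_rhoE (D := D) (PadicInt.toZMod (p := 2)) hS hP g (inertia_le P hg) g
        (inertia_le P hg)
      have h4 : eta P ℓ ((D.s ℓ : ℤ) : ZMod 2) (g : GQ) = 1 := if_neg (not_isOddAt_of_inertia P ℓ hg)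
      simp only [det_rhoBar, h4, mul_one, map_one] at h2
      exact Off.unip_notMem _ h2 h1 ((mem_KS_iff D g).mp g.2)
    · exact unram_rhoE D _ hℓ hS hP hg

include D in
/-- inertia at primes outside `S` is contained in `G_K` -/
theorem inertia_le_KS {ℓ : ℕ} (hℓ : ℓ.Prime) (hS : ℓ ∉ S) (P : ValuationSubring Ω)
    (hP : P.LiesOverPrime ℓ) : ∀ g ∈ P.inertiaSubgroupIn ℚ, g ∈ (KS S).fixingSubgroup :=
  fun _ hg => (mem_KS_iff D _).mpr (Or.inl (unram_rhoE D _ hℓ hS hP hg))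

/-! ### The character of the class group -/

/-- the field with four elements -/
abbrev F4 : Type := GaloisField 2 2

theorem card_F4_units : Nat.card F4ˣ = 3 := by
  rw [Nat.card_units, GaloisField.card 2 2 two_ne_zero]
  norm_num

variable (hS : ∀ q ∈ S, q.Prime)

include hS in
theorem index_Vsub_chi3 : (AR.Vsub (KS S) (chi3 D)).index = 3 := by
  haveI := isTotallyComplex_KS hS
  rw [AR.index_Vsub (finrank_KS hS) (unr_chi3 D), card_range_chi3]

include hS in
theorem exists_psiCl : ∃ ψ : ClassGroup (𝓞 (KS S)) →* F4ˣ, ψ.ker = AR.Vsub (KS S) (chi3 D) := by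
  haveI : Fact (Nat.Prime 3) := ⟨Nat.prime_three⟩
  have h1 : Nat.card (ClassGroup (𝓞 (KS S)) ⧸ AR.Vsub (KS S) (chi3 D)) = 3 :=
    index_Vsub_chi3 D hS
  let e := mulEquivOfPrimeCardEq (p := 3) h1 card_F4_units
  refine ⟨e.toMonoidHom.comp (QuotientGroup.mk' _), ?_⟩
  ext x
  rw [MonoidHom.mem_ker, MonoidHom.comp_apply]
  change e _ = 1 ↔ _
  rw [EmbeddingLike.map_eq_one_iff]
  exact QuotientGroup.eq_one_iff x

/-- the character of the class group of order three -/
def psiCl : ClassGroup (𝓞 (KS S)) →* F4ˣ := (exists_psiCl D hS).choose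

theorem ker_psiCl : (psiCl D hS).ker = AR.Vsub (KS S) (chi3 D) := (exists_psiCl D hS).choose_spec

theorem psiCl_eq_one_iff (c : ClassGroup (𝓞 (KS S))) :
    psiCl D hS c = 1 ↔ c ∈ AR.Vsub (KS S) (chi3 D) := by
  rw [← ker_psiCl D hS, MonoidHom.mem_ker]

end Chi

/-! ### The two-part of the class group -/

variable (S)

/-- the odd part of the class number -/
def mCl : ℕ := ordCompl[2] (Nat.card (ClassGroup (𝓞 (KS S))))

theorem odd_mCl : Odd (mCl S) := by
  rw [Nat.odd_iff, ← Nat.two_dvd_ne_zero, mCl]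
  exact Nat.not_dvd_ordCompl Nat.prime_two Nat.card_pos.ne'

/-- the two-part of the class group -/
def Cl2 : Type := (powMonoidHom (mCl S) : ClassGroup (𝓞 (KS S)) →* ClassGroup (𝓞 (KS S))).range

instance instCommGroupCl2 : CommGroup (Cl2 S) :=
  inferInstanceAs (CommGroup
    (powMonoidHom (mCl S) : ClassGroup (𝓞 (KS S)) →* ClassGroup (𝓞 (KS S))).range)

instance instFiniteCl2 : Finite (Cl2 S) :=
  inferInstanceAs (Finite
    (powMonoidHom (mCl S) : ClassGroup (𝓞 (KS S)) →* ClassGroup (𝓞 (KS S))).range)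

/-- the projection to the two-part of the class group -/
def kappa : ClassGroup (𝓞 (KS S)) →* Cl2 S :=
  (powMonoidHom (mCl S) : ClassGroup (𝓞 (KS S)) →* ClassGroup (𝓞 (KS S))).rangeRestrict

theorem kappa_surjective : Function.Surjective (kappa S) :=
  (powMonoidHom (mCl S) : ClassGroup (𝓞 (KS S)) →* _).rangeRestrict_surjective

theorem kappa_eq_one_iff (x : ClassGroup (𝓞 (KS S))) : kappa S x = 1 ↔ x ^ mCl S = 1 := by
  constructor
  · intro h
    exact congrArg Subtype.val h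
  · intro h
    exact Subtype.ext h

theorem odd_of_kappa (x : ClassGroup (𝓞 (KS S))) (h : kappa S x = 1) : Odd (orderOf x) :=
  (odd_mCl S).of_dvd_nat (orderOf_dvd_of_pow_eq_one ((kappa_eq_one_iff S x).mp h))

theorem Cl2_pow : ∃ m : ℕ, ∀ c : Cl2 S, c ^ 2 ^ m = 1 := by
  refine ⟨(Nat.card (ClassGroup (𝓞 (KS S)))).factorization 2, fun c => ?_⟩
  obtain ⟨x, rfl⟩ := kappa_surjective S c
  rw [← map_pow, kappa_eq_one_iff, ← pow_mul, mCl, Nat.ordProj_mul_ordCompl_eq_self, pow_card_eq_one']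

variable {S}

/-! ### The map between the group rings -/

section Beta

variable {a : ℕ → ℤ} (D : GalData S a) (hS : ∀ q ∈ S, q.Prime)

/-- `F₄[Cl2]` -/
abbrev LamS (S : Finset ℕ) : Type := MonoidAlgebra F4 (Cl2 S)

/-- `c ↦ ψ(c) [κ c]` -/
def betaHom : ClassGroup (𝓞 (KS S)) →* LamS S where
  toFun c := MonoidAlgebra.single (kappa S c) (psiCl D hS c : F4)
  map_one' := by
    rw [map_one, map_one, Units.val_one]
    rfl
  map_mul' x y := by
    rw [map_mul, map_mul, Units.val_mul, MonoidAlgebra.single_mul_single]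

/-- `𝔽₂[Cl(K)] → F₄[Cl2]` -/
def betaCl : MonoidAlgebra (ZMod 2) (ClassGroup (𝓞 (KS S))) →+* LamS S :=
  (MonoidAlgebra.lift (ZMod 2) (LamS S) (ClassGroup (𝓞 (KS S))) (betaHom D hS)).toRingHom

theorem betaCl_single (c : ClassGroup (𝓞 (KS S))) :
    betaCl D hS (MonoidAlgebra.single c 1) =
      MonoidAlgebra.single (kappa S c) (psiCl D hS c : F4) := by
  change MonoidAlgebra.lift (ZMod 2) (LamS S) (ClassGroup (𝓞 (KS S))) (betaHom D hS) _ = _
  rw [MonoidAlgebra.lift_single, one_smul]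
  rfl

/-- split primes -/
theorem betaCl_clT_of_mem {ℓ : ℕ} (hℓ : ℓ.Prime) (hℓS : ℓ ∉ S) {P : ValuationSubring Ω}
    (hP : P.LiesOverPrime ℓ) {φ : GQ} (hφ : P.IsFrobeniusAt φ ℓ)
    (hφK : φ ∈ (KS S).fixingSubgroup) :
    betaCl D hS (clT (KS S) ℓ) =
      MonoidAlgebra.single (kappa S (AR.clsAt (KS S) P)) (psiCl D hS (AR.clsAt (KS S) P) : F4) +
      MonoidAlgebra.single (kappa S (AR.clsAt (KS S) P))⁻¹
        (((psiCl D hS (AR.clsAt (KS S) P))⁻¹ : F4ˣ) : F4) := by
  rw [AR.clT_of_mem (finrank_KS hS) hℓ hP (inertia_le_KS D hℓ hℓS P hP) hφ hφK, map_add,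
    betaCl_single, betaCl_single, map_inv, map_inv]

/-- inert primes -/
theorem betaCl_clT_of_notMem {ℓ : ℕ} (hℓ : ℓ.Prime) (hℓS : ℓ ∉ S) {P : ValuationSubring Ω}
    (hP : P.LiesOverPrime ℓ) {φ : GQ} (hφ : P.IsFrobeniusAt φ ℓ)
    (hφK : φ ∉ (KS S).fixingSubgroup) :
    betaCl D hS (clT (KS S) ℓ) = 0 := by
  rw [AR.clT_of_notMem (finrank_KS hS) hℓ hP (inertia_le_KS D hℓ hℓS P hP) hφ hφK, map_zero]

theorem clHecke_heckeGen (K : Type) [Field K] [NumberField K] (ℓ : Nat.Primes) :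
    clHecke K (ModularCurve.heckeGen ℓ) = clT K ℓ := by
  show MvPolynomial.eval₂Hom _ _ (MvPolynomial.X ℓ) = _
  rw [MvPolynomial.eval₂Hom_X']

end Beta

/-! ### The reciprocity hypothesis of `char2_main` -/

section Rec

/-- a family of two types -/
def famC (X Y : Type) : Bool → Type
  | true => X
  | false => Y

instance instGroupFamC (X Y : Type) [Group X] [Group Y] : ∀ b, Group (famC X Y b)
  | true => inferInstanceAs (Group X)
  | false => inferInstanceAs (Group Y)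

/-- a family of two homomorphisms -/
def famChi {G X Y : Type} [Group G] [Group X] [Group Y] (χ : G →* X) (χ' : G →* Y) :
    ∀ b, G →* famC X Y b
  | true => χ
  | false => χ'

variable {a : ℕ → ℤ} (D : GalData S a) (hS : ∀ q ∈ S, q.Prime)

/-- **The reciprocity hypothesis.** -/
theorem ar_hyp (Mset : Finset ℕ) (X : Type) [CommGroup X] [Finite X] [IsCyclic X]
    (χ : (KS S).fixingSubgroup →* X)
    (hcont : ∃ L : IntermediateField ℚ Ω, FiniteDimensional ℚ L ∧
      ∀ h : (KS S).fixingSubgroup, (∀ x ∈ L, (h : GQ) x = x) → χ h = 1)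
    (hunr : ∀ ℓ : ℕ, ℓ.Prime → ∀ P : ValuationSubring Ω, P.LiesOverPrime ℓ →
      ∀ h : (KS S).fixingSubgroup, (h : GQ) ∈ P.inertiaSubgroupIn ℚ → χ h = 1) :
    ∃ U : Subgroup (ClassGroup (𝓞 (KS S))),
      (∀ ℓ : ℕ, ℓ.Prime → ℓ ∉ Mset → ∀ P : ValuationSubring Ω, P.LiesOverPrime ℓ →
        ∀ f : (KS S).fixingSubgroup, P.IsFrobeniusAt (f : GQ) ℓ →
          AR.clsAt (KS S) P ^ orderOf (χ f) ∈ U) ∧
      ∀ (g : (KS S).fixingSubgroup) (L : IntermediateField ℚ Ω), FiniteDimensional ℚ L →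
        ∀ Bd : Finset ℕ,
        ∃ ℓ : ℕ, ℓ.Prime ∧ ℓ ∉ Bd ∧ ∃ P : ValuationSubring Ω, P.LiesOverPrime ℓ ∧
          ∃ f : (KS S).fixingSubgroup, P.IsFrobeniusAt (f : GQ) ℓ ∧
            (∀ x ∈ L, (f : GQ) x = (g : GQ) x) ∧
            ((rhoBar D.ρ g).trace = 1 → psiCl D hS (AR.clsAt (KS S) P) ≠ 1) ∧
            (χ g ≠ 1 → AR.clsAt (KS S) P ∉ U) := by
  haveI := isTotallyComplex_KS hS
  have hχ : AR.Unr (KS S) χ := ⟨inferInstance, hcont, hunr⟩
  refine ⟨AR.Vsub (KS S) χ, fun ℓ hℓ _ P hP f hf => AR.clsAt_pow_mem_Vsub hℓ hP hf, ?_⟩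
  intro g L hL Bd
  have hall : ∀ b, AR.Unr (KS S) (famChi χ (chi3 D) b)
    | true => hχ
    | false => unr_chi3 D
  obtain ⟨ℓ, hℓ, hB, P, hP, φ, hφ, hx, hcl⟩ :=
    AR.exists_frobenius_notMem (finrank_KS hS) (famChi χ (chi3 D)) hall L Bd g
  refine ⟨ℓ, hℓ, hB, P, hP, φ, hφ, hx, fun ht h => ?_, fun h => hcl true h⟩
  exact hcl false ((trace_rhoBar_iff D g).mp ht) ((psiCl_eq_one_iff D hS _).mp h)

end Rec

end Fermat.Agent.P2.RT
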