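import Mathlib
import Fermat.Prelude.Thm_IsLocalRing_isAdicComplete_of_module_finite

/-!
# P2, block 5b-i: the ring of traces of a finite family of 2-adic representations

`ρ i : G → M₂(R i)`, `i ∈ ι` finite, `R i` a local ring which is a finite `ℤ₂`-algebra, all the
traces being congruent to the traces of one representation `ρbar : G → M₂(𝔽₂)` with image `GL₂(𝔽₂)`.
`trAlg ρ ⊂ ∏ R i` is the `ℤ₂`-algebra generated by the traces.

Main results: `trAlg ρ` is a complete local ring with residue field `𝔽₂`.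
-/

set_option autoImplicit false
set_option linter.unusedSectionVars false
set_option linter.style.haveILetI false

open IsLocalRing

noncomputable section

namespace Fermat.Agent.P2.RT

variable {G : Type*} [Group G] {ι : Type*} [Finite ι] {R : ι → Type*}
  [∀ i, CommRing (R i)] [∀ i, IsLocalRing (R i)] [∀ i, Algebra ℤ_[2] (R i)]
  [∀ i, Module.Finite ℤ_[2] (R i)]

/-- The family of traces. -/
def trS (ρ : ∀ i, G →* Matrix (Fin 2) (Fin 2) (R i)) (g : G) : ∀ i, R i := fun i => (ρ i g).trace

@[simp] theorem trS_apply (ρ : ∀ i, G →* Matrix (Fin 2) (Fin 2) (R i)) (g : G) (i : ι) :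
    trS ρ g i = (ρ i g).trace := rfl

/-- The ring of traces. -/
def trAlg (ρ : ∀ i, G →* Matrix (Fin 2) (Fin 2) (R i)) : Subalgebra ℤ_[2] (∀ i, R i) :=
  Algebra.adjoin ℤ_[2] (Set.range (trS ρ))

theorem trS_mem (ρ : ∀ i, G →* Matrix (Fin 2) (Fin 2) (R i)) (g : G) : trS ρ g ∈ trAlg ρ :=
  Algebra.subset_adjoin ⟨g, rfl⟩

/-- The standing hypotheses. -/
structure Cong (ρ : ∀ i, G →* Matrix (Fin 2) (Fin 2) (R i))
    (ρbar : G →* Matrix (Fin 2) (Fin 2) (ZMod 2)) (χ : G →* ℤ_[2]) : Prop where
  two_mem : ∀ i, (2 : R i) ∈ maximalIdeal (R i)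
  det : ∀ i g, (ρ i g).det = algebraMap ℤ_[2] (R i) (χ g)
  res : ∀ i g, residue (R i) (ρ i g).trace = ((ρbar g).trace.val : ResidueField (R i))

section Residue

instance instNontrivialRes [Nonempty ι] : Nontrivial (∀ i, ResidueField (R i)) :=
  ⟨0, 1, fun h => zero_ne_one (α := ResidueField (R (Classical.arbitrary ι)))
    (congrFun h (Classical.arbitrary ι))⟩

/-- reduction in all components -/
def red : (∀ i, R i) →+* (∀ i, ResidueField (R i)) :=
  RingHom.pi fun i => (residue (R i)).comp (Pi.evalRingHom R i)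

@[simp] theorem red_apply (x : ∀ i, R i) (i : ι) :
    (red x : ∀ i, ResidueField (R i)) i = residue (R i) (x i) := rfl

theorem charP_red [Nonempty ι] (h2 : ∀ i, (2 : R i) ∈ maximalIdeal (R i)) :
    CharP (∀ i, ResidueField (R i)) 2 := by
  refine CharTwo.of_one_ne_zero_of_two_eq_zero one_ne_zero ?_
  funext i
  have : residue (R i) 2 = 0 := (residue_eq_zero_iff _).mpr (h2 i)
  rw [map_ofNat] at this
  exact this

/-- the diagonal `𝔽₂ → ∏ k_i` -/
def diag [Nonempty ι] (h2 : ∀ i, (2 : R i) ∈ maximalIdeal (R i)) :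
    ZMod 2 →+* (∀ i, ResidueField (R i)) :=
  haveI := charP_red h2
  ZMod.castHom dvd_rfl _

theorem diag_apply [Nonempty ι] (h2 : ∀ i, (2 : R i) ∈ maximalIdeal (R i)) (c : ZMod 2) (i : ι) :
    diag h2 c i = (c.val : ResidueField (R i)) := by
  haveI := charP_red h2
  have h : diag h2 c = ((c.val : ℕ) : ∀ i, ResidueField (R i)) := by
    conv_lhs => rw [← ZMod.natCast_zmod_val c]
    rw [map_natCast]
  rw [h]
  rfl

theorem diag_injective [Nonempty ι] (h2 : ∀ i, (2 : R i) ∈ maximalIdeal (R i)) :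
    Function.Injective (diag h2) := RingHom.injective _

variable {ρ : ∀ i, G →* Matrix (Fin 2) (Fin 2) (R i)}
  {ρbar : G →* Matrix (Fin 2) (Fin 2) (ZMod 2)} {χ : G →* ℤ_[2]}

theorem red_mem_range [Nonempty ι] (H : Cong ρ ρbar χ) {x : ∀ i, R i} (hx : x ∈ trAlg ρ) :
    red x ∈ (diag H.two_mem).range := by
  induction hx using Algebra.adjoin_induction with
  | mem x hx =>
    obtain ⟨g, rfl⟩ := hx
    refine ⟨(ρbar g).trace, ?_⟩
    funext i
    rw [diag_apply, red_apply, trS_apply, H.res]
  | algebraMap r =>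
    refine ⟨PadicInt.toZMod r, ?_⟩
    funext i
    rw [diag_apply, red_apply]
    have h1 : r - ((PadicInt.toZMod r).val : ℤ_[2]) ∈ maximalIdeal ℤ_[2] := by
      have := PadicInt.toZMod_spec (p := 2) r
      rwa [← ZMod.natCast_val] at this
    rw [PadicInt.maximalIdeal_eq_span_p, Ideal.mem_span_singleton] at h1
    obtain ⟨d, hd⟩ := h1
    have h3 : r = ((PadicInt.toZMod r).val : ℤ_[2]) + 2 * d := by
      push_cast at hd
      linear_combination hd
    have h4 : (algebraMap ℤ_[2] (∀ i, R i) r) i = ((PadicInt.toZMod r).val : R i) +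
        2 * algebraMap ℤ_[2] (R i) d := by
      rw [Pi.algebraMap_apply]
      conv_lhs => rw [h3]
      rw [map_add, map_mul, map_natCast, map_ofNat]
    rw [h4, map_add, map_mul, (residue_eq_zero_iff _).mpr (H.two_mem i), zero_mul, add_zero,
      map_natCast]
  | add x y _ _ hx hy => rw [map_add]; exact Subring.add_mem _ hx hy
  | mul x y _ _ hx hy => rw [map_mul]; exact Subring.mul_mem _ hx hy

/-- The residue map of the ring of traces. -/
def resA [Nonempty ι] (H : Cong ρ ρbar χ) : trAlg ρ →+* ZMod 2 :=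
  ((RingEquiv.ofBijective (diag H.two_mem).rangeRestrict
      ⟨fun _ _ h => diag_injective H.two_mem (congrArg Subtype.val h),
        RingHom.rangeRestrict_surjective _⟩).symm.toRingHom).comp
    ((red.comp (trAlg ρ).val.toRingHom).codRestrict (diag H.two_mem).range
      fun x => red_mem_range H x.2)

theorem diag_resA [Nonempty ι] (H : Cong ρ ρbar χ) (x : trAlg ρ) :
    diag H.two_mem (resA H x) = red (x : ∀ i, R i) := by
  have h := RingEquiv.apply_symm_apply (RingEquiv.ofBijective (diag H.two_mem).rangeRestrict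
      ⟨fun _ _ h => diag_injective H.two_mem (congrArg Subtype.val h),
        RingHom.rangeRestrict_surjective _⟩)
    ((red.comp (trAlg ρ).val.toRingHom).codRestrict (diag H.two_mem).range
      (fun x => red_mem_range H x.2) x)
  exact congrArg Subtype.val h

theorem residue_eq [Nonempty ι] (H : Cong ρ ρbar χ) (x : trAlg ρ) (i : ι) :
    residue (R i) ((x : ∀ i, R i) i) = ((resA H x).val : ResidueField (R i)) := by
  have h := congrFun (diag_resA H x) i
  rw [diag_apply] at h
  exact h.symm

/-- the trace as an element of the ring of traces -/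
def tA (ρ : ∀ i, G →* Matrix (Fin 2) (Fin 2) (R i)) (g : G) : trAlg ρ := ⟨trS ρ g, trS_mem ρ g⟩

@[simp] theorem tA_coe (g : G) (i : ι) : (tA ρ g : ∀ i, R i) i = (ρ i g).trace := rfl

theorem resA_tA [Nonempty ι] (H : Cong ρ ρbar χ) (g : G) : resA H (tA ρ g) = (ρbar g).trace := by
  refine diag_injective H.two_mem ?_
  rw [diag_resA]
  funext i
  rw [diag_apply, red_apply]
  exact H.res i g

end Residue

section Local

variable {ρ : ∀ i, G →* Matrix (Fin 2) (Fin 2) (R i)}
  {ρbar : G →* Matrix (Fin 2) (Fin 2) (ZMod 2)} {χ : G →* ℤ_[2]}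

instance : Module.Finite ℤ_[2] (trAlg ρ) :=
  Module.IsNoetherian.finite ℤ_[2] (Subalgebra.toSubmodule (trAlg ρ))

instance : Algebra.IsIntegral (trAlg ρ) (∀ i, R i) :=
  Algebra.IsIntegral.tower_top (R := ℤ_[2])

theorem zmod_two_cases (c : ZMod 2) : c = 0 ∨ c = 1 := by
  revert c; decide

theorem isUnit_iff [Nonempty ι] (H : Cong ρ ρbar χ) (x : trAlg ρ) :
    IsUnit x ↔ resA H x = 1 := by
  constructor
  · intro h
    have h1 := h.map (resA H)
    rcases zmod_two_cases (resA H x) with h0 | h0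
    · rw [h0] at h1; exact absurd h1 not_isUnit_zero
    · exact h0
  · intro h
    have h1 : IsUnit (algebraMap (trAlg ρ) (∀ i, R i) x) := by
      rw [Pi.isUnit_iff]
      intro i
      by_contra hu
      have h2 : (algebraMap (trAlg ρ) (∀ i, R i) x) i ∈ maximalIdeal (R i) := hu
      have h3 := residue_eq H x i
      rw [h] at h3
      rw [show residue (R i) ((x : ∀ i, R i) i) = 0 from (residue_eq_zero_iff _).mpr h2] at h3
      rw [ZMod.val_one, Nat.cast_one] at h3
      exact zero_ne_one h3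
    exact isUnit_of_map_unit _ _ h1

theorem isLocalRing [Nonempty ι] (H : Cong ρ ρbar χ) : IsLocalRing (trAlg ρ) := by
  haveI : Nontrivial (trAlg ρ) := (resA H).domain_nontrivial
  refine IsLocalRing.of_isUnit_or_isUnit_one_sub_self fun x => ?_
  rcases zmod_two_cases (resA H x) with h | h
  · right
    rw [isUnit_iff H, map_sub, map_one, h, sub_zero]
  · left
    rwa [isUnit_iff H]

theorem mem_max_iff [Nonempty ι] (H : Cong ρ ρbar χ) (x : trAlg ρ) :
    haveI := isLocalRing H
    x ∈ maximalIdeal (trAlg ρ) ↔ resA H x = 0 := by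
  haveI := isLocalRing H
  rw [IsLocalRing.mem_maximalIdeal, mem_nonunits_iff, isUnit_iff H]
  rcases zmod_two_cases (resA H x) with h | h <;> rw [h] <;> decide

theorem henselian [Nonempty ι] (H : Cong ρ ρbar χ) :
    haveI := isLocalRing H
    HenselianRing (trAlg ρ) (maximalIdeal (trAlg ρ)) := by
  haveI := isLocalRing H
  haveI : IsLocalHom (algebraMap ℤ_[2] (trAlg ρ)) := by
    refine ⟨fun a ha => ?_⟩
    by_contra hu
    have h1 : a ∈ maximalIdeal ℤ_[2] := hu
    rw [PadicInt.maximalIdeal_eq_span_p, Ideal.mem_span_singleton] at h1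
    obtain ⟨d, hd⟩ := h1
    have h2 := (isUnit_iff H _).mp ha
    rw [hd, map_mul, map_mul, map_natCast, map_natCast] at h2
    have h3 : ((2 : ℕ) : ZMod 2) = 0 := by decide
    rw [h3, zero_mul] at h2
    exact zero_ne_one h2
  haveI : IsAdicComplete (maximalIdeal (trAlg ρ)) (trAlg ρ) :=
    IsLocalRing.isAdicComplete_of_module_finite (𝒪 := ℤ_[2])
  exact IsAdicComplete.henselianRing _ _

end Local

end Fermat.Agent.P2.RT
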